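import Fermat.Agent.LP.PL.Form.SplitAS

/-!
# LP-PL-FORM, file `AS2`: the separating element of an Artin-Schreier generator
-/

set_option autoImplicit false

noncomputable section

namespace Fermat.Agent.LP.PL

variable {K' : Type*} [Field K'] [CharZero K'] {g : K' ≃+* K'} {p : ℕ}
  {W : ValuationSubring K'} {t : K'}

omit [CharZero K'] in
theorem AS2_iterate_eq (g : K' ≃+* K') (k : ℕ) : ∃ σ : K' ≃+* K', ∀ x, (⇑g)^[k] x = σ x := by
  induction k with
  | zero => exact ⟨RingEquiv.refl _, fun x => rfl⟩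
  | succ k ih =>
    obtain ⟨σ, hσ⟩ := ih
    exact ⟨g.trans σ, fun x => by rw [Function.iterate_succ_apply, hσ]; rfl⟩

omit [CharZero K'] in
theorem AS2_add_mem_nonunits {x y : K'} (hx : x ∈ W.nonunits) (hy : y ∈ W.nonunits) :
    x + y ∈ W.nonunits := by
  rw [ValuationSubring.mem_nonunits_iff] at *
  exact Valuation.map_add_lt _ hx hy

omit [CharZero K'] in
theorem AS2_sub_mem_nonunits {x y : K'} (hx : x ∈ W.nonunits) (hy : y ∈ W.nonunits) :
    x - y ∈ W.nonunits := by
  rw [ValuationSubring.mem_nonunits_iff] at *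
  exact Valuation.map_sub_lt _ hx hy

omit [CharZero K'] in
theorem AS2_mul_mem_nonunits {x y : K'} (hx : x ∈ W.nonunits) (hy : y ∈ W) :
    x * y ∈ W.nonunits := by
  rw [ValuationSubring.mem_nonunits_iff] at *
  rw [map_mul]
  exact mul_lt_one_of_lt_of_le hx ((W.valuation_le_one_iff y).mpr hy)

theorem AS2_mem_nonunits_of_div (hp : p.Prime) (hpW : (p : K') ∈ W.nonunits) {x : K'}
    (hx : x / (p : K') ∈ W) : x ∈ W.nonunits := by
  have hp0 : (p : K') ≠ 0 := Nat.cast_ne_zero.mpr hp.ne_zero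
  have : x = (p : K') * (x / (p : K')) := by field_simp
  rw [this]
  exact AS2_mul_mem_nonunits hpW hx

/-- `g^k t - t - k = ∑_{j<k} g^j (g t - t - 1) ∈ 𝔪_W` (`x ∈ W.nonunits ↔ W.valuation x < 1`). -/
theorem ASAt.iterate_sub (h : ASAt g p W t) (k : ℕ) :
    (⇑g)^[k] t - t - (k : K') ∈ W.nonunits := by
  induction k with
  | zero =>
    rw [ValuationSubring.mem_nonunits_iff]
    simp
  | succ k ih =>
    obtain ⟨σ, hσ⟩ := AS2_iterate_eq g k
    have h1 := h.shift k
    have h2 : (⇑g)^[k + 1] t - t - ((k + 1 : ℕ) : K')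
        = ((⇑g)^[k] t - t - (k : K')) + (⇑g)^[k] (g t - t - 1) := by
      rw [Function.iterate_succ_apply, hσ, hσ, hσ, map_sub, map_sub, map_one]
      push_cast
      ring
    rw [h2]
    exact AS2_add_mem_nonunits ih h1

/-- `g^k t ≡ i + k` modulo `p W`. -/
theorem ASAt.iterate_residue (hp : p.Prime) (hpW : (p : K') ∈ W.nonunits) (h : ASAt g p W t)
    {i : ℕ} (hi : (t - (i : K')) / (p : K') ∈ W) (k : ℕ) :
    ((⇑g)^[k] t - ((i + k : ℕ) : K')) / (p : K') ∈ W := by
  have hp0 : (p : K') ≠ 0 := Nat.cast_ne_zero.mpr hp.ne_zero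
  obtain ⟨σ, hσ⟩ := AS2_iterate_eq g k
  have hx : (⇑g)^[k] t ∈ W := h.mem k
  have has : (((⇑g)^[k] t) ^ p - (⇑g)^[k] t) / (p : K') ∈ W := by
    have := h.as k
    rw [hσ, map_div₀, map_sub, map_pow, map_natCast, ← hσ] at this
    exact this
  obtain ⟨ik, _, hik⟩ := exists_residue_of_as hp hpW hx has
  have hnu : (((ik : ℤ) - (i : ℤ) - (k : ℤ) : ℤ) : K') ∈ W.nonunits := by
    have e : (((ik : ℤ) - (i : ℤ) - (k : ℤ) : ℤ) : K')
        = ((⇑g)^[k] t - t - (k : K')) - ((⇑g)^[k] t - (ik : K')) + (t - (i : K')) := by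
      push_cast
      ring
    rw [e]
    exact AS2_add_mem_nonunits (AS2_sub_mem_nonunits (h.iterate_sub k)
      (AS2_mem_nonunits_of_div hp hpW hik)) (AS2_mem_nonunits_of_div hp hpW hi)
  obtain ⟨m, hm⟩ := dvd_of_intCast_mem_nonunits hp hpW hnu
  have e2 : ((⇑g)^[k] t - ((i + k : ℕ) : K')) / (p : K')
      = ((⇑g)^[k] t - (ik : K')) / (p : K') + (m : K') := by
    have hm' : ((ik : K') - (i : K') - (k : K')) = (p : K') * (m : K') := by
      have := congrArg (fun z : ℤ => (z : K')) hm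
      push_cast at this
      exact this
    have hik' : (ik : K') = (p : K') * (m : K') + (i : K') + (k : K') := by
      rw [← hm']; ring
    rw [hik']
    push_cast
    field_simp
    ring
  rw [e2]
  exact W.add_mem _ _ hik (intCast_mem W m)

/-- THE SEPARATING ELEMENT. -/
theorem ASAt.sepAt (hp : p.Prime) (hpW : (p : K') ∈ W.nonunits) (h : ASAt g p W t) {i : ℕ}
    (hi : (t - (i : K')) / (p : K') ∈ W) :
    SepAt g p W (p : K') (1 - (t - (i : K')) ^ (p - 1)) := by
  have hp0 : (p : K') ≠ 0 := Nat.cast_ne_zero.mpr hp.ne_zero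
  have hp2 := hp.two_le
  refine ⟨?_, fun k hk0 hkp => ?_⟩
  · have ht : t - (i : K') ∈ W := W.sub_mem (h.mem 0) (natCast_mem W i)
    have e : (1 - (1 - (t - (i : K')) ^ (p - 1))) / (p : K')
        = (t - (i : K')) / (p : K') * (t - (i : K')) ^ (p - 2) := by
      have : p - 1 = (p - 2) + 1 := by omega
      rw [this, pow_succ]
      ring
    rw [e]
    exact W.mul_mem _ _ hi (W.pow_mem ht _)
  · obtain ⟨σ, hσ⟩ := AS2_iterate_eq g k
    have hres := h.iterate_residue hp hpW hi k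
    set x := (⇑g)^[k] t with hxdef
    have hxW : x ∈ W := h.mem k
    have e1 : (⇑g)^[k] (1 - (t - (i : K')) ^ (p - 1)) = 1 - (x - (i : K')) ^ (p - 1) := by
      rw [hσ, map_sub, map_one, map_pow, map_sub, map_natCast, ← hσ]
    -- Fermat
    have hcop : IsCoprime (k : ℤ) (p : ℤ) := by
      rw [Nat.isCoprime_iff_coprime]
      exact (Nat.coprime_of_lt_prime hk0.ne' hkp hp).symm
    have hF := (Int.modEq_iff_dvd.mp (Int.ModEq.pow_card_sub_one_eq_one hp hcop))
    obtain ⟨m, hm⟩ := hF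
    have hm' : (1 : K') - (k : K') ^ (p - 1) = (p : K') * (m : K') := by
      have := congrArg (fun z : ℤ => (z : K')) hm
      push_cast at this
      exact this
    have hgeom := (Commute.all (x - (i : K')) (k : K')).mul_geom_sum₂ (p - 1)
    have hS : ∑ j ∈ Finset.range (p - 1), (x - (i : K')) ^ j * (k : K') ^ (p - 1 - 1 - j) ∈ W := by
      refine W.toSubring.sum_mem (fun j _ => ?_)
      exact W.mul_mem _ _ (W.pow_mem (W.sub_mem hxW (natCast_mem W i)) _)
        (W.pow_mem (natCast_mem W k) _)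
    have e2 : (1 - (x - (i : K')) ^ (p - 1)) / (p : K')
        = (m : K') - (x - ((i + k : ℕ) : K')) / (p : K')
          * ∑ j ∈ Finset.range (p - 1), (x - (i : K')) ^ j * (k : K') ^ (p - 1 - 1 - j) := by
      have e3 : 1 - (x - (i : K')) ^ (p - 1)
          = (p : K') * (m : K') - ((x - (i : K')) ^ (p - 1) - (k : K') ^ (p - 1)) := by
        rw [← hm']; ring
      rw [e3, ← hgeom]
      push_cast
      field_simp
      ring
    rw [e1, e2]
    exact W.sub_mem (intCast_mem W m) (W.mul_mem _ _ hres hS)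

end Fermat.Agent.LP.PL
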