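import Fermat.Agent.LP.PL.Form.Split

/-!
# LP-PL-FORM, file `Split2`: consequences of the density lemma (`e = f = 1`, uniqueness)
-/

set_option autoImplicit false

noncomputable section

namespace Fermat.Agent.LP.PL

variable {K' : Type*} [Field K'] {g : K' ≃+* K'} {p : ℕ} {W : ValuationSubring K'} {c e : K'}

/-- `w ≡ 1` modulo `c`, `c` a nonunit: `w` is a unit of every valuation subring `V ≤ W`
(`ValuationSubring.nonunits_le_nonunits`; `1 + m` is a unit for `m ∈ V.nonunits`). -/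
theorem unit_of_cong_one (hc0 : c ≠ 0) (hc : c ∈ W.nonunits) {V : ValuationSubring K'}
    (hV : V ≤ W) {w : K'} (hw : (w - 1) / c ∈ W) : w ∈ V ∧ w⁻¹ ∈ V ∧ w ≠ 0 := by
  have hm : w - 1 ∈ W.nonunits := by
    have h1 : w - 1 = c * ((w - 1) / c) := by field_simp
    rw [h1, ValuationSubring.mem_nonunits_iff, map_mul]
    exact mul_lt_one_of_lt_of_le ((ValuationSubring.mem_nonunits_iff _).1 hc)
      ((W.valuation_le_one_iff _).2 hw)
  have hmV : w - 1 ∈ V.nonunits := (ValuationSubring.nonunits_le_nonunits.2 hV) hm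
  have hv : V.valuation w = 1 := by
    have h1 := Valuation.map_one_add_of_lt V.valuation ((ValuationSubring.mem_nonunits_iff _).1 hmV)
    rwa [add_sub_cancel] at h1
  refine ⟨(V.valuation_le_one_iff _).1 hv.le, ?_, ?_⟩
  · rw [← V.valuation_le_one_iff, map_inv₀, hv, inv_one]
  · rintro rfl
    rw [map_zero] at hv
    exact zero_ne_one hv

/-- `e = 1`, `f = 1` in one statement. -/
theorem exists_fixed_approx (hp : 0 < p) (hg : ∀ x, (⇑g)^[p] x = x) (hc0 : c ≠ 0)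
    (hc : c ∈ W.nonunits) (hA : Arch W c) (h : SepAt g p W c e) {x : K'} (hx : x ≠ 0) :
    ∃ y : K', g y = y ∧ y ≠ 0 ∧ (y / x - 1) / c ∈ W := by
  obtain ⟨n₀, hn₀⟩ := dense hp hc0 (W.nonunits_subset hc) hA h hx
  refine ⟨trG g p (x * sepSeq e n₀), trG_fixed hg _, ?_, hn₀ n₀ le_rfl⟩
  have h1 := (unit_of_cong_one hc0 hc le_rfl (hn₀ n₀ le_rfl)).2.2
  exact fun h0 => h1 (by rw [h0, zero_div])

/-- `f = 1`. -/
theorem exists_fixed_residue (hp : 0 < p) (hg : ∀ x, (⇑g)^[p] x = x) (hc0 : c ≠ 0)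
    (hc : c ∈ W.nonunits) (hA : Arch W c) (h : SepAt g p W c e) {x : K'} (hx : x ∈ W) :
    ∃ y : K', g y = y ∧ y ∈ W ∧ (x - y) / c ∈ W := by
  by_cases hx0 : x = 0
  · refine ⟨0, map_zero g, zero_mem W, ?_⟩
    rw [hx0, sub_zero, zero_div]
    exact zero_mem W
  obtain ⟨y, hgy, -, hy⟩ := exists_fixed_approx hp hg hc0 hc hA h hx0
  refine ⟨y, hgy, ?_, ?_⟩
  · have h1 := (unit_of_cong_one hc0 hc le_rfl hy).1
    have h2 : y = x * (y / x) := by field_simp
    rw [h2]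
    exact mul_mem hx h1
  · have h2 : (x - y) / c = -x * ((y / x - 1) / c) := by
      field_simp
      ring
    rw [h2]
    exact mul_mem (neg_mem hx) hy

/-- `e = 1` for all valuation subrings `V ≤ W`, in the form "`PDivAt` descends to the fixed field":
`b := ` an approximation of `a`, `b ^ n * y = (a ^ n * y) * (b / a) ^ n`. -/
theorem pdiv_descend (hp : 0 < p) (hg : ∀ x, (⇑g)^[p] x = x) (hc0 : c ≠ 0)
    (hc : c ∈ W.nonunits) (hA : Arch W c) (h : SepAt g p W c e) {V : ValuationSubring K'}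
    (hV : V ≤ W) {n : ℕ} {y a : K'} (ha : a ≠ 0) (h1 : a ^ n * y ∈ V) (h2 : (a ^ n * y)⁻¹ ∈ V) :
    ∃ b : K', g b = b ∧ b ≠ 0 ∧ b ^ n * y ∈ V ∧ (b ^ n * y)⁻¹ ∈ V := by
  obtain ⟨b, hgb, hb0, hb⟩ := exists_fixed_approx hp hg hc0 hc hA h ha
  obtain ⟨u1, u2, -⟩ := unit_of_cong_one hc0 hc hV hb
  refine ⟨b, hgb, hb0, ?_, ?_⟩
  · have h3 : b ^ n * y = a ^ n * y * (b / a) ^ n := by
      rw [div_pow]
      have := pow_ne_zero n ha
      field_simp
    rw [h3]
    exact mul_mem h1 (pow_mem u1 n)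
  · have h3 : (b ^ n * y)⁻¹ = (a ^ n * y)⁻¹ * ((b / a)⁻¹) ^ n := by
      rw [inv_pow, ← mul_inv, div_pow]
      have := pow_ne_zero n ha
      congr 1
      field_simp
    rw [h3]
    exact mul_mem h2 (pow_mem u2 n)

/-- Two valuation subrings with the same trace on the fixed field which are separated from their
conjugates by the same element are equal: for `x ≠ 0` take `n` larger than the two `n₀` of `dense`;
`x_n = trG g p (x * sepSeq e n)` is fixed by `g` and `x_n / x` is a unit of `W₁` and of `W₂`. -/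
theorem eq_of_sepAt {W₁ W₂ : ValuationSubring K'} (hp : 0 < p) (hg : ∀ x, (⇑g)^[p] x = x)
    (hc0 : c ≠ 0) (hc₁ : c ∈ W₁.nonunits) (hc₂ : c ∈ W₂.nonunits) (hA₁ : Arch W₁ c)
    (hA₂ : Arch W₂ c) (h₁ : SepAt g p W₁ c e) (h₂ : SepAt g p W₂ c e)
    (hfix : ∀ y : K', g y = y → (y ∈ W₁ ↔ y ∈ W₂)) : W₁ = W₂ := by
  ext x
  by_cases hx0 : x = 0
  · rw [hx0]
    exact ⟨fun _ => zero_mem _, fun _ => zero_mem _⟩
  obtain ⟨n₁, hn₁⟩ := dense hp hc0 (W₁.nonunits_subset hc₁) hA₁ h₁ hx0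
  obtain ⟨n₂, hn₂⟩ := dense hp hc0 (W₂.nonunits_subset hc₂) hA₂ h₂ hx0
  set y : K' := trG g p (x * sepSeq e (max n₁ n₂)) with hy
  have hgy : g y = y := trG_fixed hg _
  obtain ⟨a1, a2, -⟩ := unit_of_cong_one hc0 hc₁ le_rfl (hn₁ _ (le_max_left n₁ n₂))
  obtain ⟨b1, b2, -⟩ := unit_of_cong_one hc0 hc₂ le_rfl (hn₂ _ (le_max_right n₁ n₂))
  rw [← hy] at a1 a2 b1 b2
  have hy0 : y ≠ 0 := by
    intro h0
    have := (unit_of_cong_one hc0 hc₁ le_rfl (hn₁ _ (le_max_left n₁ n₂))).2.2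
    rw [← hy, h0, zero_div] at this
    exact this rfl
  have e1 : y = x * (y / x) := by field_simp
  have e2 : x = y * (y / x)⁻¹ := by field_simp
  constructor
  · intro hx
    have h3 : y ∈ W₁ := by
      rw [e1]
      exact mul_mem hx a1
    rw [e2]
    exact mul_mem ((hfix y hgy).1 h3) b2
  · intro hx
    have h3 : y ∈ W₂ := by
      rw [e1]
      exact mul_mem hx b1
    rw [e2]
    exact mul_mem ((hfix y hgy).2 h3) a2

end Fermat.Agent.LP.PL
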