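import Fermat.Agent.LP.PL.Form.AS2
import Fermat.Agent.LP.PL.Form.Split2

/-!
# LP-PL-FORM, file `AS3`: the conjugates of `W`; all extensions are conjugate
-/

set_option autoImplicit false

noncomputable section

namespace Fermat.Agent.LP.PL

variable {K' : Type*} [Field K'] [CharZero K'] {g : K' ≃+* K'} {p : ℕ}
  {W : ValuationSubring K'} {t : K'}

/-- the conjugate `{x | g^k x ∈ W}` of `W`. -/
def conjW (g : K' ≃+* K') (k : ℕ) (W : ValuationSubring K') : ValuationSubring K' :=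
  W.comap ((g : K' →+* K') ^ k)

theorem AS3_pow_apply (g : K' ≃+* K') (k : ℕ) (x : K') :
    ((g : K' →+* K') ^ k) x = (⇑g)^[k] x := by
  rw [RingHom.coe_pow]
  rfl

theorem mem_conjW {k : ℕ} {x : K'} : x ∈ conjW g k W ↔ (⇑g)^[k] x ∈ W := by
  rw [conjW, ValuationSubring.mem_comap, AS3_pow_apply]

theorem AS3_mem_nonunits_iff (A : ValuationSubring K') (x : K') :
    x ∈ A.nonunits ↔ x = 0 ∨ x⁻¹ ∉ A := by
  rw [ValuationSubring.mem_nonunits_iff]
  by_cases hx : x = 0
  · simp [hx]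
  · rw [← ValuationSubring.valuation_le_one_iff, map_inv₀, not_le]
    have hv : A.valuation x ≠ 0 := (Valuation.ne_zero_iff _).2 hx
    constructor
    · intro h
      exact Or.inr ((one_lt_inv₀ (zero_lt_iff.2 hv)).2 h)
    · rintro (h | h)
      · exact absurd h hx
      · exact (one_lt_inv₀ (zero_lt_iff.2 hv)).1 h

theorem AS3_nonunits_mul_mem (A : ValuationSubring K') {a b : K'} (ha : a ∈ A.nonunits)
    (hb : b ∈ A) : a * b ∈ A.nonunits := by
  rw [ValuationSubring.mem_nonunits_iff] at ha ⊢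
  rw [← ValuationSubring.valuation_le_one_iff] at hb
  rw [map_mul]
  calc A.valuation a * A.valuation b ≤ A.valuation a * 1 := mul_le_mul_right hb _
    _ = A.valuation a := mul_one _
    _ < 1 := ha

theorem AS3_iterate_natCast (g : K' ≃+* K') (k : ℕ) (m : ℕ) : (⇑g)^[k] (m : K') = m := by
  rw [← AS3_pow_apply, map_natCast]

theorem AS3_iterate_div (g : K' ≃+* K') (k : ℕ) (x y : K') :
    (⇑g)^[k] (x / y) = (⇑g)^[k] x / (⇑g)^[k] y := by
  rw [← AS3_pow_apply, ← AS3_pow_apply, ← AS3_pow_apply, map_div₀]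

theorem AS3_iterate_sub (g : K' ≃+* K') (k : ℕ) (x y : K') :
    (⇑g)^[k] (x - y) = (⇑g)^[k] x - (⇑g)^[k] y := by
  rw [← AS3_pow_apply, ← AS3_pow_apply, ← AS3_pow_apply, map_sub]

theorem mem_nonunits_conjW {k : ℕ} {x : K'} :
    x ∈ (conjW g k W).nonunits ↔ (⇑g)^[k] x ∈ W.nonunits := by
  rw [AS3_mem_nonunits_iff, AS3_mem_nonunits_iff, mem_conjW, ← AS3_pow_apply, ← AS3_pow_apply,
    map_inv₀, map_eq_zero]

theorem ASAt.conj (h : ASAt g p W t) (k : ℕ) : ASAt g p (conjW g k W) t := by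
  refine ⟨fun j => ?_, fun j => ?_, fun j => ?_⟩
  · rw [mem_conjW, ← Function.iterate_add_apply]
    exact h.mem _
  · rw [mem_conjW, ← Function.iterate_add_apply]
    exact h.as _
  · rw [mem_nonunits_conjW, ← Function.iterate_add_apply]
    exact h.shift _

theorem Arch.conj {c : K'} (hgc : g c = c) (h : Arch W c) (k : ℕ) : Arch (conjW g k W) c := by
  intro y
  obtain ⟨n, hn⟩ := h ((⇑g)^[k] y)
  refine ⟨n, ?_⟩
  have hc : (⇑g)^[k] c = c := Function.iterate_fixed hgc k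
  rw [mem_conjW, ← AS3_pow_apply, map_mul, map_pow, AS3_pow_apply, AS3_pow_apply, hc]
  exact hn

/-- ALL THE EXTENSIONS ARE CONJUGATE: two valuation subrings with the same trace on the fixed field
of `g`, at which `t` is an Artin-Schreier generator, are conjugate.
(`t ≡ i` at `W₁`, `t ≡ i'` at `W₂`; `k` with `i + k ≡ i'` modulo `p`; `t ≡ i'` at `conjW g k W₁`;
`eq_of_sepAt` with `e = 1 - (t - i') ^ (p-1)`.) -/
theorem exists_conj_eq {W₁ W₂ : ValuationSubring K'} (hp : p.Prime)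
    (hg : ∀ x, (⇑g)^[p] x = x) (hp₁ : (p : K') ∈ W₁.nonunits) (hp₂ : (p : K') ∈ W₂.nonunits)
    (hA₁ : Arch W₁ (p : K')) (hA₂ : Arch W₂ (p : K')) (h₁ : ASAt g p W₁ t) (h₂ : ASAt g p W₂ t)
    (hfix : ∀ y : K', g y = y → (y ∈ W₁ ↔ y ∈ W₂)) : ∃ k : ℕ, k < p ∧ W₂ = conjW g k W₁ := by
  obtain ⟨i, hi, hi₁⟩ := h₁.exists_residue hp hp₁
  obtain ⟨i', hi', hi₂⟩ := h₂.exists_residue hp hp₂
  have hp0 : (p : K') ≠ 0 := by exact_mod_cast hp.ne_zero
  have hgp : g (p : K') = p := map_natCast g p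
  -- choice of `k`
  obtain ⟨k, hk, m, hm⟩ : ∃ k : ℕ, k < p ∧ ∃ m : ℕ, i + k = i' + p * m := by
    by_cases hle : i ≤ i'
    · exact ⟨i' - i, by omega, 0, by omega⟩
    · exact ⟨i' + p - i, by omega, 1, by omega⟩
  refine ⟨k, hk, ?_⟩
  have hres : (t - (i' : K')) / (p : K') ∈ conjW g k W₁ := by
    rw [mem_conjW, AS3_iterate_div, AS3_iterate_sub, AS3_iterate_natCast, AS3_iterate_natCast]
    have h3 := h₁.iterate_residue hp hp₁ hi₁ k
    have h4 : ((⇑g)^[k] t - (i' : K')) / (p : K') =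
        ((⇑g)^[k] t - ((i + k : ℕ) : K')) / (p : K') + (m : K') := by
      rw [hm]
      push_cast
      field_simp
      ring
    rw [h4]
    exact W₁.add_mem _ _ h3 (natCast_mem W₁ m)
  have hpc : (p : K') ∈ (conjW g k W₁).nonunits := by
    rw [mem_nonunits_conjW, AS3_iterate_natCast]
    exact hp₁
  refine eq_of_sepAt hp.pos hg hp0 hp₂ hpc hA₂ (hA₁.conj hgp k) (h₂.sepAt hp hp₂ hi₂)
    ((h₁.conj k).sepAt hp hpc hres) ?_
  intro y hy
  rw [mem_conjW, Function.iterate_fixed hy k]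
  exact (hfix y hy).symm

/-- the conjugates are pairwise distinct. -/
theorem conjW_ne (hp : p.Prime) (hpW : (p : K') ∈ W.nonunits) (h : ASAt g p W t) {k k' : ℕ}
    (hk : k < p) (hk' : k' < p) (hkk' : k ≠ k') : conjW g k W ≠ conjW g k' W := by
  intro heq
  obtain ⟨i, -, hi⟩ := h.exists_residue hp hpW
  have hp0 : (p : K') ≠ 0 := by exact_mod_cast hp.ne_zero
  have key : ∀ j : ℕ, (t - ((i + j : ℕ) : K')) / (p : K') ∈ conjW g j W := by
    intro j
    rw [mem_conjW, AS3_iterate_div, AS3_iterate_sub, AS3_iterate_natCast, AS3_iterate_natCast]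
    exact h.iterate_residue hp hpW hi j
  have h1 := key k
  have h2 := key k'
  rw [← heq] at h2
  have hpc : (p : K') ∈ (conjW g k W).nonunits := by
    rw [mem_nonunits_conjW, AS3_iterate_natCast]
    exact hpW
  have h3 := AS3_nonunits_mul_mem _ hpc ((conjW g k W).sub_mem h1 h2)
  have h4 : (p : K') * ((t - ((i + k : ℕ) : K')) / (p : K') - (t - ((i + k' : ℕ) : K')) / (p : K')) =
      (((k' : ℤ) - (k : ℤ) : ℤ) : K') := by
    push_cast
    field_simp
    ring
  rw [h4] at h3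
  have h5 := dvd_of_intCast_mem_nonunits hp hpc h3
  obtain ⟨d, hd⟩ := h5
  have hk1 : (k : ℤ) < p := by exact_mod_cast hk
  have hk2 : (k' : ℤ) < p := by exact_mod_cast hk'
  have hne : (k' : ℤ) - k ≠ 0 := by
    intro h0
    apply hkk'
    have : (k' : ℤ) = k := by linarith
    exact_mod_cast this.symm
  have hd0 : d ≠ 0 := by
    rintro rfl
    rw [mul_zero] at hd
    exact hne hd
  have hp1 : (0 : ℤ) < p := by exact_mod_cast hp.pos
  rcases lt_or_gt_of_ne hd0 with hneg | hpos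
  · have : (p : ℤ) * d ≤ -p := by nlinarith
    have hk0 : (0 : ℤ) ≤ k' := Int.natCast_nonneg _
    linarith
  · have : (p : ℤ) ≤ p * d := by nlinarith
    have hk0 : (0 : ℤ) ≤ k := Int.natCast_nonneg _
    linarith

end Fermat.Agent.LP.PL
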