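import Mathlib

/-!
# LP-PL-FORM (S44): definitions of the abstract part (valuation theory of (P2), Mathlib only)

`K'` is a field with an automorphism `g` of order `p` (fixed field `K`), `W` a valuation subring of
`K'`.  If `W` is separated from its conjugates `g ^ (-k) W` by an element `e` (`SepAt`) and the powers
of `c` are cofinal (`Arch`), then `K` is dense in `K'` for the topology of `W`: `e = f = 1`, for `W` and
for all the valuation subrings contained in `W`.
-/

set_option autoImplicit false

noncomputable section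

namespace Fermat.Agent.LP.PL

section Abs

variable {K' : Type*} [Field K']

/-- the trace with respect to the cyclic group generated by `g` (of order dividing `p`). -/
def trG (g : K' ≃+* K') (p : ℕ) (x : K') : K' := ∑ k ∈ Finset.range p, (⇑g)^[k] x

/-- `e ≡ 1` modulo `c` at `W`, and `e ≡ 0` modulo `c` at the conjugates `g ^ (-k) W`, `0 < k < p`. -/
def SepAt (g : K' ≃+* K') (p : ℕ) (W : ValuationSubring K') (c e : K') : Prop :=
  (1 - e) / c ∈ W ∧ ∀ k : ℕ, 0 < k → k < p → (⇑g)^[k] e / c ∈ W

/-- lifting of idempotents: `e ↦ 3 e ^ 2 - 2 e ^ 3`. -/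
def sepSeq (e : K') : ℕ → K'
  | 0 => e
  | n + 1 => 3 * sepSeq e n ^ 2 - 2 * sepSeq e n ^ 3

/-- the powers of `c` are cofinal in the value group of `W`. -/
def Arch (W : ValuationSubring K') (c : K') : Prop := ∀ y : K', ∃ n : ℕ, c ^ n * y ∈ W

/-- `t` is an Artin-Schreier generator at `W` and at all its conjugates:
`t ^ p - t ≡ 0` modulo `p`, `g t ≡ t + 1`. -/
structure ASAt (g : K' ≃+* K') (p : ℕ) (W : ValuationSubring K') (t : K') : Prop where
  mem : ∀ k : ℕ, (⇑g)^[k] t ∈ W
  as : ∀ k : ℕ, (⇑g)^[k] ((t ^ p - t) / (p : K')) ∈ W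
  shift : ∀ k : ℕ, (⇑g)^[k] (g t - t - 1) ∈ W.nonunits

end Abs

end Fermat.Agent.LP.PL
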