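import Fermat.Agent.LP.PL.Form.AbsDefs

/-!
# LP-PL-FORM, file `ArchExt` (Mathlib only): cofinality passes to the extension

`x ∈ K'`.  `P(T) = ∏_{k<p} (T - g^k x) = T^p - s₁ T^(p-1) + ⋯ ± s_p`, the `s_j` are fixed by `g`
(`g` permutes the roots cyclically).  Choose `n` with `c ^ n * s_j ∈ W` for all `j`.  Then `y = c ^ n * x`
is a root of `T^p - c^n s₁ T^(p-1) + c^(2n) s₂ T^(p-2) - ⋯`, monic with coefficients in `W`, so `y ∈ W`
(if `y ∉ W` then `y⁻¹ ∈ W` and `y = c^n s₁ - c^(2n) s₂ y⁻¹ + ⋯ ∈ W`; or `W` is integrally closed).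
-/

set_option autoImplicit false

noncomputable section

namespace Fermat.Agent.LP.PL

variable {K' : Type*} [Field K'] {g : K' ≃+* K'} {p : ℕ} {W : ValuationSubring K'} {c : K'}

/-- a root of a monic polynomial with coefficients in `W` lies in `W`. -/
theorem mem_of_monic_root {n : ℕ} (a : ℕ → K') (ha : ∀ i, a i ∈ W) {y : K'}
    (h : y ^ (n + 1) = ∑ i ∈ Finset.range (n + 1), a i * y ^ i) : y ∈ W := by
  by_contra hy
  have hinv : y⁻¹ ∈ W := (W.mem_or_inv_mem y).resolve_left hy
  have hy0 : y ≠ 0 := by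
    rintro rfl
    exact hy W.zero_mem
  apply hy
  have e : y = ∑ i ∈ Finset.range (n + 1), a i * y⁻¹ ^ (n - i) := by
    apply mul_right_cancel₀ (pow_ne_zero n hy0)
    rw [← pow_succ', h, Finset.sum_mul]
    refine Finset.sum_congr rfl fun i hi => ?_
    have hi' : i ≤ n := Nat.lt_succ_iff.mp (Finset.mem_range.mp hi)
    have : y ^ n = y ^ (n - i) * y ^ i := by rw [← pow_add, Nat.sub_add_cancel hi']
    rw [this, mul_assoc, ← mul_assoc (y⁻¹ ^ (n - i)), ← mul_pow, inv_mul_cancel₀ hy0, one_pow,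
      one_mul]
  rw [e]
  exact sum_mem fun i _ => W.mul_mem _ _ (ha i) (pow_mem hinv _)

open Polynomial in
/-- every `x` satisfies a monic equation of degree `p` whose coefficients are fixed by `g`. -/
theorem exists_monic_fixed (hp : 0 < p) (hg : ∀ x, (⇑g)^[p] x = x) (x : K') :
    ∃ s : ℕ → K', (∀ i, g (s i) = s i) ∧ x ^ p = ∑ i ∈ Finset.range p, s i * x ^ i := by
  let f : ℕ → K'[X] := fun k => X - C ((⇑g)^[k] x)
  let P : K'[X] := ∏ k ∈ Finset.range p, f k
  have hmonic : P.Monic := monic_prod_of_monic _ _ fun k _ => monic_X_sub_C _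
  have hdeg : P.natDegree = p := by
    rw [natDegree_prod_of_monic _ _ fun k _ => monic_X_sub_C _]
    simp [f]
  have hmap : P.map (g : K' →+* K') = P := by
    have h1 : P.map (g : K' →+* K') = ∏ k ∈ Finset.range p, f (k + 1) := by
      rw [Polynomial.map_prod]
      refine Finset.prod_congr rfl fun k _ => ?_
      simp only [f, Polynomial.map_sub, map_X, map_C, Function.iterate_succ_apply']
      rfl
    have h2 : (∏ k ∈ Finset.range p, f (k + 1)) * f 0 = P * f p := by
      rw [← Finset.prod_range_succ', Finset.prod_range_succ]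
    have h3 : f p = f 0 := by
      simp only [f, hg x, Function.iterate_zero, id_eq]
    rw [h3] at h2
    rw [h1]
    exact mul_right_cancel₀ (monic_X_sub_C _).ne_zero h2
  have hroot : P.eval x = 0 := by
    rw [eval_prod]
    refine Finset.prod_eq_zero (Finset.mem_range.mpr hp) ?_
    simp [f]
  refine ⟨fun i => -P.coeff i, fun i => ?_, ?_⟩
  · have := congrArg (fun Q : K'[X] => Q.coeff i) hmap
    simp only [coeff_map] at this
    rw [map_neg]
    exact congrArg Neg.neg this
  · rw [eval_eq_sum_range, hdeg, Finset.sum_range_succ] at hroot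
    have hlead : P.coeff p = 1 := by
      have := hmonic.coeff_natDegree
      rwa [hdeg] at this
    rw [hlead, one_mul] at hroot
    rw [eq_neg_of_add_eq_zero_right hroot, ← Finset.sum_neg_distrib]
    exact Finset.sum_congr rfl fun i _ => (neg_mul _ _).symm

theorem arch_of_fixed (hp : 0 < p) (hg : ∀ x, (⇑g)^[p] x = x) (hc : c ∈ W)
    (h : ∀ y : K', g y = y → ∃ n : ℕ, c ^ n * y ∈ W) : Arch W c := by
  intro x
  obtain ⟨s, hs, hx⟩ := exists_monic_fixed hp hg x
  choose n hn using fun i => h (s i) (hs i)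
  obtain ⟨m, rfl⟩ : ∃ m, p = m + 1 := ⟨p - 1, by omega⟩
  let M : ℕ := ∑ i ∈ Finset.range (m + 1), n i
  have hM : ∀ i ∈ Finset.range (m + 1), c ^ M * s i ∈ W := by
    intro i hi
    have hle : n i ≤ M := Finset.single_le_sum (f := n) (fun _ _ => Nat.zero_le _) hi
    have : c ^ M * s i = c ^ (M - n i) * (c ^ n i * s i) := by
      rw [← mul_assoc, ← pow_add, Nat.sub_add_cancel hle]
    rw [this]
    exact W.mul_mem _ _ (pow_mem hc _) (hn i)
  refine ⟨M, ?_⟩
  refine mem_of_monic_root (n := m)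
    (fun i => if i ∈ Finset.range (m + 1) then c ^ (M * (m - i)) * (c ^ M * s i) else 0) ?_ ?_
  · intro i
    show (if i ∈ Finset.range (m + 1) then c ^ (M * (m - i)) * (c ^ M * s i) else 0) ∈ W
    split_ifs with hi
    · exact W.mul_mem _ _ (pow_mem hc _) (hM i hi)
    · exact W.zero_mem
  · rw [mul_pow, hx, Finset.mul_sum]
    refine Finset.sum_congr rfl fun i hi => ?_
    rw [if_pos hi]
    have hi' : i ≤ m := Nat.lt_succ_iff.mp (Finset.mem_range.mp hi)
    have e : (c ^ M) ^ (m + 1) = c ^ (M * (m - i)) * c ^ M * (c ^ M) ^ i := by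
      rw [← pow_mul, ← pow_mul, ← pow_add, ← pow_add]
      congr 1
      obtain ⟨d, rfl⟩ := Nat.exists_eq_add_of_le hi'
      rw [Nat.add_sub_cancel_left]
      ring
    rw [e, mul_pow]
    ring

end Fermat.Agent.LP.PL
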