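import Mathlib

/-!
# LP-PL-FORM, file `CertAbs` (Mathlib only): finiteness of `F(z)` over `K(x)`
-/

set_option autoImplicit false

namespace Fermat.Agent.LP.PL

open IntermediateField

theorem CertAbs_map_mem {K F F' : Type*} [Field K] [Field F] [Field F'] [Algebra K F]
    [Algebra K F'] (φ : F →ₐ[K] F') (x : F) (c : K⟮x⟯) : φ (c : F) ∈ K⟮φ x⟯ := by
  have h : (K⟮x⟯).map φ = K⟮φ x⟯ := by
    rw [IntermediateField.adjoin_map, Set.image_singleton]
  rw [← h]
  exact ⟨c, c.2, rfl⟩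

/-- `K ⊆ F ⊆ F'`, `F` finite over `K(x)`, `F' = ∑_{i<p} F z ^ i`: then `F'` is finite over `K(φ x)`.
(Spanning family `φ (b j) * z ^ i`, `b` a finite spanning family of `F` over `K⟮x⟯`; `φ` maps `K⟮x⟯`
into `K⟮φ x⟯`: `IntermediateField.adjoin_map` / `adjoin_induction`.) -/
theorem CertAbs_finite {K F F' : Type*} [Field K] [Field F] [Field F'] [Algebra K F] [Algebra K F']
    (φ : F →ₐ[K] F') (x : F) [FiniteDimensional K⟮x⟯ F] (p : ℕ) (z : F')
    (hspan : ∀ e : F', ∃ f : ℕ → F, e = ∑ i ∈ Finset.range p, φ (f i) * z ^ i) :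
    FiniteDimensional K⟮φ x⟯ F' := by
  classical
  let b := Module.finBasis K⟮x⟯ F
  let S : Finset F' := (Finset.univ ×ˢ Finset.range p).image
    (fun ji : Fin (Module.finrank K⟮x⟯ F) × ℕ => φ (b ji.1) * z ^ ji.2)
  refine ⟨⟨S, ?_⟩⟩
  rw [eq_top_iff]
  rintro e -
  obtain ⟨f, rfl⟩ := hspan e
  refine Submodule.sum_mem _ fun i hi => ?_
  rw [← b.sum_repr (f i), map_sum, Finset.sum_mul]
  refine Submodule.sum_mem _ fun j _ => ?_
  have h1 : φ (b.repr (f i) j • b j) * z ^ i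
      = (⟨φ (b.repr (f i) j : F), CertAbs_map_mem φ x _⟩ : K⟮φ x⟯) • (φ (b j) * z ^ i) := by
    rw [Algebra.smul_def, Algebra.smul_def, map_mul, mul_assoc]
    rfl
  rw [h1]
  refine Submodule.smul_mem _ _ (Submodule.subset_span ?_)
  exact Finset.mem_coe.2 (Finset.mem_image.2 ⟨(j, i), Finset.mem_product.2 ⟨Finset.mem_univ _, hi⟩, rfl⟩)

theorem CertAbs_transcendental {K F F' : Type*} [Field K] [Field F] [Field F'] [Algebra K F]
    [Algebra K F'] (φ : F →ₐ[K] F') {x : F} (hx : Transcendental K x) :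
    Transcendental K (φ x) := by
  intro h
  exact hx ((isAlgebraic_algHom_iff φ φ.injective).1 h)

end Fermat.Agent.LP.PL
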