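import Fermat.Agent.LP.PL.Form.Tower

/-!
# LP-PL-FORM, file `Tower3`: the extension of constants `F1 L ⊆ F1 L2`, `L2` finite normal over `ℚ`

`L ≤ L2`, `ζ ∈ L2`.  `TowGrp L L2 = Gal(L2/L)` acts on the coefficients of `F1 L2 N z1`.
-/

set_option autoImplicit false
set_option synthInstance.maxHeartbeats 400000

noncomputable section

namespace Fermat.Agent.LP.PL

open Fermat.Agent.GR ModularCurve IntermediateField

variable {p N : ℕ} {ζ : Qbar} {L L2 : IntermediateField ℚ Qbar} {u1 z1 : LaurentSeries Qbar}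
  {g : F1Q N z1 ≃ₐ[Qbar] F1Q N z1}

/-- `Gal(L2/L)` as a subgroup of `Gal(L2/ℚ)`. -/
def TowGrp (L L2 : IntermediateField ℚ Qbar) : Subgroup (L2 ≃ₐ[ℚ] L2) where
  carrier := {τ | ∀ x : L2, (x : Qbar) ∈ L → τ x = x}
  mul_mem' := by
    intro a b ha hb x hx
    rw [AlgEquiv.mul_apply, hb x hx, ha x hx]
  one_mem' := fun _ _ => rfl
  inv_mem' := by
    intro a ha x hx
    have h1 : a⁻¹ (a x) = x := AlgEquiv.symm_apply_apply a x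
    rwa [ha x hx] at h1

instance (L L2 : IntermediateField ℚ Qbar) [FiniteDimensional ℚ L2] : Fintype (TowGrp L L2) := by
  classical
  exact Fintype.ofFinite _

/-- every element of `Gal(L2/L)` is the restriction of an element of `Gal(Q̄/L)`
(`AlgEquiv.liftNormal`, `AlgEquiv.liftNormal_commutes`). -/
theorem TowGrp.exists_lift (hL : L ≤ L2) (τ : TowGrp L L2) :
    ∃ σ ∈ L.fixingSubgroup, ∀ x : L2, σ (x : Qbar) = ((τ : L2 ≃ₐ[ℚ] L2) x : Qbar) := by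
  have halg : Algebra.IsAlgebraic ℚ Qbar := AlgebraicClosure.isAlgebraic ℚ
  have hcl : IsAlgClosure ℚ Qbar := ⟨inferInstance, halg⟩
  have hN : Normal ℚ Qbar := IsAlgClosure.normal ℚ Qbar
  have hcomm : ∀ x : L2, (AlgEquiv.liftNormal (τ : L2 ≃ₐ[ℚ] L2) Qbar) (x : Qbar) =
      ((τ : L2 ≃ₐ[ℚ] L2) x : Qbar) := fun x =>
    AlgEquiv.liftNormal_commutes (τ : L2 ≃ₐ[ℚ] L2) Qbar x
  refine ⟨AlgEquiv.liftNormal (τ : L2 ≃ₐ[ℚ] L2) Qbar, ?_, hcomm⟩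
  rw [IntermediateField.mem_fixingSubgroup_iff]
  intro x hx
  have h1 := hcomm ⟨x, hL hx⟩
  rw [τ.2 ⟨x, hL hx⟩ hx] at h1
  exact h1

/-- every element of `Gal(Q̄/L)` restricts to an element of `Gal(L2/L)`
(`AlgEquiv.restrictNormal`, `AlgEquiv.restrictNormal_commutes`). -/
theorem TowGrp.exists_restrict [Normal ℚ L2] (hL : L ≤ L2) {σ : Qbar ≃ₐ[ℚ] Qbar}
    (hσ : σ ∈ L.fixingSubgroup) :
    ∃ τ : TowGrp L L2, ∀ x : L2, σ (x : Qbar) = ((τ : L2 ≃ₐ[ℚ] L2) x : Qbar) := by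
  have hcomm : ∀ x : L2, σ (x : Qbar) = (AlgEquiv.restrictNormal σ L2 x : Qbar) := fun x =>
    (AlgEquiv.restrictNormal_commutes σ L2 x).symm
  refine ⟨⟨AlgEquiv.restrictNormal σ L2, ?_⟩, hcomm⟩
  intro x hx
  apply Subtype.ext
  rw [← hcomm x]
  exact (IntermediateField.mem_fixingSubgroup_iff _ _).1 hσ _ hx

/-- coefficientwise (`HahnSeries.ext`, `coeffMap_coeff`, `gal_coeff`). -/
theorem coeffMap_tow {τ : L2 ≃ₐ[ℚ] L2} {σ : Qbar ≃ₐ[ℚ] Qbar}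
    (h : ∀ x : L2, σ (x : Qbar) = (τ x : Qbar)) (x : LaurentSeries L2) :
    coeffMap (algebraMap L2 Qbar) (coeffMap (τ : L2 →+* L2) x) =
      gal σ (coeffMap (algebraMap L2 Qbar) x) := by
  ext n
  rw [coeffMap_coeff, coeffMap_coeff, gal_coeff, coeffMap_coeff]
  exact (h _).symm

theorem Tower3_mem (hζ : IsPrimitiveRoot ζ p) (hp : 0 < p) (hz : IsCoverRoot p N ζ L u1 z1)
    (hL : L ≤ L2) (τ : TowGrp L L2) {x : LaurentSeries L2} (hx : x ∈ F1 L2 N z1) :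
    coeffMap (((τ : L2 ≃ₐ[ℚ] L2) : L2 →+* L2)) x ∈ F1 L2 N z1 := by
  obtain ⟨σ, hσ, h⟩ := TowGrp.exists_lift hL τ
  rw [mem_F1_iff, coeffMap_tow h]
  exact gal_mem_F1Q hζ hp hz hσ (mem_F1_iff.1 hx)

/-- the ring homomorphism underlying the action. -/
def Tower3_hom (hζ : IsPrimitiveRoot ζ p) (hp : 0 < p) (hz : IsCoverRoot p N ζ L u1 z1)
    (hL : L ≤ L2) (τ : TowGrp L L2) : F1 L2 N z1 →+* F1 L2 N z1 :=
  ((coeffMap (((τ : L2 ≃ₐ[ℚ] L2) : L2 →+* L2))).comp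
    (F1 L2 N z1).toSubfield.subtype).codRestrict (F1 L2 N z1).toSubfield
      (fun x => Tower3_mem hζ hp hz hL τ x.2)

theorem Tower3_coe_hom (hζ : IsPrimitiveRoot ζ p) (hp : 0 < p) (hz : IsCoverRoot p N ζ L u1 z1)
    (hL : L ≤ L2) (τ : TowGrp L L2) (x : F1 L2 N z1) :
    ((Tower3_hom hζ hp hz hL τ x : F1 L2 N z1) : LaurentSeries L2) =
      coeffMap (((τ : L2 ≃ₐ[ℚ] L2) : L2 →+* L2)) (x : LaurentSeries L2) := rfl

theorem Tower3_hom_comp (hζ : IsPrimitiveRoot ζ p) (hp : 0 < p) (hz : IsCoverRoot p N ζ L u1 z1)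
    (hL : L ≤ L2) (τ τ' : TowGrp L L2) (h : ∀ c : L2, (τ : L2 ≃ₐ[ℚ] L2) ((τ' : L2 ≃ₐ[ℚ] L2) c) = c) :
    (Tower3_hom hζ hp hz hL τ).comp (Tower3_hom hζ hp hz hL τ') = RingHom.id _ := by
  apply RingHom.ext
  intro x
  apply Subtype.ext
  rw [RingHom.comp_apply, Tower3_coe_hom, Tower3_coe_hom, RingHom.id_apply]
  refine HahnSeries.ext (funext fun n => ?_)
  rw [coeffMap_coeff, coeffMap_coeff]
  exact h _

/-- THE ACTION OF `Gal(L2/L)` ON `F1 L2`  (`toFun x := ⟨coeffMap τ x, _⟩`, membership by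
`mem_F1_iff`, `coeffMap_tow`, `TowGrp.exists_lift`, `gal_mem_F1Q`; inverse: `τ⁻¹`,
`coeffMap_coeffMap`). -/
theorem exists_towAct (hζ : IsPrimitiveRoot ζ p) (hp : 0 < p) (hz : IsCoverRoot p N ζ L u1 z1)
    (hL : L ≤ L2) :
    ∃ δ : TowGrp L L2 → F1 L2 N z1 ≃+* F1 L2 N z1, ∀ (τ : TowGrp L L2) (x : F1 L2 N z1),
      ((δ τ x : F1 L2 N z1) : LaurentSeries L2) =
        coeffMap (((τ : L2 ≃ₐ[ℚ] L2) : L2 →+* L2)) (x : LaurentSeries L2) := by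
  refine ⟨fun τ => RingEquiv.ofRingHom (Tower3_hom hζ hp hz hL τ) (Tower3_hom hζ hp hz hL τ⁻¹)
    (Tower3_hom_comp hζ hp hz hL τ τ⁻¹ fun c => AlgEquiv.apply_symm_apply (τ : L2 ≃ₐ[ℚ] L2) c)
    (Tower3_hom_comp hζ hp hz hL τ⁻¹ τ fun c => AlgEquiv.symm_apply_apply (τ : L2 ≃ₐ[ℚ] L2) c),
    fun τ x => rfl⟩

/-- `σ ∈ Gal(Q̄/L2)` lies in `Gal(Q̄/L)` and fixes `ζ`. -/
theorem fix_zeta_of_mem (hζ2 : ζ ∈ L2) {σ : Qbar ≃ₐ[ℚ] Qbar} (hσ : σ ∈ L2.fixingSubgroup) :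
    σ ζ = ζ := by
  exact (IntermediateField.mem_fixingSubgroup_iff _ _).1 hσ ζ hζ2

/-- `z1` has coefficients in `L2`  (`IsCoverRoot.fix`, `exists_toQ_eq`, `fixingSubgroup_mono`). -/
theorem exists_Z2 (hz : IsCoverRoot p N ζ L u1 z1) (hL : L ≤ L2) (hζ2 : ζ ∈ L2) :
    ∃ Z : F1 L2 N z1, toQ L2 N z1 Z = zF1 N z1 := by
  exact exists_toQ_eq (L := L2) (zF1 N z1) fun σ hσ =>
    hz.fix σ (fixingSubgroup_mono hL hσ) (fix_zeta_of_mem hζ2 hσ)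

/-- `gal σ z1 = z1 ^ c * y` with `y ∈ FF L2 N`  (`IsCoverRoot.act`; `y = gal σ z1 / z1 ^ c` is fixed by
`Gal(Q̄/L2)` because `L2` is normal: `gal ρ (gal σ z1) = gal σ (gal (σ⁻¹ ρ σ) z1)`; or: `gal σ z1` is the
image of `δ τ Z`; then `exists_toQ_eq`, `toQ_mem_FF_iff`). -/
theorem exists_act_Z2 (hz : IsCoverRoot p N ζ L u1 z1) {Z Z' : F1 L2 N z1}
    (hZ : toQ L2 N z1 Z = zF1 N z1) {σ : Qbar ≃ₐ[ℚ] Qbar} (hσ : σ ∈ L.fixingSubgroup)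
    (hZ' : ((toQ L2 N z1 Z' : F1Q N z1) : LaurentSeries Qbar) = gal σ z1) {c : ℕ}
    (hc : σ ζ = ζ ^ c) :
    ∃ y : F1 L2 N z1, (y : LaurentSeries L2) ∈ FF L2 N ∧ y ≠ 0 ∧ Z' = Z ^ c * y := by
  obtain ⟨y0, hy0F, hy0, hact⟩ := hz.act σ hσ c hc
  have hz0 : z1 ≠ 0 := hz.ne_zero
  have hZ0 : Z ≠ 0 := by
    rintro rfl
    rw [map_zero] at hZ
    exact hz0 (congrArg (fun t : F1Q N z1 => (t : LaurentSeries Qbar)) hZ).symm
  have hy : Z ^ c * (Z' / Z ^ c) = Z' := mul_div_cancel₀ _ (pow_ne_zero c hZ0)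
  have h1 : ((toQ L2 N z1 (Z' / Z ^ c) : F1Q N z1) : LaurentSeries Qbar) = y0 := by
    have h2 := congrArg (fun t => ((toQ L2 N z1 t : F1Q N z1) : LaurentSeries Qbar)) hy
    simp only [map_mul, map_pow, hZ] at h2
    rw [hZ', hact, IntermediateField.coe_mul, IntermediateField.coe_pow] at h2
    exact mul_left_cancel₀ (pow_ne_zero c hz0) h2
  refine ⟨Z' / Z ^ c, (toQ_mem_FF_iff _).1 (h1 ▸ hy0F), ?_, hy.symm⟩
  intro h0
  rw [h0, map_zero] at h1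
  exact hy0 h1.symm

end Fermat.Agent.LP.PL
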