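import Fermat.Agent.LP.PL.Form.Main
import Fermat.Agent.LP.PL.Form.Tower3
import Fermat.Agent.LP.PL.Form.CertAbs
import Fermat.Agent.GR.C.PlaceDown
import Fermat.Agent.GR.E.BR7
import Fermat.Agent.GR.A.DegreeC

/-!
# LP-PL-FORM, file `Cert`: (P5) over `Q̄`

(i) the orders of `u2' = u2 y ^ p` at all the places of `F(z1)` are divisible by `p`;
(ii) certificates over `Q̄[j]`, `Q̄[1/j]`;
(iii) finitely many elements of `F(z1)` are defined over a finite normal extension `L2` of `ℚ`.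
-/

set_option autoImplicit false
set_option synthInstance.maxHeartbeats 400000

noncomputable section

namespace Fermat.Agent.LP.PL

open Fermat.Agent.GR ModularCurve IntermediateField AlgebraicCurve

variable {p N : ℕ} {ζ : Qbar} {L : IntermediateField ℚ Qbar} {u1 u2 z1 : LaurentSeries Qbar}

/-- (i) (`GR.C.exists_place_restrict` along `incF1 N z1`, `Place.ord_mul`, `Place.ord_zpow`). -/
theorem ord_of_eq_mul_pow (h2 : IsKummer (N := N) p u2) {X Y : F1Q N z1} (hY : Y ≠ 0)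
    (hX : (X : LaurentSeries Qbar) = u2 * (Y : LaurentSeries Qbar) ^ p)
    (v : Place Qbar (F1Q N z1)) : (p : ℤ) ∣ v.ord X := by
  have hu0 : (⟨u2, h2.2.choose⟩ : FF Qbar N) ≠ 0 := fun h0 => h2.1 (congrArg Subtype.val h0)
  have hXe : X = incF1 N z1 ⟨u2, h2.2.choose⟩ * Y ^ p := Subtype.ext hX
  have hi0 : incF1 N z1 ⟨u2, h2.2.choose⟩ ≠ 0 := (map_ne_zero (incF1 N z1)).2 hu0
  rw [hXe, Place.ord_mul v hi0 (pow_ne_zero p hY), ← zpow_natCast, Place.ord_zpow]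
  refine dvd_add ?_ (Dvd.intro _ rfl)
  rcases GR.C.exists_place_restrict (K := Qbar) (K' := Qbar) (incF1 N z1).toRingHom
    (fun a => ⟨a, (incF1 N z1).commutes a⟩) v with h | ⟨v', e, h⟩
  · have h1 : v.ord (incF1 N z1 ⟨u2, h2.2.choose⟩) = 0 := h _
    rw [h1]
    exact dvd_zero _
  · have h1 : v.ord (incF1 N z1 ⟨u2, h2.2.choose⟩) = e * v'.ord ⟨u2, h2.2.choose⟩ := h _
    rw [h1]
    exact Dvd.dvd.mul_left (h2.2.choose_spec v') e

/-- `j` as an element of `F(z1)`. -/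
def jF1 (N : ℕ) (z1 : LaurentSeries Qbar) : F1Q N z1 := incF1 N z1 (GR.A.jF Qbar N)

@[simp] theorem coe_jF1 : ((jF1 N z1 : F1Q N z1) : LaurentSeries Qbar) = jqModC Qbar := rfl

/-- (`GR.A.transcendental_jF` for an embedding `Q̄ → ℂ`, `CertAbs_transcendental`). -/
theorem transcendental_jF1 [NeZero N] : Transcendental Qbar (jF1 N z1) :=
  CertAbs_transcendental (incF1 N z1)
    (GR.A.transcendental_jF (IsAlgClosed.lift : Qbar →ₐ[ℚ] ℂ).toRingHom N)

/-- (`GR.A.finiteDimensional_FF`, `CertAbs_finite`, `mem_F1Q_iff`). -/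
theorem finiteDimensional_F1Q [NeZero N] (hp : 0 < p) (hz : z1 ^ p ∈ FF Qbar N) :
    FiniteDimensional Qbar⟮jF1 N z1⟯ (F1Q N z1) := by
  have := GR.A.finiteDimensional_FF (IsAlgClosed.lift : Qbar →ₐ[ℚ] ℂ).toRingHom N
  refine CertAbs_finite (incF1 N z1) (GR.A.jF Qbar N) p (zF1 N z1) ?_
  intro e
  obtain ⟨f, hf, he⟩ := (mem_F1Q_iff hp hz).1 e.2
  refine ⟨fun i => ⟨f i, hf i⟩, Subtype.ext ?_⟩
  rw [he]
  have e1 : ((∑ i ∈ Finset.range p, incF1 N z1 ⟨f i, hf i⟩ * zF1 N z1 ^ i : F1Q N z1) :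
      LaurentSeries Qbar) = ∑ i ∈ Finset.range p, f i * z1 ^ i := by
    rw [← IntermediateField.coe_val, map_sum]
    rfl
  exact e1.symm

/-- (ii) (`GR.E.exists_certificate`, `GR.E.BR7_finiteDimensional_inv`,
`GR.E.BR7_transcendental_inv`). -/
theorem certificate_of_eq_mul_pow [NeZero N] (hp : 0 < p) (hz : z1 ^ p ∈ FF Qbar N)
    (h2 : IsKummer (N := N) p u2) {X Y : F1Q N z1} (hY : Y ≠ 0)
    (hX : (X : LaurentSeries Qbar) = u2 * (Y : LaurentSeries Qbar) ^ p) :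
    GR.E.Certificate Qbar (jF1 N z1) p X ∧ GR.E.Certificate Qbar (jF1 N z1)⁻¹ p X := by
  have hX0 : X ≠ 0 := by
    intro h0
    rw [h0] at hX
    exact mul_ne_zero h2.1 (pow_ne_zero p (fun h => hY (Subtype.ext h))) hX.symm
  have hfin := finiteDimensional_F1Q (N := N) hp hz
  have hfin' := GR.E.BR7_finiteDimensional_inv (jF1 N z1) hfin
  exact ⟨GR.E.exists_certificate (jF1 N z1) transcendental_jF1 p hp X hX0
      (ord_of_eq_mul_pow h2 hY hX),
    GR.E.exists_certificate (jF1 N z1)⁻¹ (GR.E.BR7_transcendental_inv transcendental_jF1) p hp X hX0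
      (ord_of_eq_mul_pow h2 hY hX)⟩

/-- (iii) LEVEL.  (`s = ∑ f i * z1 ^ i` (`mem_F1Q_iff`); `exists_normal_field` for the `f i` and `ζ`, `T`;
`L2 := normalClosure (L ⊔ M)`; `exists_toQ_eq`: `gal σ` fixes the `f i` (`gal_eq_of_coeff_mem`) and `z1`
(`IsCoverRoot.fix`).) -/
theorem exists_levelF1 [FiniteDimensional ℚ L] (h : LineData p N ζ L u1)
    (hz : IsCoverRoot p N ζ L u1 z1) (S : Finset (F1Q N z1)) (T : Finset Qbar) :
    ∃ L2 : IntermediateField ℚ Qbar, FiniteDimensional ℚ L2 ∧ Normal ℚ L2 ∧ L ≤ L2 ∧ ζ ∈ L2 ∧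
      (∀ a ∈ T, a ∈ L2) ∧ ∀ s ∈ S, ∃ s' : F1 L2 N z1, toQ L2 N z1 s' = s := by
  classical
  have hzp := hz.pow_mem h
  have hch : ∀ s : F1Q N z1, ∃ f : ℕ → LaurentSeries Qbar, (∀ i, f i ∈ FF Qbar N) ∧
      (s : LaurentSeries Qbar) = ∑ i ∈ Finset.range p, f i * z1 ^ i :=
    fun s => (mem_F1Q_iff h.prime.pos hzp).1 s.2
  choose f hf hs using hch
  obtain ⟨M, hMfin, hMnor, hMc, hMT⟩ := exists_normal_field (N := N)
    (S.biUnion fun s => (Finset.range p).image (f s)) (by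
      intro u hu
      obtain ⟨s, -, hu⟩ := Finset.mem_biUnion.1 hu
      obtain ⟨i, -, rfl⟩ := Finset.mem_image.1 hu
      exact hf s i) (insert ζ T)
  have hQ : Normal ℚ Qbar := GT.base_normal_Qb
  have : FiniteDimensional ℚ (L ⊔ M : IntermediateField ℚ Qbar) :=
    IntermediateField.finiteDimensional_sup L M
  have hle : L ⊔ M ≤ IntermediateField.normalClosure ℚ ↥(L ⊔ M) Qbar :=
    IntermediateField.le_normalClosure (L ⊔ M)
  have hL2 : L ≤ IntermediateField.normalClosure ℚ ↥(L ⊔ M) Qbar := le_sup_left.trans hle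
  have hM2 : M ≤ IntermediateField.normalClosure ℚ ↥(L ⊔ M) Qbar := le_sup_right.trans hle
  have hζ2 : ζ ∈ IntermediateField.normalClosure ℚ ↥(L ⊔ M) Qbar :=
    hM2 (hMT ζ (Finset.mem_insert_self ζ T))
  refine ⟨IntermediateField.normalClosure ℚ ↥(L ⊔ M) Qbar,
    normalClosure.is_finiteDimensional ℚ ↥(L ⊔ M) Qbar, normalClosure.normal ℚ ↥(L ⊔ M) Qbar,
    hL2, hζ2, fun a ha => hM2 (hMT a (Finset.mem_insert_of_mem ha)), ?_⟩
  intro s hsS
  refine exists_toQ_eq (L := IntermediateField.normalClosure ℚ ↥(L ⊔ M) Qbar) s ?_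
  intro σ hσ
  have hz1 : gal σ z1 = z1 := hz.fix σ (fixingSubgroup_mono hL2 hσ) (fix_zeta_of_mem hζ2 hσ)
  rw [hs s, map_sum]
  refine Finset.sum_congr rfl fun i hi => ?_
  rw [map_mul, map_pow, hz1]
  congr 1
  have h1 : gal σ (f s i) = gal (1 : Qbar ≃ₐ[ℚ] Qbar) (f s i) := by
    refine gal_eq_of_coeff_mem (M := M) (fun n => hMc _ ?_ n) ?_
    · exact Finset.mem_biUnion.2 ⟨s, hsS, Finset.mem_image.2 ⟨i, hi, rfl⟩⟩
    · intro a ha
      rw [AlgEquiv.one_apply]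
      exact (IntermediateField.mem_fixingSubgroup_iff _ _).1 hσ a (hM2 ha)
  rw [h1]
  ext n
  rw [gal_coeff, AlgEquiv.one_apply]

end Fermat.Agent.LP.PL
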