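import Fermat.Agent.LP.PL.Form.Cert

/-!
# LP-PL-FORM, file `Cert2`: (P5) certificates for `u2'` over a finite normal extension `L2` of `ℚ`
-/

set_option autoImplicit false
set_option synthInstance.maxHeartbeats 400000

noncomputable section

namespace Fermat.Agent.LP.PL

open Fermat.Agent.GR ModularCurve IntermediateField AlgebraicCurve

variable {p N : ℕ} {ζ : Qbar} {L L2 : IntermediateField ℚ Qbar} {u1 u2 z1 : LaurentSeries Qbar}

/-- `j` as an element of `F1 L N z1`. -/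
def jF1L (L : IntermediateField ℚ Qbar) (N : ℕ) (z1 : LaurentSeries Qbar) : F1 L N z1 :=
  IntermediateField.inclusion (FF_le_F1 L N z1) (GR.A.jF L N)

@[simp] theorem coe_jF1L : ((jF1L L N z1 : F1 L N z1) : LaurentSeries L) = jqModC L := rfl

theorem toQ_jF1L : toQ L N z1 (jF1L L N z1) = jF1 N z1 := by
  apply Subtype.ext
  rw [coe_toQ, coe_jF1L, coe_jF1, coeffMap_jqModC]

theorem upF1_jF1L (hL : L ≤ L2) : upF1 hL N z1 (jF1L L N z1) = jF1L L2 N z1 := by
  apply toQ_injective L2 N z1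
  rw [toQ_upF1, toQ_jF1L, toQ_jF1L]

/-- integrality over `Q̄[x]` descends to `L[x]` (`GR.E.BR3_descent_aux`, `toQ_algebraMap`). -/
theorem isIntegral_descent_F1 (x y : F1 L N z1)
    (h : IsIntegral (Algebra.adjoin Qbar ({toQ L N z1 x} : Set (F1Q N z1))) (toQ L N z1 y)) :
    IsIntegral (Algebra.adjoin L ({x} : Set (F1 L N z1))) y := by
  refine GR.E.BR3_descent_aux (algebraMap L Qbar) (toQ L N z1) (fun c => toQ_algebraMap c) ?_ x y h
  intro c
  have : Algebra.IsAlgebraic ℚ Qbar := AlgebraicClosure.isAlgebraic ℚ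
  exact ((Algebra.IsAlgebraic.isAlgebraic (R := ℚ) c).isIntegral).tower_top

/-- a certificate over `Q̄` whose members are defined over `L` is a certificate over `L`. -/
theorem certificate_descent_F1 {n : ℕ} (x w : F1 L N z1) (m : ℕ) (a b : Fin m → F1Q N z1)
    (ha : ∀ i, IsIntegral (Algebra.adjoin Qbar ({toQ L N z1 x} : Set (F1Q N z1)))
      (a i ^ n * toQ L N z1 w))
    (hb : ∀ i, IsIntegral (Algebra.adjoin Qbar ({toQ L N z1 x} : Set (F1Q N z1)))
      (b i ^ n * (toQ L N z1 w)⁻¹))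
    (hsum : ∑ i, a i * b i = 1)
    (ha' : ∀ i, ∃ y : F1 L N z1, toQ L N z1 y = a i)
    (hb' : ∀ i, ∃ y : F1 L N z1, toQ L N z1 y = b i) :
    GR.E.Certificate L x n w := by
  choose a' ha' using ha'
  choose b' hb' using hb'
  refine ⟨m, a', b', fun i => ?_, fun i => ?_, ?_⟩
  · apply isIntegral_descent_F1
    rw [map_mul, map_pow, ha']
    exact ha i
  · apply isIntegral_descent_F1
    rw [map_mul, map_pow, hb', map_inv₀]
    exact hb i
  · apply toQ_injective L N z1
    rw [map_sum, map_one, ← hsum]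
    simp [ha', hb']

/-- (P5) over `L2`. -/
theorem exists_certificate_L2 [NeZero N] [FiniteDimensional ℚ L] (h : LineData p N ζ L u1)
    (hz : IsCoverRoot p N ζ L u1 z1) (h2 : IsKummer (N := N) p u2) {U : F1 L N z1}
    {Y : F1Q N z1} (hY : Y ≠ 0)
    (hU : ((toQ L N z1 U : F1Q N z1) : LaurentSeries Qbar) = u2 * (Y : LaurentSeries Qbar) ^ p)
    (T : Finset Qbar) :
    ∃ L2 : IntermediateField ℚ Qbar, FiniteDimensional ℚ L2 ∧ Normal ℚ L2 ∧ ζ ∈ L2 ∧
      (∀ a ∈ T, a ∈ L2) ∧ ∃ hL : L ≤ L2,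
        GR.E.Certificate L2 (jF1L L2 N z1) p (upF1 hL N z1 U) ∧
        GR.E.Certificate L2 (jF1L L2 N z1)⁻¹ p (upF1 hL N z1 U) := by
  classical
  obtain ⟨⟨m0, a0, b0, ha0, hb0, hs0⟩, ⟨m1, a1, b1, ha1, hb1, hs1⟩⟩ :=
    certificate_of_eq_mul_pow h.prime.pos (hz.pow_mem h) h2 hY hU
  obtain ⟨L2, hfin, hnor, hL, hζ2, hT, hS⟩ := exists_levelF1 h hz
    ((Finset.univ.image a0 ∪ Finset.univ.image b0) ∪
      (Finset.univ.image a1 ∪ Finset.univ.image b1)) T
  refine ⟨L2, hfin, hnor, hζ2, hT, hL, ?_, ?_⟩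
  · apply certificate_descent_F1 _ _ m0 a0 b0 _ _ hs0
    · exact fun i => hS _ (Finset.mem_union_left _ (Finset.mem_union_left _
        (Finset.mem_image_of_mem _ (Finset.mem_univ i))))
    · exact fun i => hS _ (Finset.mem_union_left _ (Finset.mem_union_right _
        (Finset.mem_image_of_mem _ (Finset.mem_univ i))))
    · rw [toQ_jF1L, toQ_upF1]; exact ha0
    · rw [toQ_jF1L, toQ_upF1]; exact hb0
  · apply certificate_descent_F1 _ _ m1 a1 b1 _ _ hs1
    · exact fun i => hS _ (Finset.mem_union_right _ (Finset.mem_union_left _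
        (Finset.mem_image_of_mem _ (Finset.mem_univ i))))
    · exact fun i => hS _ (Finset.mem_union_right _ (Finset.mem_union_right _
        (Finset.mem_image_of_mem _ (Finset.mem_univ i))))
    · rw [map_inv₀, toQ_jF1L, toQ_upF1]; exact ha1
    · rw [map_inv₀, toQ_jF1L, toQ_upF1]; exact hb1

end Fermat.Agent.LP.PL
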