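import Fermat.Agent.LP.PL.Form.Tower3

/-!
# LP-PL-FORM, file `Tower4`: the tower `F1 L ⊆ F1 L2` (inputs of the twin of `chart_asGen`)
-/

set_option autoImplicit false
set_option synthInstance.maxHeartbeats 400000

noncomputable section

namespace Fermat.Agent.LP.PL

open Fermat.Agent.GR ModularCurve IntermediateField

variable {p N : ℕ} {ζ : Qbar} {L L2 : IntermediateField ℚ Qbar} {u1 z1 : LaurentSeries Qbar}
  {g : F1Q N z1 ≃ₐ[Qbar] F1Q N z1}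

/-- The tower `E = F1 L ⊆ E₂ = F1 L2`: the field theoretic inputs of `chart_asGen`, without `hcard`,
with the action of `δ i` on `ζ` and `Z`; `Fx` = the elements of `FF L2 N`. -/
structure AbsTowerG {E E₂ : Type*} [Field E] [Field E₂] (p : ℕ) (ψ : E →+* E₂) (g : E ≃+* E)
    (g₂ : E₂ ≃+* E₂) (ζ Z : E₂) {ι : Type*} [Fintype ι] (δ : ι → E₂ ≃+* E₂) : Prop where
  hp0 : (p : E₂) ≠ 0
  hg₁ : ∀ e : E, ψ (g e) = g₂ (ψ e)
  hζ : IsPrimitiveRoot ζ p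
  hg₁ζ : g₂ ζ = ζ
  hδψ : ∀ i (e : E), δ i (ψ e) = ψ e
  hδfix : ∀ x : E₂, (∀ i, δ i x = x) → ∃ e : E, ψ e = x
  hperm : ∀ i, ∃ π : Equiv.Perm ι, ∀ k e, δ i (δ k e) = δ (π k) e
  hcomm : ∀ i e, g₂ (δ i e) = δ i (g₂ e)
  hgZ : g₂ Z = ζ * Z
  hZ0 : Z ≠ 0
  /-- `δ i ζ = ζ ^ c`, `δ i Z = Z ^ c * y`, `y` fixed by `g₂` -/
  hδZ : ∀ i, ∃ (c : ℕ) (y : E₂), y ≠ 0 ∧ g₂ y = y ∧ δ i ζ = ζ ^ c ∧ δ i Z = Z ^ c * y

/-- `ζ` as an element of `F1 L2`. -/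
def zF1G (N : ℕ) (z1 : LaurentSeries Qbar) (hζ2 : ζ ∈ L2) : F1 L2 N z1 :=
  algebraMap L2 (F1 L2 N z1) ⟨ζ, hζ2⟩

theorem toQ_zF1G (hζ2 : ζ ∈ L2) :
    toQ L2 N z1 (zF1G N z1 hζ2) = algebraMap Qbar (F1Q N z1) ζ := by
  unfold zF1G
  rw [toQ_algebraMap]
  rfl

/-- (`IsPrimitiveRoot.of_map_of_injective` for `toQ`, `IsPrimitiveRoot.map_of_injective`.) -/
theorem zF1G_root (hζ : IsPrimitiveRoot ζ p) (hζ2 : ζ ∈ L2) :
    IsPrimitiveRoot (zF1G N z1 hζ2) p := by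
  refine IsPrimitiveRoot.of_map_of_injective (f := toQ L2 N z1) (hf := toQ_injective L2 N z1) ?_
  rw [toQ_zF1G]
  exact hζ.map_of_injective (algebraMap Qbar (F1Q N z1)).injective

/-- (`HahnSeries.ext`, `gal_coeff`.) -/
theorem Tower4_gal_C (σ : Qbar ≃ₐ[ℚ] Qbar) (a : Qbar) :
    gal σ ((algebraMap Qbar (F1Q N z1) a : F1Q N z1) : LaurentSeries Qbar) =
      ((algebraMap Qbar (F1Q N z1) (σ a) : F1Q N z1) : LaurentSeries Qbar) := by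
  have h1 : ∀ b : Qbar, ((algebraMap Qbar (F1Q N z1) b : F1Q N z1) : LaurentSeries Qbar) =
      HahnSeries.single 0 b := fun b => by
    rw [← algebraMap_laurentSeries_eq_single]
    rfl
  rw [h1, h1]
  unfold gal
  rw [coeffMap_single]
  rfl

set_option maxHeartbeats 1000000 in
/-- THE TOWER. -/
theorem exists_towerG [Normal ℚ L2] [FiniteDimensional ℚ L2] (h : LineData p N ζ L u1)
    (hz : IsCoverRoot p N ζ L u1 z1) (hg : IsDeck N ζ z1 g) {gL : F1 L N z1 ≃ₐ[L] F1 L N z1}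
    (hgL : ∀ x, toQ L N z1 (gL x) = g (toQ L N z1 x)) (hL : L ≤ L2) (hζ2 : ζ ∈ L2) :
    ∃ (g₂ : F1 L2 N z1 ≃ₐ[L2] F1 L2 N z1) (Z : F1 L2 N z1)
      (δ : TowGrp L L2 → F1 L2 N z1 ≃+* F1 L2 N z1),
      (∀ x, toQ L2 N z1 (g₂ x) = g (toQ L2 N z1 x)) ∧
      toQ L2 N z1 Z = zF1 N z1 ∧
      AbsTowerG p (upF1 hL N z1) gL.toRingEquiv g₂.toRingEquiv (zF1G N z1 hζ2) Z δ ∧
      (∀ x, g₂ x = x ↔ (x : LaurentSeries L2) ∈ FF L2 N) ∧
      (∀ (τ : TowGrp L L2) (x : F1 L2 N z1), ((δ τ x : F1 L2 N z1) : LaurentSeries L2) =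
        coeffMap (((τ : L2 ≃ₐ[ℚ] L2) : L2 →+* L2)) (x : LaurentSeries L2)) := by
  have hp := h.prime
  have hζ := h.root
  obtain ⟨g₂, hg₂⟩ := exists_deckL (h.mono hL) (hz.mono hL) hg
  obtain ⟨Z, hZ⟩ := exists_Z2 hz hL hζ2
  obtain ⟨δ, hδ⟩ := exists_towAct hζ hp.pos hz hL
  have hinj := toQ_injective L2 N z1
  have hinj' : ∀ x y : F1 L2 N z1,
      ((toQ L2 N z1 x : F1Q N z1) : LaurentSeries Qbar) =
        ((toQ L2 N z1 y : F1Q N z1) : LaurentSeries Qbar) → x = y :=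
    fun x y hxy => hinj (Subtype.ext hxy)
  -- `δ τ` is the action of a lift
  have hδσ : ∀ (τ : TowGrp L L2) (σ : Qbar ≃ₐ[ℚ] Qbar),
      (∀ x : L2, σ (x : Qbar) = ((τ : L2 ≃ₐ[ℚ] L2) x : Qbar)) → ∀ x : F1 L2 N z1,
      ((toQ L2 N z1 (δ τ x) : F1Q N z1) : LaurentSeries Qbar) =
        gal σ ((toQ L2 N z1 x : F1Q N z1) : LaurentSeries Qbar) := by
    intro τ σ hτσ x
    rw [coe_toQ, hδ, coeffMap_tow hτσ, coe_toQ]
  have hfixed := deckL_fixed_iff (h.mono hL) (hz.mono hL) hg hg₂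
  refine ⟨g₂, Z, δ, hg₂, hZ, ?_, hfixed, hδ⟩
  refine
    { hp0 := ?_
      hg₁ := fun e => upF1_deck hL hgL hg₂ e
      hζ := zF1G_root hζ hζ2
      hg₁ζ := g₂.commutes _
      hδψ := ?_
      hδfix := ?_
      hperm := ?_
      hcomm := ?_
      hgZ := ?_
      hZ0 := ?_
      hδZ := ?_ }
  · exact_mod_cast hp.ne_zero
  · intro i e
    obtain ⟨σ, hσ, hσi⟩ := TowGrp.exists_lift hL i
    apply hinj'
    rw [hδσ i σ hσi, toQ_upF1, coe_toQ, gal_coeffMap _ hσ]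
  · intro x hx
    apply exists_upF1_eq hL
    intro σ hσ
    obtain ⟨i, hi⟩ := TowGrp.exists_restrict hL hσ
    rw [← hδσ i σ hi, hx i]
  · intro i
    refine ⟨Equiv.mulLeft i, fun k e => ?_⟩
    apply Subtype.ext
    rw [hδ, hδ, hδ, coeffMap_coeffMap]
    rfl
  · intro i e
    obtain ⟨σ, hσ, hσi⟩ := TowGrp.exists_lift hL i
    apply hinj'
    have h1 := congrArg (Subtype.val) (hg.gal_comm h hz σ hσ (toQ L2 N z1 e))
    rw [coe_galF1] at h1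
    have h2 : toQ L2 N z1 (δ i e) = galF1 h.root h.prime.pos hz σ hσ (toQ L2 N z1 e) :=
      Subtype.ext (hδσ i σ hσi e)
    show ((toQ L2 N z1 (g₂ (δ i e)) : F1Q N z1) : LaurentSeries Qbar) =
      ((toQ L2 N z1 (δ i (g₂ e)) : F1Q N z1) : LaurentSeries Qbar)
    rw [hδσ i σ hσi, hg₂, hg₂, h2, h1]
  · apply hinj
    show toQ L2 N z1 (g₂ Z) = _
    rw [hg₂, map_mul, hZ, toQ_zF1G, hg.root]
  · rintro rfl
    rw [map_zero] at hZ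
    have h0 : z1 = 0 := (congrArg Subtype.val hZ).symm
    have h1 := hz.lead
    rw [h0] at h1
    simp at h1
  · intro i
    obtain ⟨σ, hσ, hσi⟩ := TowGrp.exists_lift hL i
    obtain ⟨c, hc⟩ := exists_pow_of_root hζ hp.pos σ
    have hZ' : ((toQ L2 N z1 (δ i Z) : F1Q N z1) : LaurentSeries Qbar) = gal σ z1 := by
      rw [hδσ i σ hσi, hZ]
      rfl
    obtain ⟨y, hyF, hy0, hy⟩ := exists_act_Z2 hz hZ hσ hZ' hc
    refine ⟨c, y, hy0, (hfixed y).2 hyF, ?_, hy⟩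
    apply hinj'
    rw [hδσ i σ hσi, map_pow, toQ_zF1G, Tower4_gal_C, hc, map_pow]

end Fermat.Agent.LP.PL
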