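import Fermat.Agent.LP.PL.Form.Cert3Abs
import Fermat.Agent.LP.PL.Form.Cert2
import Fermat.Agent.LP.PL.Form.Tower4
import Fermat.Agent.GR.E.BR2

/-!
# LP-PL-FORM, file `Cert3`: (P5) `p ∣ ord_V (u2')` for all the valuation subrings `V ⊇ L` of `F1 L N z1`
-/

set_option autoImplicit false
set_option synthInstance.maxHeartbeats 400000

noncomputable section

namespace Fermat.Agent.LP.PL

open Fermat.Agent.GR ModularCurve IntermediateField AlgebraicCurve

variable {p N : ℕ} {ζ : Qbar} {L L2 : IntermediateField ℚ Qbar} {u1 u2 z1 : LaurentSeries Qbar}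

theorem Cert3_isIntegralElem (hL : L ≤ L2) (c : L2) :
    (IntermediateField.inclusion hL : L →+* L2).IsIntegralElem c := by
  have halg : Algebra.IsAlgebraic ℚ Qbar := AlgebraicClosure.isAlgebraic ℚ
  have h1 : IsIntegral ℚ (c : Qbar) := (halg.isAlgebraic (c : Qbar)).isIntegral
  have h2 : IsIntegral ℚ c := (isIntegral_algebraMap_iff (B := Qbar) Subtype.val_injective).1 h1
  obtain ⟨P, hP, hPc⟩ := h2
  refine ⟨P.map (algebraMap ℚ L), hP.map _, ?_⟩
  rw [Polynomial.eval₂_map]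
  have : (IntermediateField.inclusion hL : L →+* L2).comp (algebraMap ℚ L) = algebraMap ℚ L2 :=
    RingHom.ext fun _ => rfl
  rw [this]
  exact hPc

theorem Cert3_coeffMap_const (τ : L2 →+* L2) (c : L2) :
    coeffMap τ (algebraMap L2 (LaurentSeries L2) c) = algebraMap L2 (LaurentSeries L2) (τ c) := by
  rw [algebraMap_laurentSeries_eq_single, algebraMap_laurentSeries_eq_single, coeffMap_single]

set_option maxHeartbeats 1000000 in
/-- (P5). -/
theorem divHor_U [NeZero N] [FiniteDimensional ℚ L] {g : F1Q N z1 ≃ₐ[Qbar] F1Q N z1}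
    {gL : F1 L N z1 ≃ₐ[L] F1 L N z1} {Y : F1Q N z1} {U H : F1 L N z1} {η : L} {θ : Qbar}
    (h : PairData p N ζ L u1 u2) (F : FormOut p N ζ L u1 u2 z1 g gL Y U H η θ)
    (V : ValuationSubring (F1 L N z1)) (hV : ∀ c : L, algebraMap L (F1 L N z1) c ∈ V) :
    ∃ a : F1 L N z1, a ≠ 0 ∧ a ^ p * U ∈ V ∧ (a ^ p * U)⁻¹ ∈ V := by
  obtain ⟨L2, hfin, hnor, hζ2, -, hL, c0, c1⟩ :=
    exists_certificate_L2 h.toLineData F.root h.kummer2 F.Y_ne F.U_eq ∅
  obtain ⟨g₂, Z, δ, -, -, T, -, hδ⟩ := exists_towerG h.toLineData F.root F.deck F.deckL hL hζ2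
  have hchar : CharZero (F1 L2 N z1) :=
    charZero_of_injective_algebraMap (algebraMap L2 (F1 L2 N z1)).injective
  rw [← upF1_jF1L hL] at c0 c1
  refine Cert3_abs (K := L) (K₂ := L2) (upF1 hL N z1) (IntermediateField.inclusion hL : L →+* L2)
    (fun c => upF1_algebraMap hL c) (Cert3_isIntegralElem hL) δ
    (fun i => ((i : L2 ≃ₐ[ℚ] L2)).toRingEquiv) ?_ 1 ?_ ?_ T.hδψ T.hδfix T.hperm h.prime.pos F.U_ne
    c0 c1 V hV
  · intro i j hij
    exact Subtype.ext (AlgEquiv.ext (congrFun hij))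
  · intro e
    apply Subtype.ext
    rw [hδ]
    exact coeffMap_id _
  · intro i c
    apply Subtype.ext
    rw [hδ]
    exact Cert3_coeffMap_const _ c

/-- (P5) in the form used by `chart_formula`. -/
theorem divisibleAtPlaces_U [NeZero N] [FiniteDimensional ℚ L] {g : F1Q N z1 ≃ₐ[Qbar] F1Q N z1}
    {gL : F1 L N z1 ≃ₐ[L] F1 L N z1} {Y : F1Q N z1} {U H : F1 L N z1} {η : L} {θ : Qbar}
    (h : PairData p N ζ L u1 u2) (F : FormOut p N ζ L u1 u2 z1 g gL Y U H η θ)
    (R : ValuationSubring L) : GR.E.DivisibleAtPlaces R p U :=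
  Cert3_divisible R p U (divHor_U h F)

end Fermat.Agent.LP.PL
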