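import Fermat.Agent.LP.PL.Loc2.Trace
import Fermat.Agent.GR.E.Model

/-!
# LP-PL-FORM, file `Cert3Abs`: certificates over an extension of constants give `p ∣ ord_V U`
-/

set_option autoImplicit false

namespace Fermat.Agent.LP.PL

open Fermat.Agent.GR.E

variable {K E K₂ E₂ : Type*} [Field K] [Field E] [Field K₂] [Field E₂] [Algebra K E]
  [Algebra K₂ E₂]

/-- a valuation subring containing the constants and `y` contains the integral closure of `K₂[y]`. -/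
theorem Cert3_mem_of_isIntegral (W : ValuationSubring E₂) (hW : ∀ c : K₂, algebraMap K₂ E₂ c ∈ W)
    {y e : E₂} (hy : y ∈ W) (he : IsIntegral (Algebra.adjoin K₂ ({y} : Set E₂)) e) : e ∈ W := by
  refine Loc2_mem_of_isIntegral (algebraMap (Algebra.adjoin K₂ ({y} : Set E₂)) E₂) W ?_ he
  rintro ⟨a, ha⟩
  show a ∈ W
  induction ha using Algebra.adjoin_induction with
  | mem x hx => rw [Set.mem_singleton_iff.mp hx]; exact hy
  | algebraMap c => exact hW c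
  | add x y _ _ hx hy => exact W.add_mem _ _ hx hy
  | mul x y _ _ hx hy => exact W.mul_mem _ _ hx hy

/-- from valuation subrings containing `L` to `DivisibleAtPlaces R`. -/
theorem Cert3_divisible {L F : Type*} [Field L] [Field F] [Algebra L F] (R : ValuationSubring L)
    (n : ℕ) (w : F)
    (h : ∀ V : ValuationSubring F, (∀ c : L, algebraMap L F c ∈ V) →
      ∃ a : F, a ≠ 0 ∧ a ^ n * w ∈ V ∧ (a ^ n * w)⁻¹ ∈ V) : DivisibleAtPlaces R n w := by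
  intro V hR hR'
  refine h V ?_
  intro c
  rcases R.mem_or_inv_mem c with hc | hc
  · exact hR ⟨c, hc⟩
  · have h1 := hR' ⟨c⁻¹, hc⟩
    have h2 : (algebraMap (↥R) F ⟨c⁻¹, hc⟩)⁻¹ = algebraMap L F c := by
      have : algebraMap (↥R) F ⟨c⁻¹, hc⟩ = algebraMap L F c⁻¹ := rfl
      rw [this, map_inv₀, inv_inv]
    rwa [h2] at h1

variable [CharZero E₂] {ι : Type*} [Fintype ι]

/-- one chart. -/
theorem Cert3_one (ψ : E →+* E₂) (i : K →+* K₂)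
    (hconst : ∀ c, ψ (algebraMap K E c) = algebraMap K₂ E₂ (i c))
    (hK : ∀ c : K₂, i.IsIntegralElem c)
    (δ : ι → E₂ ≃+* E₂) (τ : ι → K₂ ≃+* K₂)
    (hτ : Function.Injective (fun i => (τ i : K₂ → K₂))) (i₀ : ι) (hi₀ : ∀ e, δ i₀ e = e)
    (hδκ : ∀ i c, δ i (algebraMap K₂ E₂ c) = algebraMap K₂ E₂ (τ i c))
    (hδψ : ∀ i (e : E), δ i (ψ e) = ψ e)
    (hδfix : ∀ x : E₂, (∀ i, δ i x = x) → ∃ e : E, ψ e = x)
    (hperm : ∀ i, ∃ π : Equiv.Perm ι, ∀ k e, δ i (δ k e) = δ (π k) e)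
    {p : ℕ} (hp : 0 < p) {U x : E} (hU : U ≠ 0) (c0 : Certificate K₂ (ψ x) p (ψ U))
    (V : ValuationSubring E) (hV : ∀ c : K, algebraMap K E c ∈ V) (hx : x ∈ V) :
    ∃ c : E, c ≠ 0 ∧ c ^ p * U ∈ V ∧ (c ^ p * U)⁻¹ ∈ V := by
  obtain ⟨m, a, b, ha, hb, hsum⟩ := c0
  obtain ⟨W₀, hW₀⟩ := Loc2_exists_ext ψ V
  let 𝒱 : Set (ValuationSubring E₂) := {W | (∀ c : K₂, algebraMap K₂ E₂ c ∈ W) ∧ ψ x ∈ W}
  have hW₀𝒱 : W₀ ∈ 𝒱 := by
    refine ⟨fun c => ?_, (hW₀ x).2 hx⟩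
    refine Loc2_mem_of_isIntegral (ψ.comp (algebraMap K E)) W₀ (fun a => (hW₀ _).2 (hV a)) ?_
    obtain ⟨P, hP, hPc⟩ := hK c
    refine ⟨P, hP, ?_⟩
    rw [show ψ.comp (algebraMap K E) = (algebraMap K₂ E₂).comp i from RingHom.ext hconst,
      ← Polynomial.hom_eval₂, hPc, map_zero]
  refine divHor_of_cert ψ (algebraMap K₂ E₂) δ τ hτ i₀ hi₀ hδκ hδψ hδfix hperm 𝒱 ?_ ?_ hp hU a b
    ?_ ?_ hsum hW₀𝒱 hW₀
  · rintro j W ⟨h1, h2⟩
    refine ⟨fun c => ?_, ?_⟩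
    · show δ j (algebraMap K₂ E₂ c) ∈ W
      rw [hδκ]
      exact h1 _
    · show δ j (ψ x) ∈ W
      rw [hδψ]
      exact h2
  · exact fun W hW c => hW.1 c
  · exact fun j W hW => Cert3_mem_of_isIntegral W hW.1 hW.2 (ha j)
  · exact fun j W hW => Cert3_mem_of_isIntegral W hW.1 hW.2 (hb j)

/-- both charts. -/
theorem Cert3_abs (ψ : E →+* E₂) (i : K →+* K₂)
    (hconst : ∀ c, ψ (algebraMap K E c) = algebraMap K₂ E₂ (i c))
    (hK : ∀ c : K₂, i.IsIntegralElem c)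
    (δ : ι → E₂ ≃+* E₂) (τ : ι → K₂ ≃+* K₂)
    (hτ : Function.Injective (fun i => (τ i : K₂ → K₂))) (i₀ : ι) (hi₀ : ∀ e, δ i₀ e = e)
    (hδκ : ∀ i c, δ i (algebraMap K₂ E₂ c) = algebraMap K₂ E₂ (τ i c))
    (hδψ : ∀ i (e : E), δ i (ψ e) = ψ e)
    (hδfix : ∀ x : E₂, (∀ i, δ i x = x) → ∃ e : E, ψ e = x)
    (hperm : ∀ i, ∃ π : Equiv.Perm ι, ∀ k e, δ i (δ k e) = δ (π k) e)
    {p : ℕ} (hp : 0 < p) {U x : E} (hU : U ≠ 0) (c0 : Certificate K₂ (ψ x) p (ψ U))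
    (c1 : Certificate K₂ (ψ x)⁻¹ p (ψ U))
    (V : ValuationSubring E) (hV : ∀ c : K, algebraMap K E c ∈ V) :
    ∃ c : E, c ≠ 0 ∧ c ^ p * U ∈ V ∧ (c ^ p * U)⁻¹ ∈ V := by
  rcases V.mem_or_inv_mem x with hx | hx
  · exact Cert3_one ψ i hconst hK δ τ hτ i₀ hi₀ hδκ hδψ hδfix hperm hp hU c0 V hV hx
  · rw [← map_inv₀] at c1
    exact Cert3_one ψ i hconst hK δ τ hτ i₀ hi₀ hδκ hδψ hδfix hperm hp hU c1 V hV hx

end Fermat.Agent.LP.PL
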