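import Fermat.Agent.LP.PL.Form.Root2
import Fermat.Agent.GR.C.QPlace

/-!
# LP-PL-FORM, file `Cover`: (P0) the normalised root `z1`

`w1` := the canonical representative of the class of `u1` (`GR.C.exists_fixed_rep_Qbar`): leading
coefficient `1`, fixed by every `σ` which fixes the class.  `p ∣ order w1`
(`GR.C.dvd_order_of_isKummer`; `w1 = u1 * z ^ p` is again `IsKummer`, or compute the order directly).
`z1` := the normalised `p`-th root of `w1` (`exists_root`).
* `fix`: `σ ζ = ζ = ζ ^ 1`, so `σ` fixes the class (`LineData.act` with `c = 1`), so `gal σ w1 = w1`,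
  so `gal σ z1 = z1` (`gal_eq_of_pow`).
* `act`: `gal σ w1 = w1 ^ c * y ^ p` with `y ∈ F`, `y ≠ 0` (`LineData.act`, `kummerEquiv_gal`, transitivity).
  Leading coefficients: `lc(y) ^ p = 1`; replace `y` by `y / C (lc y)`.  Then `gal σ z1` and `z1 ^ c * y` are
  two `p`-th roots of the same series with leading coefficient `1`: `root_unique`.
-/

set_option autoImplicit false
set_option synthInstance.maxHeartbeats 400000

noncomputable section

namespace Fermat.Agent.LP.PL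

open Fermat.Agent.GR ModularCurve IntermediateField

variable {p N : ℕ} {ζ : Qbar} {L : IntermediateField ℚ Qbar} {u1 z1 : LaurentSeries Qbar}

theorem Cover_kummerEquiv_pow {n : ℕ} {u v : LaurentSeries Qbar} (h : KummerEquiv N n u v)
    (c : ℕ) : KummerEquiv N n (u ^ c) (v ^ c) := by
  obtain ⟨z, hz, hz0, rfl⟩ := h
  exact ⟨z ^ c, pow_mem hz c, pow_ne_zero c hz0, by rw [mul_pow, ← pow_mul, ← pow_mul, mul_comm n c]⟩

theorem Cover_mem_fixingSubgroup {L' : IntermediateField ℚ Qbar} (hL : L ≤ L')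
    {σ : Qbar ≃ₐ[ℚ] Qbar} (hσ : σ ∈ L'.fixingSubgroup) : σ ∈ L.fixingSubgroup :=
  (IntermediateField.mem_fixingSubgroup_iff L σ).2
    (fun x hx => (IntermediateField.mem_fixingSubgroup_iff L' σ).1 hσ x (hL hx))

theorem exists_coverRoot [NeZero N] (h : LineData p N ζ L u1) :
    ∃ z1 : LaurentSeries Qbar, IsCoverRoot p N ζ L u1 z1 := by
  have hp := h.prime
  obtain ⟨w1, huw, hlead, hfix⟩ := C.exists_fixed_rep_Qbar hp.pos h.kummer.mem h.kummer.ne_zero
  have hwK : IsKummer (N := N) p w1 := by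
    obtain ⟨z, hz, hz0, rfl⟩ := huw
    exact h.kummer.mul (isKummer_pow_self hz hz0)
  obtain ⟨z1, hz1, hz1lead⟩ := exists_root hp.pos hlead (C.dvd_order_of_isKummer hwK)
  refine ⟨z1, ⟨by rw [hz1]; exact huw, hz1lead, ?_, ?_⟩⟩
  · intro σ hσ c hc
    have h1 : KummerEquiv N p (w1 ^ c) (u1 ^ c) := (Cover_kummerEquiv_pow huw c).symm
    have h2 : KummerEquiv N p (gal σ u1) (gal σ w1) := C.kummerEquiv_coeffMap huw _
    obtain ⟨y, hy, hy0, e⟩ := (h1.trans (h.act σ hσ c hc)).trans h2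
    have hlc : y.leadingCoeff ^ p = 1 := by
      have h3 := congrArg HahnSeries.leadingCoeff e
      rw [leadingCoeff_gal, hlead, map_one, leadingCoeff_mul, leadingCoeff_pow, hlead, one_pow,
        one_mul, leadingCoeff_pow] at h3
      exact h3.symm
    have ha0 : y.leadingCoeff ≠ 0 := by
      intro h0
      rw [h0, zero_pow hp.ne_zero] at hlc
      exact zero_ne_one hlc
    refine ⟨HahnSeries.C y.leadingCoeff⁻¹ * y, mul_mem (C_mem_FF _) hy, mul_ne_zero
      ((map_ne_zero (HahnSeries.C : Qbar →+* LaurentSeries Qbar)).mpr (inv_ne_zero ha0)) hy0, ?_⟩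
    apply root_unique hp.pos
    · rw [← map_pow, hz1, e, mul_pow, mul_pow, ← pow_mul, mul_comm c p, pow_mul, hz1, ← map_pow,
        inv_pow, hlc, inv_one, map_one, one_mul]
    · rw [leadingCoeff_gal, hz1lead, map_one]
    · rw [leadingCoeff_mul, leadingCoeff_pow, hz1lead, one_pow, one_mul, leadingCoeff_mul,
        leadingCoeff_C, inv_mul_cancel₀ ha0]
  · intro σ hσ hσζ
    have h1 := h.act σ hσ 1 (by rw [pow_one]; exact hσζ)
    rw [pow_one] at h1
    have h2 : gal σ w1 = w1 := hfix σ h1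
    exact gal_eq_of_pow hp.pos hz1lead (by rw [hz1]; exact h2)

theorem IsCoverRoot.ne_zero (hz : IsCoverRoot p N ζ L u1 z1) : z1 ≠ 0 := by
  exact ne_zero_of_leadingCoeff hz.lead

theorem IsCoverRoot.pow_mem (h : LineData p N ζ L u1) (hz : IsCoverRoot p N ζ L u1 z1) :
    z1 ^ p ∈ FF Qbar N := by
  obtain ⟨z, hzm, -, e⟩ := hz.pow
  rw [e]
  exact mul_mem h.kummer.mem (_root_.pow_mem hzm p)

/-- `z1 ^ p` is not a `p`-th power in `F`. -/
theorem IsCoverRoot.not_pow (h : LineData p N ζ L u1) (hz : IsCoverRoot p N ζ L u1 z1) :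
    ∀ b ∈ FF Qbar N, b ^ p ≠ z1 ^ p := by
  intro b hb hbz
  apply h.nontriv
  obtain ⟨z, hzm, hz0, e⟩ := hz.pow
  have hb0 : b ≠ 0 := by
    intro h0
    rw [h0, zero_pow h.prime.ne_zero] at hbz
    exact pow_ne_zero p hz.ne_zero hbz.symm
  refine ⟨b / z, div_mem hb hzm, div_ne_zero hb0 hz0, ?_⟩
  rw [one_mul, div_pow, hbz, e, mul_div_cancel_right₀ _ (pow_ne_zero p hz0)]

/-- monotonicity in `L`. -/
theorem IsCoverRoot.mono {L' : IntermediateField ℚ Qbar} (hL : L ≤ L')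
    (hz : IsCoverRoot p N ζ L u1 z1) : IsCoverRoot p N ζ L' u1 z1 := by
  exact ⟨hz.pow, hz.lead, fun σ hσ => hz.act σ (Cover_mem_fixingSubgroup hL hσ),
    fun σ hσ => hz.fix σ (Cover_mem_fixingSubgroup hL hσ)⟩

theorem LineData.mono {L' : IntermediateField ℚ Qbar} (hL : L ≤ L')
    (h : LineData p N ζ L u1) : LineData p N ζ L' u1 := by
  exact ⟨h.prime, h.root, h.kummer, h.nontriv, fun σ hσ => h.act σ (Cover_mem_fixingSubgroup hL hσ)⟩

/-- every `σ` maps `ζ` to a power of `ζ`. -/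
theorem exists_pow_of_root (hζ : IsPrimitiveRoot ζ p) (hp : 0 < p) (σ : Qbar ≃ₐ[ℚ] Qbar) :
    ∃ c : ℕ, σ ζ = ζ ^ c := by
  haveI : NeZero p := ⟨hp.ne'⟩
  have h1 : (σ ζ) ^ p = 1 := by rw [← map_pow, hζ.pow_eq_one, map_one]
  obtain ⟨k, -, hk⟩ := hζ.eq_pow_of_pow_eq_one h1
  exact ⟨k, hk.symm⟩

end Fermat.Agent.LP.PL
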