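import Fermat.Agent.LP.PL.Form.F1Q

/-!
# LP-PL-FORM, file `Deck`: (P0) the deck transformation `g : z1 ↦ ζ z1` of `F(z1) / F`
-/

set_option autoImplicit false
set_option synthInstance.maxHeartbeats 400000

noncomputable section

namespace Fermat.Agent.LP.PL

open Fermat.Agent.GR ModularCurve IntermediateField

variable {p N : ℕ} {ζ : Qbar} {L : IntermediateField ℚ Qbar} {u1 z1 : LaurentSeries Qbar}
  {g : F1Q N z1 ≃ₐ[Qbar] F1Q N z1}

/-- the evaluation `F[X] / (X ^ p - a) → E` at a root `y` which generates `E` is bijective. -/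
theorem Deck_bij {F E : Type*} [Field F] [Field E] [Algebra F E] {p : ℕ} (hp : p.Prime) (a : F)
    (hnot : ∀ b : F, b ^ p ≠ a) (y : E)
    (hy : (Polynomial.X ^ p - Polynomial.C a : Polynomial F).eval₂ (Algebra.ofId F E) y = 0)
    (hspan : ∀ x : E, ∃ f : ℕ → F, x = ∑ i ∈ Finset.range p, algebraMap F E (f i) * y ^ i) :
    Function.Bijective (AdjoinRoot.liftAlgHom (Polynomial.X ^ p - Polynomial.C a : Polynomial F)
      (Algebra.ofId F E) y hy) := by
  have hirr : Irreducible (Polynomial.X ^ p - Polynomial.C a : Polynomial F) :=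
    X_pow_sub_C_irreducible_of_prime hp hnot
  have : Fact (Irreducible (Polynomial.X ^ p - Polynomial.C a : Polynomial F)) := ⟨hirr⟩
  refine ⟨RingHom.injective (AdjoinRoot.liftAlgHom _ (Algebra.ofId F E) y hy).toRingHom, ?_⟩
  intro x
  obtain ⟨f, rfl⟩ := hspan x
  refine ⟨∑ i ∈ Finset.range p, AdjoinRoot.of _ (f i) * AdjoinRoot.root _ ^ i, ?_⟩
  rw [map_sum]
  refine Finset.sum_congr rfl fun i _ => ?_
  rw [map_mul, map_pow, AdjoinRoot.liftAlgHom_root, AdjoinRoot.liftAlgHom_of]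
  rfl

/-- abstract Kummer theory: the automorphism `z ↦ ω z`. -/
theorem Deck_abs {F E : Type*} [Field F] [Field E] [Algebra F E] {p : ℕ} (hp : p.Prime) (z : E)
    (a : F) (hza : z ^ p = algebraMap F E a) (hnot : ∀ b : F, b ^ p ≠ a)
    (hspan : ∀ x : E, ∃ f : ℕ → F, x = ∑ i ∈ Finset.range p, algebraMap F E (f i) * z ^ i)
    (ω : F) (hω : ω ^ p = 1) : ∃ g : E ≃ₐ[F] E, g z = algebraMap F E ω * z := by
  have hω0 : ω ≠ 0 := by
    rintro rfl
    rw [zero_pow hp.ne_zero] at hω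
    exact zero_ne_one hω
  have h1 : (Polynomial.X ^ p - Polynomial.C a : Polynomial F).eval₂ (Algebra.ofId F E) z = 0 := by
    rw [Polynomial.eval₂_sub, Polynomial.eval₂_pow, Polynomial.eval₂_X, Polynomial.eval₂_C, hza]
    exact sub_self _
  have h2 : (Polynomial.X ^ p - Polynomial.C a : Polynomial F).eval₂ (Algebra.ofId F E)
      (algebraMap F E ω * z) = 0 := by
    rw [Polynomial.eval₂_sub, Polynomial.eval₂_pow, Polynomial.eval₂_X, Polynomial.eval₂_C,
      mul_pow, ← map_pow, hω, map_one, one_mul, hza]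
    exact sub_self _
  have hspan2 : ∀ x : E, ∃ f : ℕ → F,
      x = ∑ i ∈ Finset.range p, algebraMap F E (f i) * (algebraMap F E ω * z) ^ i := by
    intro x
    obtain ⟨f, rfl⟩ := hspan x
    refine ⟨fun i => f i * (ω⁻¹) ^ i, Finset.sum_congr rfl fun i _ => ?_⟩
    have h3 : algebraMap F E ω⁻¹ * algebraMap F E ω = 1 := by
      rw [← map_mul, inv_mul_cancel₀ hω0, map_one]
    rw [map_mul, map_pow, mul_pow, mul_assoc, ← mul_assoc (algebraMap F E ω⁻¹ ^ i), ← mul_pow, h3,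
      one_pow, one_mul]
  let e₁ := AlgEquiv.ofBijective _ (Deck_bij hp a hnot z h1 hspan)
  let e₂ := AlgEquiv.ofBijective _ (Deck_bij hp a hnot _ h2 hspan2)
  refine ⟨e₁.symm.trans e₂, ?_⟩
  have h4 : e₁ (AdjoinRoot.root _) = z := AdjoinRoot.liftAlgHom_root _ _ _ h1
  have h5 : e₂ (AdjoinRoot.root _) = algebraMap F E ω * z := AdjoinRoot.liftAlgHom_root _ _ _ h2
  rw [AlgEquiv.trans_apply, ← h4, AlgEquiv.symm_apply_apply, h5, h4]

/-- Existence.  By `mem_F1Q_iff` and `F1Q_indep` every `x ∈ F(z1)` is uniquely `∑_{i<p} f_i z1 ^ i`; define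
`g x := ∑ f_i ζ ^ i z1 ^ i` and check that it is a ring homomorphism (`ζ ^ p = 1`), bijective (inverse: `ζ⁻¹`).
Alternative: `(FF Q̄ N)⟮z1⟯` over the base field `FF Q̄ N`, `IntermediateField.algHomAdjoinIntegralEquiv`
with the root `C ζ * z1` of the minimal polynomial `X ^ p - C (z1 ^ p)`, then transport. -/
theorem exists_deck (h : LineData p N ζ L u1) (hz : IsCoverRoot p N ζ L u1 z1) :
    ∃ g : F1Q N z1 ≃ₐ[Qbar] F1Q N z1, IsDeck N ζ z1 g := by
  letI : Algebra (FF Qbar N) (F1Q N z1) := (incF1 N z1).toRingHom.toAlgebra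
  haveI : IsScalarTower Qbar (FF Qbar N) (F1Q N z1) :=
    IsScalarTower.of_algebraMap_eq fun _ => rfl
  have hpow := hz.pow_mem h
  obtain ⟨g, hg⟩ := Deck_abs (F := FF Qbar N) (E := F1Q N z1) h.prime (zF1 N z1) ⟨z1 ^ p, hpow⟩
    (Subtype.ext rfl)
    (fun b hb => hz.not_pow h b b.2 (congrArg Subtype.val hb))
    (fun x => by
      obtain ⟨f, hf, hx⟩ := (mem_F1Q_iff h.prime.pos hpow).1 x.2
      refine ⟨fun i => ⟨f i, hf i⟩, Subtype.ext ?_⟩
      rw [hx]
      have e : (((∑ i ∈ Finset.range p, algebraMap (FF Qbar N) (F1Q N z1) ⟨f i, hf i⟩ *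
          zF1 N z1 ^ i : F1Q N z1)) : LaurentSeries Qbar) =
          (F1Q N z1).val (∑ i ∈ Finset.range p, algebraMap (FF Qbar N) (F1Q N z1) ⟨f i, hf i⟩ *
          zF1 N z1 ^ i) := rfl
      rw [e, map_sum]
      rfl)
    (algebraMap Qbar (FF Qbar N) ζ)
    (by rw [← map_pow, h.root.pow_eq_one, map_one])
  refine ⟨g.restrictScalars Qbar, ?_, ?_⟩
  · intro x hx
    exact g.commutes ⟨x, hx⟩
  · exact hg

end Fermat.Agent.LP.PL
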