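import Fermat.Agent.LP.PL.Form.F1Q2

/-!
# LP-PL-FORM, file `Deck2`: properties of the deck transformation
-/

set_option autoImplicit false
set_option synthInstance.maxHeartbeats 400000

noncomputable section

namespace Fermat.Agent.LP.PL

open Fermat.Agent.GR ModularCurve IntermediateField

variable {p N : ℕ} {ζ : Qbar} {L : IntermediateField ℚ Qbar} {u1 z1 : LaurentSeries Qbar}
  {g : F1Q N z1 ≃ₐ[Qbar] F1Q N z1}

theorem Deck2_coe_algebraMap (N : ℕ) (z1 : LaurentSeries Qbar) (a : Qbar) :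
    ((algebraMap Qbar (F1Q N z1) a : F1Q N z1) : LaurentSeries Qbar) = HahnSeries.C a := by
  show algebraMap Qbar (LaurentSeries Qbar) a = HahnSeries.C a
  rw [algebraMap_laurentSeries_eq_single, HahnSeries.C_apply]

theorem Deck2_gal_C (σ : Qbar ≃ₐ[ℚ] Qbar) (a : Qbar) :
    gal σ (HahnSeries.C a) = HahnSeries.C (σ a) := by
  rw [HahnSeries.C_apply, HahnSeries.C_apply]
  exact coeffMap_single _ _ _

theorem IsDeck.apply_sum (hg : IsDeck N ζ z1 g) (n : ℕ) (f : ℕ → LaurentSeries Qbar)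
    (hf : ∀ i, f i ∈ FF Qbar N) (x : F1Q N z1)
    (hx : (x : LaurentSeries Qbar) = ∑ i ∈ Finset.range n, f i * z1 ^ i) :
    ((g x : F1Q N z1) : LaurentSeries Qbar) =
      ∑ i ∈ Finset.range n, f i * (HahnSeries.C ζ * z1) ^ i := by
  have hx' : x = ∑ i ∈ Finset.range n,
      (⟨f i, FF_le_F1Q N z1 (hf i)⟩ : F1Q N z1) * zF1 N z1 ^ i := by
    apply Subtype.ext
    rw [hx, AddSubmonoidClass.coe_finsetSum]
    rfl
  rw [hx', map_sum, AddSubmonoidClass.coe_finsetSum]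
  refine Finset.sum_congr rfl fun i _ => ?_
  rw [map_mul, map_pow, hg.root, hg.fixF _ (hf i)]
  show f i * ((algebraMap Qbar (F1Q N z1) ζ : F1Q N z1) * z1 : LaurentSeries Qbar) ^ i = _
  rw [Deck2_coe_algebraMap]

/-- two ring homomorphisms `F(z1) → Q̄((q))` which agree on `F` and at `z1` are equal
(`F1Q_induction`). -/
theorem F1Q_hom_ext {φ ψ : F1Q N z1 →+* LaurentSeries Qbar}
    (hF : ∀ x : F1Q N z1, (x : LaurentSeries Qbar) ∈ FF Qbar N → φ x = ψ x)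
    (hz : φ (zF1 N z1) = ψ (zF1 N z1)) : φ = ψ := by
  ext1 x
  have key : ∃ hx : (x : LaurentSeries Qbar) ∈ F1Q N z1,
      φ ⟨(x : LaurentSeries Qbar), hx⟩ = ψ ⟨(x : LaurentSeries Qbar), hx⟩ := by
    refine F1Q_induction (N := N) (z1 := z1)
      (P := fun y => ∃ hy : y ∈ F1Q N z1, φ ⟨y, hy⟩ = ψ ⟨y, hy⟩) ?_ ?_ ?_ ?_ ?_ x.2
    · intro y hy
      exact ⟨FF_le_F1Q N z1 hy, hF ⟨y, FF_le_F1Q N z1 hy⟩ hy⟩
    · exact ⟨z1_mem_F1Q N z1, hz⟩
    · rintro a b ⟨ha, ha'⟩ ⟨hb, hb'⟩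
      refine ⟨add_mem ha hb, ?_⟩
      have : (⟨a + b, add_mem ha hb⟩ : F1Q N z1) = ⟨a, ha⟩ + ⟨b, hb⟩ := rfl
      rw [this, map_add, map_add, ha', hb']
    · rintro a b ⟨ha, ha'⟩ ⟨hb, hb'⟩
      refine ⟨mul_mem ha hb, ?_⟩
      have : (⟨a * b, mul_mem ha hb⟩ : F1Q N z1) = ⟨a, ha⟩ * ⟨b, hb⟩ := rfl
      rw [this, map_mul, map_mul, ha', hb']
    · rintro a ⟨ha, ha'⟩
      refine ⟨inv_mem ha, ?_⟩
      have : (⟨a⁻¹, inv_mem ha⟩ : F1Q N z1) = (⟨a, ha⟩ : F1Q N z1)⁻¹ := rfl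
      rw [this, map_inv₀, map_inv₀, ha']
  exact key.2

theorem IsDeck.iterate_root (hg : IsDeck N ζ z1 g) (k : ℕ) :
    (⇑g)^[k] (zF1 N z1) = algebraMap Qbar (F1Q N z1) (ζ ^ k) * zF1 N z1 := by
  induction k with
  | zero => rw [Function.iterate_zero, id, pow_zero, map_one, one_mul]
  | succ k ih =>
    rw [Function.iterate_succ_apply', ih, map_mul, AlgEquiv.commutes, hg.root, pow_succ, map_mul,
      mul_assoc]

/-- `g ^ p = 1`. -/
theorem IsDeck.iterate_p (hζ : IsPrimitiveRoot ζ p) (hg : IsDeck N ζ z1 g) (x : F1Q N z1) :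
    (⇑g)^[p] x = x := by
  have hpow : ∀ (k : ℕ) (y : F1Q N z1), (g ^ k) y = (⇑g)^[k] y := by
    intro k
    induction k with
    | zero => intro y; rfl
    | succ k ih =>
      intro y
      rw [pow_succ', AlgEquiv.mul_apply, ih, Function.iterate_succ_apply']
  have h1 : ((F1Q N z1).toSubfield.subtype.comp ((g ^ p : F1Q N z1 ≃ₐ[Qbar] F1Q N z1) :
      F1Q N z1 →+* F1Q N z1)) = (F1Q N z1).toSubfield.subtype := by
    refine F1Q_hom_ext (fun y hy => ?_) ?_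
    · show (((g ^ p) y : F1Q N z1) : LaurentSeries Qbar) = y
      rw [hpow, Function.iterate_fixed (hg.fixF y hy)]
    · show (((g ^ p) (zF1 N z1) : F1Q N z1) : LaurentSeries Qbar) = zF1 N z1
      rw [hpow, hg.iterate_root, hζ.pow_eq_one, map_one, one_mul]
  have h2 := congrArg (fun φ : F1Q N z1 →+* LaurentSeries Qbar => φ x) h1
  rw [← hpow]
  exact Subtype.ext h2

/-- the fixed field of `g` is `F`  (`x = ∑ f_i z1 ^ i`, `g x - x = ∑ f_i (ζ ^ i - 1) z1 ^ i`,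
`F1Q_indep`, `ζ ^ i ≠ 1` for `0 < i < p`). -/
theorem IsDeck.fixed_iff (h : LineData p N ζ L u1) (hz : IsCoverRoot p N ζ L u1 z1)
    (hg : IsDeck N ζ z1 g) (x : F1Q N z1) :
    g x = x ↔ (x : LaurentSeries Qbar) ∈ FF Qbar N := by
  refine ⟨fun hgx => ?_, hg.fixF x⟩
  obtain ⟨f, hf, hx⟩ := (mem_F1Q_iff h.prime.pos (hz.pow_mem h)).1 x.2
  have h1 := hg.apply_sum p f hf x hx
  rw [hgx, hx] at h1
  have hC : ∀ a : Qbar, HahnSeries.C a ∈ FF Qbar N := by
    intro a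
    have := (FF Qbar N).algebraMap_mem a
    rwa [algebraMap_laurentSeries_eq_single, ← HahnSeries.C_apply] at this
  have h2 : ∑ i ∈ Finset.range p, (f i * (HahnSeries.C (ζ ^ i) - 1)) * z1 ^ i = 0 := by
    have : ∀ i ∈ Finset.range p, (f i * (HahnSeries.C (ζ ^ i) - 1)) * z1 ^ i =
        f i * (HahnSeries.C ζ * z1) ^ i - f i * z1 ^ i := by
      intro i _
      rw [map_pow, mul_pow]
      ring
    rw [Finset.sum_congr rfl this, Finset.sum_sub_distrib, ← h1, sub_self]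
  have h3 := F1Q_indep h.prime (hz.pow_mem h) (hz.not_pow h) _
    (fun i => mul_mem (hf i) (sub_mem (hC _) (one_mem _))) h2
  have h4 : ∀ i ∈ Finset.range p, i ≠ 0 → f i * z1 ^ i = 0 := by
    intro i hi hi0
    have hip := Finset.mem_range.1 hi
    have h5 := h3 i hip
    have h6 : HahnSeries.C (ζ ^ i) - 1 ≠ (0 : LaurentSeries Qbar) := by
      intro h7
      have h8 : HahnSeries.C (ζ ^ i) = (HahnSeries.C (1 : Qbar) : LaurentSeries Qbar) := by
        rw [map_one]; exact sub_eq_zero.1 h7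
      exact h.root.pow_ne_one_of_pos_of_lt hi0 hip (HahnSeries.C_injective h8)
    rw [(mul_eq_zero.1 h5).resolve_right h6, zero_mul]
  rw [hx, Finset.sum_eq_single_of_mem 0 (Finset.mem_range.2 h.prime.pos) h4, pow_zero, mul_one]
  exact hf 0

/-- `g` commutes with `Gal(Q̄/L)`  (`F1Q_hom_ext`; at `z1`: `σ ζ = ζ ^ c`, `gal σ z1 = z1 ^ c * y`,
`g (z1 ^ c * y) = ζ ^ c z1 ^ c y = gal σ (C ζ * z1)`). -/
theorem IsDeck.gal_comm (h : LineData p N ζ L u1) (hz : IsCoverRoot p N ζ L u1 z1)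
    (hg : IsDeck N ζ z1 g) (σ : Qbar ≃ₐ[ℚ] Qbar) (hσ : σ ∈ L.fixingSubgroup) (x : F1Q N z1) :
    g (galF1 h.root h.prime.pos hz σ hσ x) = galF1 h.root h.prime.pos hz σ hσ (g x) := by
  set G := galF1 h.root h.prime.pos hz σ hσ with hG
  have h1 : ((F1Q N z1).toSubfield.subtype.comp ((g : F1Q N z1 →+* F1Q N z1).comp G)) =
      (F1Q N z1).toSubfield.subtype.comp (G.comp (g : F1Q N z1 →+* F1Q N z1)) := by
    refine F1Q_hom_ext (fun y hy => ?_) ?_
    · show ((g (G y) : F1Q N z1) : LaurentSeries Qbar) = (G (g y) : F1Q N z1)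
      have hGy : ((G y : F1Q N z1) : LaurentSeries Qbar) ∈ FF Qbar N := by
        rw [hG, coe_galF1]
        exact GR.C.coeffMap_mem_FF _ _ hy
      rw [hg.fixF y hy, hg.fixF _ hGy]
    · show ((g (G (zF1 N z1)) : F1Q N z1) : LaurentSeries Qbar) = (G (g (zF1 N z1)) : F1Q N z1)
      obtain ⟨c, hc⟩ := exists_pow_of_root h.root h.prime.pos σ
      obtain ⟨y, hy, -, hyz⟩ := hz.act σ hσ c hc
      have h2 : G (zF1 N z1) = zF1 N z1 ^ c * ⟨y, FF_le_F1Q N z1 hy⟩ := by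
        apply Subtype.ext
        rw [hG, coe_galF1]
        exact hyz
      have h3 : G (algebraMap Qbar (F1Q N z1) ζ) = algebraMap Qbar (F1Q N z1) (ζ ^ c) := by
        apply Subtype.ext
        rw [hG, coe_galF1, Deck2_coe_algebraMap, Deck2_coe_algebraMap, Deck2_gal_C, hc]
      rw [hg.root, map_mul, h3, h2, map_mul, map_pow, hg.root, hg.fixF _ hy, mul_pow, map_pow,
        mul_assoc]
  have h2 := congrArg (fun φ : F1Q N z1 →+* LaurentSeries Qbar => φ x) h1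
  exact Subtype.ext h2

end Fermat.Agent.LP.PL
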