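import Fermat.Agent.LP.PL.Form.AbsDefs
import Fermat.Agent.LP.Defs
import Fermat.Agent.GR.C.FixedRep
import Fermat.Agent.GT.Brg.Descent

/-!
# LP-PL-FORM (S44): definitions

(P0), (P1), (P2) of the blueprint of LP-PL (report #1450): the `ℤ/p`-cover `F1 = F(z1)`,
`z1 ^ p = u1`, of the function field `F = FF Q̄ N`, its deck transformation `g`, its form over a
field `L` such that `Gal(Q̄/L)` acts on the class of `u1` through the cyclotomic character, the
descent `u2' = u2 y ^ p` of a second class and the constant `η = θ ^ p`.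

Everything lives inside `Q̄((q))`; `gal σ` is the coefficientwise action.

-/

set_option autoImplicit false
set_option synthInstance.maxHeartbeats 400000

noncomputable section

namespace Fermat.Agent.LP.PL

open Fermat.Agent.GR ModularCurve IntermediateField

/-! ### the cover -/

/-- `Gal(Q̄/L)` acts on the nontrivial Kummer class of `u1` through the cyclotomic character. -/
structure LineData (p N : ℕ) (ζ : Qbar) (L : IntermediateField ℚ Qbar)
    (u1 : LaurentSeries Qbar) : Prop where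
  prime : p.Prime
  root : IsPrimitiveRoot ζ p
  kummer : IsKummer (N := N) p u1
  nontriv : ¬ KummerEquiv N p 1 u1
  act : ∀ σ ∈ L.fixingSubgroup, ∀ c : ℕ, σ ζ = ζ ^ c → KummerEquiv N p (u1 ^ c) (gal σ u1)

/-- ... and on the class of `u2` modulo the class of `u1` trivially. -/
structure PairData (p N : ℕ) (ζ : Qbar) (L : IntermediateField ℚ Qbar)
    (u1 u2 : LaurentSeries Qbar) : Prop extends LineData p N ζ L u1 where
  kummer2 : IsKummer (N := N) p u2
  act2 : ∀ σ ∈ L.fixingSubgroup, ∃ b : ℕ, KummerEquiv N p (u2 * u1 ^ b) (gal σ u2)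

/-- `z1` is the normalised `p`-th root of a representative of the class of `u1`. -/
structure IsCoverRoot (p N : ℕ) (ζ : Qbar) (L : IntermediateField ℚ Qbar)
    (u1 z1 : LaurentSeries Qbar) : Prop where
  pow : KummerEquiv N p u1 (z1 ^ p)
  lead : z1.leadingCoeff = 1
  act : ∀ σ ∈ L.fixingSubgroup, ∀ c : ℕ, σ ζ = ζ ^ c →
    ∃ y ∈ FF Qbar N, y ≠ 0 ∧ gal σ z1 = z1 ^ c * y
  fix : ∀ σ ∈ L.fixingSubgroup, σ ζ = ζ → gal σ z1 = z1

/-- the cover `F(z1)` over `Q̄`. -/
def F1Q (N : ℕ) (z1 : LaurentSeries Qbar) : IntermediateField Qbar (LaurentSeries Qbar) :=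
  FF Qbar N ⊔ Qbar⟮z1⟯

theorem FF_le_F1Q (N : ℕ) (z1 : LaurentSeries Qbar) : FF Qbar N ≤ F1Q N z1 := le_sup_left

theorem z1_mem_F1Q (N : ℕ) (z1 : LaurentSeries Qbar) : z1 ∈ F1Q N z1 :=
  (le_sup_right : Qbar⟮z1⟯ ≤ F1Q N z1) (mem_adjoin_simple_self Qbar z1)

/-- `z1` as an element of the cover. -/
def zF1 (N : ℕ) (z1 : LaurentSeries Qbar) : F1Q N z1 := ⟨z1, z1_mem_F1Q N z1⟩

/-- an element of `F` as an element of the cover. -/
def incF1 (N : ℕ) (z1 : LaurentSeries Qbar) : FF Qbar N →ₐ[Qbar] F1Q N z1 :=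
  IntermediateField.inclusion (FF_le_F1Q N z1)

/-- `g` is the deck transformation `z1 ↦ ζ z1` of `F(z1) / F`. -/
structure IsDeck (N : ℕ) (ζ : Qbar) (z1 : LaurentSeries Qbar)
    (g : F1Q N z1 ≃ₐ[Qbar] F1Q N z1) : Prop where
  fixF : ∀ x : F1Q N z1, (x : LaurentSeries Qbar) ∈ FF Qbar N → g x = x
  root : g (zF1 N z1) = algebraMap Qbar (F1Q N z1) ζ * zF1 N z1

/-- the form of the cover over `L`: the elements of `L((q))` which lie in `F(z1)`. -/
def F1 (L : IntermediateField ℚ Qbar) (N : ℕ) (z1 : LaurentSeries Qbar) :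
    IntermediateField L (LaurentSeries L) :=
  ((F1Q N z1).toSubfield.comap (coeffMap (algebraMap L Qbar))).toIntermediateField (by
    intro a
    show coeffMap (algebraMap L Qbar) (algebraMap L (LaurentSeries L) a) ∈ F1Q N z1
    rw [algebraMap_laurentSeries_eq_single, coeffMap_single,
      ← algebraMap_laurentSeries_eq_single]
    exact (F1Q N z1).algebraMap_mem _)

theorem mem_F1_iff {L : IntermediateField ℚ Qbar} {N : ℕ} {z1 : LaurentSeries Qbar}
    {x : LaurentSeries L} : x ∈ F1 L N z1 ↔ coeffMap (algebraMap L Qbar) x ∈ F1Q N z1 := Iff.rfl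

/-- base change `F1 L → F1 Q̄`. -/
def toQ (L : IntermediateField ℚ Qbar) (N : ℕ) (z1 : LaurentSeries Qbar) :
    F1 L N z1 →+* F1Q N z1 :=
  ((coeffMap (algebraMap L Qbar)).comp (F1 L N z1).toSubfield.subtype).codRestrict
    (F1Q N z1).toSubfield (fun x => x.2)

@[simp] theorem coe_toQ {L : IntermediateField ℚ Qbar} {N : ℕ} {z1 : LaurentSeries Qbar}
    (x : F1 L N z1) : ((toQ L N z1 x : F1Q N z1) : LaurentSeries Qbar) =
      coeffMap (algebraMap L Qbar) (x : LaurentSeries L) := rfl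

end Fermat.Agent.LP.PL
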