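import Fermat.Agent.LP.PL.Form.Root2

/-!
# LP-PL-FORM, file `Orbit`: finite orbits of `Gal(Q̄/L)` on series with coefficients in a number field;
orbit sums are fixed
-/

set_option autoImplicit false
set_option synthInstance.maxHeartbeats 400000

noncomputable section

namespace Fermat.Agent.LP.PL

open Fermat.Agent.GR ModularCurve IntermediateField

/-- `gal σ x` depends only on the restriction `M →ₐ[ℚ] Q̄` of `σ` (`gal_eq_of_coeff_mem`), and there are
finitely many of these (`Finite (M →ₐ[ℚ] Q̄)` for `M` finite dimensional). -/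
theorem finite_orbit {M : IntermediateField ℚ Qbar} [FiniteDimensional ℚ M]
    {x : LaurentSeries Qbar} (hx : ∀ n, x.coeff n ∈ M) :
    (Set.range fun σ : Qbar ≃ₐ[ℚ] Qbar => gal σ x).Finite := by
  classical
  let res : (Qbar ≃ₐ[ℚ] Qbar) → (M →ₐ[ℚ] Qbar) := fun σ => σ.toAlgHom.comp M.val
  let F : (M →ₐ[ℚ] Qbar) → LaurentSeries Qbar := fun φ =>
    if h : ∃ σ, res σ = φ then gal h.choose x else 0
  have hfin : Finite (M →ₐ[ℚ] Qbar) := inferInstance
  refine (Set.finite_range F).subset ?_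
  rintro _ ⟨σ, rfl⟩
  refine ⟨res σ, ?_⟩
  have h : ∃ τ, res τ = res σ := ⟨σ, rfl⟩
  show (if h : ∃ τ, res τ = res σ then gal h.choose x else 0) = gal σ x
  rw [dif_pos h]
  refine gal_eq_of_coeff_mem hx fun a ha => ?_
  exact DFunLike.congr_fun h.choose_spec (⟨a, ha⟩ : M)

theorem gal_mul_apply (σ τ : Qbar ≃ₐ[ℚ] Qbar) (x : LaurentSeries Qbar) :
    gal (σ * τ) x = gal σ (gal τ x) := by
  ext n
  rw [gal_coeff, gal_coeff, gal_coeff, AlgEquiv.mul_apply]

theorem gal_one_apply (x : LaurentSeries Qbar) : gal (1 : Qbar ≃ₐ[ℚ] Qbar) x = x := by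
  ext n
  rw [gal_coeff, AlgEquiv.one_apply]

theorem gal_injective (σ : Qbar ≃ₐ[ℚ] Qbar) : Function.Injective (gal σ) :=
  (gal σ).injective

/-- the orbit of `x` under `Gal(Q̄/L)` as a `Finset`. -/
theorem exists_orbit (L : IntermediateField ℚ Qbar) {M : IntermediateField ℚ Qbar}
    [FiniteDimensional ℚ M] {x : LaurentSeries Qbar} (hx : ∀ n, x.coeff n ∈ M) :
    ∃ O : Finset (LaurentSeries Qbar), x ∈ O ∧
      (∀ y ∈ O, ∃ σ ∈ L.fixingSubgroup, y = gal σ x) ∧
      ∀ σ ∈ L.fixingSubgroup, ∀ y ∈ O, gal σ y ∈ O := by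
  classical
  have hfin : {y : LaurentSeries Qbar | ∃ σ ∈ L.fixingSubgroup, y = gal σ x}.Finite := by
    refine (finite_orbit hx).subset ?_
    rintro _ ⟨σ, -, rfl⟩
    exact ⟨σ, rfl⟩
  refine ⟨hfin.toFinset, ?_, ?_, ?_⟩
  · rw [Set.Finite.mem_toFinset]
    exact ⟨1, one_mem _, (gal_one_apply x).symm⟩
  · intro y hy
    rw [Set.Finite.mem_toFinset] at hy
    exact hy
  · intro σ hσ y hy
    rw [Set.Finite.mem_toFinset] at hy ⊢
    obtain ⟨τ, hτ, rfl⟩ := hy
    exact ⟨σ * τ, mul_mem hσ hτ, (gal_mul_apply σ τ x).symm⟩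

/-- a finite set which is stable under `gal σ` is permuted by it, so its sum is fixed
(`Finset.sum_bij` / `Finset.sum_nbij`, `Finset.surj_on_of_inj_on_of_card_le` or
`Finset.eq_of_subset_of_card_le` for `O.image (gal σ) ⊆ O`). -/
theorem gal_sum_eq {O : Finset (LaurentSeries Qbar)} {σ : Qbar ≃ₐ[ℚ] Qbar}
    (h : ∀ y ∈ O, gal σ y ∈ O) : gal σ (∑ y ∈ O, y) = ∑ y ∈ O, y := by
  classical
  have himg : O.image (gal σ) = O := by
    refine Finset.eq_of_subset_of_card_le ?_ ?_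
    · intro y hy
      obtain ⟨z, hz, rfl⟩ := Finset.mem_image.1 hy
      exact h z hz
    · rw [Finset.card_image_of_injective _ (gal_injective σ)]
  rw [map_sum]
  conv_rhs => rw [← himg]
  rw [Finset.sum_image fun a _ b _ hab => gal_injective σ hab]

/-- a sum of series with the same order `m` and leading coefficient `1`: the coefficient at `m` is the
number of terms, the coefficients below `m` vanish. -/
theorem leadingCoeff_sum {O : Finset (LaurentSeries Qbar)} (hO : O.Nonempty) {m : ℤ}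
    (h : ∀ y ∈ O, y.order = m ∧ y.leadingCoeff = 1) :
    (∑ y ∈ O, y).leadingCoeff = (O.card : Qbar) ∧ (∑ y ∈ O, y) ≠ 0 := by
  have hm : (∑ y ∈ O, y).coeff m = (O.card : Qbar) := by
    rw [HahnSeries.coeff_sum, Finset.card_eq_sum_ones, Nat.cast_sum, Nat.cast_one]
    refine Finset.sum_congr rfl fun y hy => ?_
    obtain ⟨h1, h2⟩ := h y hy
    rw [← h1, ← HahnSeries.leadingCoeff_eq, h2]
  have hlt : ∀ n < m, (∑ y ∈ O, y).coeff n = 0 := by
    intro n hn
    rw [HahnSeries.coeff_sum]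
    refine Finset.sum_eq_zero fun y hy => ?_
    exact HahnSeries.coeff_eq_zero_of_lt_order (by rw [(h y hy).1]; exact hn)
  have hcard : (O.card : Qbar) ≠ 0 := Nat.cast_ne_zero.2 (Finset.card_ne_zero.2 hO)
  have hne : (∑ y ∈ O, y) ≠ 0 := by
    intro h0
    rw [h0, HahnSeries.coeff_zero] at hm
    exact hcard hm.symm
  have hord : (∑ y ∈ O, y).order = m := by
    refine le_antisymm (HahnSeries.order_le_of_coeff_ne_zero (by rw [hm]; exact hcard)) ?_
    by_contra hcon
    exact hne (HahnSeries.coeff_order_eq_zero.1 (hlt _ (not_le.1 hcon)))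
  exact ⟨by rw [HahnSeries.leadingCoeff_eq, hord, hm], hne⟩

/-- if the coefficients of `x` lie in `L(ζ)`, `ζ` a `p`-th root of unity, the orbit has at most `p`
elements; more precisely `gal σ x` depends only on `σ ζ`. -/
theorem gal_eq_of_zeta {L : IntermediateField ℚ Qbar} {ζ : Qbar} {x : LaurentSeries Qbar}
    (hx : ∀ σ ∈ L.fixingSubgroup, σ ζ = ζ → gal σ x = x) {σ τ : Qbar ≃ₐ[ℚ] Qbar}
    (hσ : σ ∈ L.fixingSubgroup) (hτ : τ ∈ L.fixingSubgroup) (h : σ ζ = τ ζ) :
    gal σ x = gal τ x := by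
  have h1 : (τ⁻¹ * σ) ζ = ζ := by
    rw [AlgEquiv.mul_apply, h]
    exact τ.symm_apply_apply ζ
  have h2 := hx (τ⁻¹ * σ) (mul_mem (inv_mem hτ) hσ) h1
  have h3 : gal σ x = gal τ (gal (τ⁻¹ * σ) x) := by
    rw [← gal_mul_apply, mul_inv_cancel_left]
  rw [h3, h2]

end Fermat.Agent.LP.PL
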