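import Fermat.Agent.LP.PL.Form.F1Q2
import Fermat.Agent.LP.PL.Form.Orbit

/-!
# LP-PL-FORM, file `Desc`: (P1) the descent `u2' = u2 y ^ p` (no Hilbert 90: an orbit sum)

`κ := lc(u2)`, `γ ^ p = κ`.  `ρ₀` := the normalised `p`-th root of `u2 / C κ` in `Q̄((q))` (`exists_root`;
`p ∣ order u2` by `GR.C.dvd_order_of_isKummer`), `ρ := C γ * ρ₀`, `ρ ^ p = u2`.  The coefficients of `ρ₀` lie in
a number field (`GR.C.exists_coeffField` for `u2`, enlarged by `κ`; `coeff_root_mem`).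
For `σ ∈ Gal(Q̄/L)`: `(gal σ ρ₀) ^ p = gal σ u2 / C (σ κ) = u2 * (u1 ^ b * f ^ p) / C (σ κ)`, and
`u1 = z1 ^ p * f' ^ p`; so `gal σ ρ₀ = C ε * ρ₀ * (z1 ^ b * f'')` (`eq_C_mul_of_pow_eq`): `gal σ ρ₀ / ρ₀ ∈ F(z1)`.
`O` := the orbit of `ρ₀` (`exists_orbit`), `r := (∑_{x ∈ O} x) / C |O|`: fixed (`gal_sum_eq`), leading
coefficient `1` (`leadingCoeff_sum`, `order_gal`, `leadingCoeff_gal`), and `r = y₀ * ρ₀` with
`y₀ = (∑_{x ∈ O} x / ρ₀) / C |O| ∈ F(z1)`, `y₀ ≠ 0`.  `y := y₀ / C γ`: `r ^ p = y₀ ^ p * u2 / C κ = u2 * y ^ p`.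
Last clause: `y = r / ρ`; `gal σ y = r / gal σ ρ`, `(gal σ ρ) ^ p = gal σ u2 = u2 * f₀ ^ p = (ρ f₀) ^ p`, so
`gal σ ρ = C ε * ρ * f₀` and `gal σ y = (C ε * f₀)⁻¹ * y`.
-/

set_option autoImplicit false
set_option synthInstance.maxHeartbeats 400000

noncomputable section

namespace Fermat.Agent.LP.PL

open Fermat.Agent.GR ModularCurve IntermediateField

variable {p N : ℕ} {ζ : Qbar} {L : IntermediateField ℚ Qbar} {u1 u2 z1 : LaurentSeries Qbar}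

theorem Desc_C_mem (E : IntermediateField Qbar (LaurentSeries Qbar)) (a : Qbar) :
    (HahnSeries.C a : LaurentSeries Qbar) ∈ E := by
  have h := E.algebraMap_mem a
  rwa [algebraMap_laurentSeries_eq_single] at h

theorem Desc_C_ne_zero {a : Qbar} (ha : a ≠ 0) : (HahnSeries.C a : LaurentSeries Qbar) ≠ 0 := by
  intro h
  apply ha
  have := congrArg (fun f : LaurentSeries Qbar => f.coeff 0) h
  simpa using this

theorem Desc_C_pow (a : Qbar) (n : ℕ) :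
    (HahnSeries.C a : LaurentSeries Qbar) ^ n = HahnSeries.C (a ^ n) := by
  rw [map_pow]

/-- a `p`-th root `ρ` of `u2`, written `C γ * ρ₀`, `ρ₀` normalised with coefficients in a number field. -/
theorem exists_rhoQ (hp : 0 < p) (h2 : IsKummer (N := N) p u2) :
    ∃ (γ : Qbar) (ρ₀ : LaurentSeries Qbar) (M : IntermediateField ℚ Qbar), γ ≠ 0 ∧
      ρ₀.leadingCoeff = 1 ∧ (HahnSeries.C γ * ρ₀) ^ p = u2 ∧ FiniteDimensional ℚ M ∧
      ∀ n, ρ₀.coeff n ∈ M := by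
  have hu0 : u2 ≠ 0 := h2.1
  obtain ⟨hmem, -⟩ := h2.2
  obtain ⟨a, x', ha, hx', hux⟩ := exists_normalize hu0
  obtain ⟨γ, hγ⟩ := IsAlgClosed.exists_pow_nat_eq a hp
  have hγ0 : γ ≠ 0 := by
    rintro rfl
    rw [zero_pow hp.ne'] at hγ
    exact ha hγ.symm
  have hx0 : x' ≠ 0 := ne_zero_of_leadingCoeff hx'
  have hord : (p : ℤ) ∣ x'.order := by
    have h := C.dvd_order_of_isKummer h2
    rw [hux, HahnSeries.order_mul (Desc_C_ne_zero ha) hx0, HahnSeries.order_C, zero_add] at h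
    exact h
  obtain ⟨z, hz, hzl⟩ := exists_root hp hx' hord
  obtain ⟨L₀, hL₀, hco, -⟩ := C.exists_coeffField hmem
  have hfa : FiniteDimensional ℚ ℚ⟮a⟯ :=
    IntermediateField.adjoin.finiteDimensional (Algebra.IsIntegral.isIntegral a)
  refine ⟨γ, z, L₀ ⊔ ℚ⟮a⟯, hγ0, hzl, ?_, IntermediateField.finiteDimensional_sup _ _, ?_⟩
  · rw [mul_pow, Desc_C_pow, hγ, hz, ← hux]
  · refine coeff_root_mem hp hzl ?_
    intro k
    have hx'eq : x' = HahnSeries.C a⁻¹ * u2 := by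
      rw [hux, ← mul_assoc, ← map_mul, inv_mul_cancel₀ ha, map_one, one_mul]
    rw [hz, hx'eq, HahnSeries.C_mul_eq_smul, HahnSeries.coeff_smul, smul_eq_mul]
    refine mul_mem (inv_mem ?_) ((le_sup_left : L₀ ≤ L₀ ⊔ ℚ⟮a⟯) (hco k))
    exact (le_sup_right : ℚ⟮a⟯ ≤ L₀ ⊔ ℚ⟮a⟯) (mem_adjoin_simple_self ℚ a)

/-- `gal σ ρ / ρ ∈ F(z1)` for every `p`-th root `ρ` of `u2`, up to a constant. -/
theorem gal_rho_div_mem (h : PairData p N ζ L u1 u2) (hz : IsCoverRoot p N ζ L u1 z1)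
    {ρ : LaurentSeries Qbar} {a : Qbar} (ha : a ≠ 0) (hρ : ρ ^ p = HahnSeries.C a * u2)
    {σ : Qbar ≃ₐ[ℚ] Qbar} (hσ : σ ∈ L.fixingSubgroup) : gal σ ρ / ρ ∈ F1Q N z1 := by
  have hp : 0 < p := h.prime.pos
  have hu0 : u2 ≠ 0 := h.kummer2.1
  have hρ0 : ρ ≠ 0 := by
    rintro rfl
    rw [zero_pow hp.ne'] at hρ
    exact mul_ne_zero (Desc_C_ne_zero ha) hu0 hρ.symm
  obtain ⟨b, f, hf, hf0, hfe⟩ := h.act2 σ hσ
  obtain ⟨f', hf', hf'0, hf'e⟩ := hz.pow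
  have hz0 : z1 ≠ 0 := hz.ne_zero
  obtain ⟨δ, hδ⟩ := IsAlgClosed.exists_pow_nat_eq (σ a / a) hp
  have hσa : σ a ≠ 0 := by
    rw [Ne, map_eq_zero]; exact ha
  have hδ0 : δ ≠ 0 := by
    rintro rfl
    rw [zero_pow hp.ne'] at hδ
    exact div_ne_zero hσa ha hδ.symm
  have hu1 : u1 = z1 ^ p * (f'⁻¹) ^ p := by
    rw [hf'e, inv_pow, mul_assoc, mul_inv_cancel₀ (pow_ne_zero _ hf'0), mul_one]
  set w : LaurentSeries Qbar := z1 ^ b * (f'⁻¹) ^ b * f with hw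
  have hw0 : w ≠ 0 :=
    mul_ne_zero (mul_ne_zero (pow_ne_zero _ hz0) (pow_ne_zero _ (inv_ne_zero hf'0))) hf0
  have hwmem : w ∈ F1Q N z1 :=
    mul_mem (mul_mem (pow_mem (z1_mem_F1Q N z1) _)
      (pow_mem (inv_mem (FF_le_F1Q N z1 hf')) _)) (FF_le_F1Q N z1 hf)
  have hCa : (HahnSeries.C (σ a) : LaurentSeries Qbar) = HahnSeries.C (δ ^ p) * HahnSeries.C a := by
    rw [← map_mul, hδ, div_mul_cancel₀ _ ha]
  have key : (gal σ ρ) ^ p = (HahnSeries.C δ * ρ * w) ^ p := by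
    rw [← map_pow, hρ, map_mul, gal_C, hfe, mul_pow, mul_pow, hρ, Desc_C_pow, hCa, hw, mul_pow,
      mul_pow]
    conv_lhs => rw [hu1]
    rw [mul_pow, ← pow_mul, ← pow_mul, ← pow_mul, ← pow_mul, mul_comm p b]
    ring
  obtain ⟨ε, -, hε⟩ := eq_C_mul_of_pow_eq hp
    (mul_ne_zero (mul_ne_zero (Desc_C_ne_zero hδ0) hρ0) hw0) key
  have : gal σ ρ / ρ = HahnSeries.C ε * HahnSeries.C δ * w := by
    rw [hε]
    field_simp
  rw [this]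
  exact mul_mem (mul_mem (Desc_C_mem _ _) (Desc_C_mem _ _)) hwmem

/-- `gal σ ρ / ρ ∈ F` if `σ` fixes the class of `u2`. -/
theorem gal_rho_div_mem_FF (hp : 0 < p) {ρ : LaurentSeries Qbar} (hρ : ρ ^ p = u2)
    (hu2 : u2 ≠ 0) {σ : Qbar ≃ₐ[ℚ] Qbar} (hσ : KummerEquiv N p u2 (gal σ u2)) :
    gal σ ρ / ρ ∈ FF Qbar N := by
  have hρ0 : ρ ≠ 0 := by
    rintro rfl
    rw [zero_pow hp.ne'] at hρ
    exact hu2 hρ.symm
  obtain ⟨z, hz, hz0, hze⟩ := hσ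
  have key : (gal σ ρ) ^ p = (ρ * z) ^ p := by
    rw [← map_pow, hρ, hze, mul_pow, hρ]
  obtain ⟨ε, -, hε⟩ := eq_C_mul_of_pow_eq hp (mul_ne_zero hρ0 hz0) key
  have : gal σ ρ / ρ = HahnSeries.C ε * z := by
    rw [hε]
    field_simp
  rw [this]
  exact mul_mem (Desc_C_mem _ _) hz

end Fermat.Agent.LP.PL
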