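import Fermat.Agent.LP.PL.Form.Desc

/-!
# LP-PL-FORM, file `Desc2`: (P1) the descent `u2' = u2 y ^ p` (see the header of `Desc`)
-/

set_option autoImplicit false
set_option synthInstance.maxHeartbeats 400000

noncomputable section

namespace Fermat.Agent.LP.PL

open Fermat.Agent.GR ModularCurve IntermediateField

variable {p N : ℕ} {ζ : Qbar} {L : IntermediateField ℚ Qbar} {u1 u2 z1 : LaurentSeries Qbar}

/-- (P1), first half. -/
theorem exists_descent (h : PairData p N ζ L u1 u2) (hz : IsCoverRoot p N ζ L u1 z1) :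
    ∃ y r : LaurentSeries Qbar, y ∈ F1Q N z1 ∧ y ≠ 0 ∧ r.leadingCoeff = 1 ∧
      (∀ σ ∈ L.fixingSubgroup, gal σ r = r) ∧ r ^ p = u2 * y ^ p ∧
      ∀ σ ∈ L.fixingSubgroup, KummerEquiv N p u2 (gal σ u2) →
        ∃ f ∈ FF Qbar N, f ≠ 0 ∧ gal σ y = f * y := by
  have hp : 0 < p := h.prime.pos
  have hu2 : u2 ≠ 0 := h.kummer2.ne_zero
  obtain ⟨γ, ρ₀, M, hγ, hlc, hpow, hMfin, hcoeff⟩ := exists_rhoQ hp h.kummer2
  have hρ₀ : ρ₀ ≠ 0 := ne_zero_of_leadingCoeff hlc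
  have hCγ : (HahnSeries.C γ : LaurentSeries Qbar) ≠ 0 := by simpa using hγ
  have hρ : HahnSeries.C γ * ρ₀ ≠ 0 := mul_ne_zero hCγ hρ₀
  have ha : (γ ^ p)⁻¹ ≠ 0 := inv_ne_zero (pow_ne_zero _ hγ)
  have hpow₀ : ρ₀ ^ p = HahnSeries.C (γ ^ p)⁻¹ * u2 := by
    rw [← hpow, mul_pow, map_inv₀, map_pow]
    field_simp
  obtain ⟨O, hxO, hOrb, hOst⟩ := exists_orbit L hcoeff
  have hOne : O.Nonempty := ⟨ρ₀, hxO⟩
  have hO1 : ∀ y ∈ O, y.order = ρ₀.order ∧ y.leadingCoeff = 1 := by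
    intro y hy
    obtain ⟨σ, -, rfl⟩ := hOrb y hy
    exact ⟨order_gal σ ρ₀, by rw [leadingCoeff_gal, hlc, map_one]⟩
  obtain ⟨hSlc, hS0⟩ := leadingCoeff_sum hOne hO1
  have hcard : (O.card : Qbar) ≠ 0 := by
    exact_mod_cast (Finset.card_pos.mpr hOne).ne'
  set r : LaurentSeries Qbar := (∑ y ∈ O, y) * HahnSeries.C (O.card : Qbar)⁻¹ with hr
  have hrlc : r.leadingCoeff = 1 := by
    rw [hr, leadingCoeff_mul, leadingCoeff_C, hSlc, mul_inv_cancel₀ hcard]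
  have hr0 : r ≠ 0 := ne_zero_of_leadingCoeff hrlc
  have hrfix : ∀ σ ∈ L.fixingSubgroup, gal σ r = r := by
    intro σ hσ
    rw [hr, map_mul, gal_sum_eq (hOst σ hσ), gal_C, map_inv₀, map_natCast]
  have hCmem : ∀ c : Qbar, (HahnSeries.C c : LaurentSeries Qbar) ∈ F1Q N z1 :=
    fun c => FF_le_F1Q N z1 (C_mem_FF c)
  have hy₀ : r / ρ₀ ∈ F1Q N z1 := by
    have e : r / ρ₀ = (∑ y ∈ O, y / ρ₀) * HahnSeries.C (O.card : Qbar)⁻¹ := by
      rw [hr, ← Finset.sum_div]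
      ring
    rw [e]
    refine mul_mem (sum_mem fun y hy => ?_) (hCmem _)
    obtain ⟨σ, hσ, rfl⟩ := hOrb y hy
    exact gal_rho_div_mem h hz ha hpow₀ hσ
  refine ⟨r / (HahnSeries.C γ * ρ₀), r, ?_, div_ne_zero hr0 hρ, hrlc, hrfix, ?_, ?_⟩
  · have e : r / (HahnSeries.C γ * ρ₀) = r / ρ₀ / HahnSeries.C γ := by
      field_simp
    rw [e]
    exact div_mem hy₀ (hCmem γ)
  · rw [div_pow, hpow]
    field_simp
  · intro σ hσ hK
    have hf := gal_rho_div_mem_FF hp hpow hu2 hK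
    have hgρ : gal σ (HahnSeries.C γ * ρ₀) ≠ 0 := (map_ne_zero (gal σ)).mpr hρ
    refine ⟨(gal σ (HahnSeries.C γ * ρ₀) / (HahnSeries.C γ * ρ₀))⁻¹, inv_mem hf,
      inv_ne_zero (div_ne_zero hgρ hρ), ?_⟩
    rw [map_div₀, hrfix σ hσ]
    field_simp

end Fermat.Agent.LP.PL
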