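import Fermat.Agent.LP.PL.Form.Desc
import Fermat.Agent.LP.PL.Form.Deck2

/-!
# LP-PL-FORM, file `Eta`: (P1) the constant `η = θ ^ p`

`Y := ⟨y, _⟩ ∈ F(z1)`.  `x := g Y / Y`, `θ := lc(x)`, `hh := x / C θ`.
`x ^ p = g (u2 y ^ p) / (u2 y ^ p) = g (r ^ p) / r ^ p` (`g u2 = u2`) is fixed by `Gal(Q̄/L)` (`IsDeck.gal_comm`,
`r` fixed).  So `θ ^ p = lc(x ^ p)` is fixed (`leadingCoeff_gal`), `hh ^ p = x ^ p / C (θ ^ p)` is fixed and `hh` is
fixed (`gal_eq_of_pow`).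
If `σ` fixes the class of `u2`: `gal σ y = f * y`, `f ∈ F`, so
`gal σ x = g (gal σ Y) / gal σ Y = g (f Y) / (f Y) = x`; as `gal σ hh = hh ≠ 0`, `σ θ = θ`.
-/

set_option autoImplicit false
set_option synthInstance.maxHeartbeats 400000

noncomputable section

namespace Fermat.Agent.LP.PL

open Fermat.Agent.GR ModularCurve IntermediateField

variable {p N : ℕ} {ζ : Qbar} {L : IntermediateField ℚ Qbar} {u1 u2 z1 : LaurentSeries Qbar}
  {g : F1Q N z1 ≃ₐ[Qbar] F1Q N z1}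

theorem Eta_coe_algebraMap (θ : Qbar) :
    ((algebraMap Qbar (F1Q N z1) θ : F1Q N z1) : LaurentSeries Qbar) = HahnSeries.C θ := by
  rw [IntermediateField.coe_algebraMap_apply, algebraMap_laurentSeries_eq_single]
  rfl

/-- (P1), second half. -/
theorem exists_eta (h : PairData p N ζ L u1 u2) (hz : IsCoverRoot p N ζ L u1 z1)
    (hg : IsDeck N ζ z1 g) {r : LaurentSeries Qbar} (Y : F1Q N z1) (hY : Y ≠ 0)
    (hr : ∀ σ ∈ L.fixingSubgroup, gal σ r = r)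
    (hpow : r ^ p = u2 * (Y : LaurentSeries Qbar) ^ p)
    (hYσ : ∀ σ ∈ L.fixingSubgroup, KummerEquiv N p u2 (gal σ u2) →
        ∃ f ∈ FF Qbar N, f ≠ 0 ∧ gal σ (Y : LaurentSeries Qbar) = f * Y) :
    ∃ (θ : Qbar) (hh : F1Q N z1), θ ≠ 0 ∧ (hh : LaurentSeries Qbar).leadingCoeff = 1 ∧
      g Y = algebraMap Qbar (F1Q N z1) θ * hh * Y ∧
      (∀ σ ∈ L.fixingSubgroup, gal σ (hh : LaurentSeries Qbar) = hh) ∧
      (∀ σ ∈ L.fixingSubgroup, σ (θ ^ p) = θ ^ p) ∧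
      ∀ σ ∈ L.fixingSubgroup, KummerEquiv N p u2 (gal σ u2) → σ θ = θ := by
  have hp : 0 < p := h.prime.pos
  have hgY : g Y ≠ 0 := (map_ne_zero g).2 hY
  set x : F1Q N z1 := g Y / Y with hx
  have hx0 : x ≠ 0 := div_ne_zero hgY hY
  have hx0' : (x : LaurentSeries Qbar) ≠ 0 := fun h0 => hx0 (Subtype.ext h0)
  set θ : Qbar := (x : LaurentSeries Qbar).leadingCoeff with hθ
  have hθ0 : θ ≠ 0 := HahnSeries.leadingCoeff_ne_zero.2 hx0'
  have hθ0' : algebraMap Qbar (F1Q N z1) θ ≠ 0 := (map_ne_zero _).2 hθ0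
  set hh : F1Q N z1 := x / algebraMap Qbar (F1Q N z1) θ with hhh
  have hcoe : (hh : LaurentSeries Qbar) = (x : LaurentSeries Qbar) * (HahnSeries.C θ)⁻¹ := by
    rw [hhh, IntermediateField.coe_div, Eta_coe_algebraMap, div_eq_mul_inv]
  have hlc : (hh : LaurentSeries Qbar).leadingCoeff = 1 := by
    rw [hcoe, leadingCoeff_mul, leadingCoeff_inv, leadingCoeff_C, ← hθ, mul_inv_cancel₀ hθ0]
  -- `x ^ p` is fixed
  obtain ⟨hu20, hu2F, -⟩ := h.kummer2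
  let U2 : F1Q N z1 := ⟨u2, FF_le_F1Q N z1 hu2F⟩
  have hU20 : U2 ≠ 0 := fun h0 => hu20 (congrArg Subtype.val h0)
  have hgU2 : g U2 = U2 := hg.fixF U2 hu2F
  set Rp : F1Q N z1 := U2 * Y ^ p with hRp
  have hRp0 : Rp ≠ 0 := mul_ne_zero hU20 (pow_ne_zero p hY)
  have hRpcoe : (Rp : LaurentSeries Qbar) = r ^ p := by
    rw [hpow, hRp, IntermediateField.coe_mul, IntermediateField.coe_pow]
  have hxp : x ^ p = g Rp / Rp := by
    rw [hRp, map_mul, map_pow, hgU2, hx, div_pow, mul_div_mul_left _ _ hU20]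
  have hfixp : ∀ σ ∈ L.fixingSubgroup,
      gal σ ((x : LaurentSeries Qbar) ^ p) = (x : LaurentSeries Qbar) ^ p := by
    intro σ hσ
    have h1 : galF1 h.root hp hz σ hσ Rp = Rp := by
      apply Subtype.ext
      rw [coe_galF1, hRpcoe, map_pow, hr σ hσ]
    have h2 : galF1 h.root hp hz σ hσ (x ^ p) = x ^ p := by
      rw [hxp, map_div₀, ← hg.gal_comm h.toLineData hz σ hσ Rp, h1]
    have h3 := congrArg Subtype.val h2
    rw [coe_galF1, IntermediateField.coe_pow] at h3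
    exact h3
  have hθp : ∀ σ ∈ L.fixingSubgroup, σ (θ ^ p) = θ ^ p := by
    intro σ hσ
    rw [hθ, ← leadingCoeff_pow, ← leadingCoeff_gal, hfixp σ hσ]
  refine ⟨θ, hh, hθ0, hlc, ?_, ?_, hθp, ?_⟩
  · rw [hhh, mul_div_cancel₀ _ hθ0', hx, div_mul_cancel₀ _ hY]
  · intro σ hσ
    apply gal_eq_of_pow hp hlc
    rw [hcoe, mul_pow, map_mul, hfixp σ hσ, inv_pow, map_inv₀, ← map_pow, gal_C, hθp σ hσ]
  · intro σ hσ hK
    obtain ⟨f, hfF, hf0, hfY⟩ := hYσ σ hσ hK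
    let Ff : F1Q N z1 := ⟨f, FF_le_F1Q N z1 hfF⟩
    have hFf0 : Ff ≠ 0 := fun h0 => hf0 (congrArg Subtype.val h0)
    have h1 : galF1 h.root hp hz σ hσ Y = Ff * Y := by
      apply Subtype.ext
      rw [coe_galF1, hfY, IntermediateField.coe_mul]
    have h2 : galF1 h.root hp hz σ hσ x = x := by
      rw [hx, map_div₀, ← hg.gal_comm h.toLineData hz σ hσ Y, h1, map_mul, hg.fixF Ff hfF,
        mul_div_mul_left _ _ hFf0]
    have h3 := congrArg Subtype.val h2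
    rw [coe_galF1] at h3
    rw [hθ, ← leadingCoeff_gal, h3]

end Fermat.Agent.LP.PL
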