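import Fermat.Agent.LP.PL.Form.Cover

/-!
# LP-PL-FORM, file `F1Q`: the field `F(z1)`: basis `1, z1, …, z1 ^ (p-1)` over `F`, Galois action
-/

set_option autoImplicit false
set_option synthInstance.maxHeartbeats 400000

noncomputable section

namespace Fermat.Agent.LP.PL

open Fermat.Agent.GR ModularCurve IntermediateField

variable {p N : ℕ} {ζ : Qbar} {L : IntermediateField ℚ Qbar} {u1 z1 : LaurentSeries Qbar}

open Polynomial in
theorem F1Q_gen_mem {K E : Type*} [Field K] [Field E] [Algebra K E] (F : IntermediateField K E)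
    {p : ℕ} (hp : 0 < p) {z : E} (hz : z ^ p ∈ F) {x : E} :
    x ∈ F ⊔ K⟮z⟯ ↔ ∃ f : ℕ → E, (∀ i, f i ∈ F) ∧ x = ∑ i ∈ Finset.range p, f i * z ^ i := by
  constructor
  · intro hx
    have hmonic : (X ^ p - C (⟨z ^ p, hz⟩ : F) : F[X]).Monic := monic_X_pow_sub_C _ hp.ne'
    have hroot : aeval z (X ^ p - C (⟨z ^ p, hz⟩ : F) : F[X]) = 0 := by
      simp [IntermediateField.algebraMap_apply]
    have hint : IsIntegral F z := ⟨_, hmonic, hroot⟩
    rw [← IntermediateField.restrictScalars_adjoin_eq_sup, IntermediateField.mem_restrictScalars,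
      ← IntermediateField.mem_toSubalgebra,
      IntermediateField.adjoin_simple_toSubalgebra_of_isAlgebraic hint.isAlgebraic,
      Algebra.adjoin_singleton_eq_range_aeval] at hx
    obtain ⟨P, rfl⟩ := hx
    refine ⟨fun i => ((P %ₘ (X ^ p - C (⟨z ^ p, hz⟩ : F))).coeff i : E), fun i => SetLike.coe_mem _, ?_⟩
    have h1 : aeval z (P %ₘ (X ^ p - C (⟨z ^ p, hz⟩ : F))) = aeval z P :=
      aeval_modByMonic_eq_self_of_root hroot
    have h2 : (P %ₘ (X ^ p - C (⟨z ^ p, hz⟩ : F))).natDegree < p := by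
      have hne : (X ^ p - C (⟨z ^ p, hz⟩ : F) : F[X]) ≠ 1 := by
        intro h1
        have h2 := congrArg natDegree h1
        rw [natDegree_X_pow_sub_C, natDegree_one] at h2
        exact hp.ne' h2
      have := natDegree_modByMonic_lt P hmonic hne
      rwa [natDegree_X_pow_sub_C] at this
    show aeval z P = _
    rw [← h1, aeval_eq_sum_range' h2]
    refine Finset.sum_congr rfl fun i _ => ?_
    rw [Algebra.smul_def]
    rfl
  · rintro ⟨f, hf, rfl⟩
    refine sum_mem fun i _ => mul_mem ((le_sup_left : F ≤ F ⊔ K⟮z⟯) (hf i)) (pow_mem ?_ i)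
    exact (le_sup_right : K⟮z⟯ ≤ F ⊔ K⟮z⟯) (mem_adjoin_simple_self K z)

open Polynomial in
theorem F1Q_gen_indep {K E : Type*} [Field K] [Field E] [Algebra K E] (F : IntermediateField K E)
    {p : ℕ} (hp : p.Prime) {z : E} (hz : z ^ p ∈ F) (hnot : ∀ b ∈ F, b ^ p ≠ z ^ p)
    (f : ℕ → E) (hf : ∀ i, f i ∈ F) (h : ∑ i ∈ Finset.range p, f i * z ^ i = 0) :
    ∀ i, i < p → f i = 0 := by
  have hmonic : (X ^ p - C (⟨z ^ p, hz⟩ : F) : F[X]).Monic := monic_X_pow_sub_C _ hp.ne_zero
  have hroot : aeval z (X ^ p - C (⟨z ^ p, hz⟩ : F) : F[X]) = 0 := by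
    simp [IntermediateField.algebraMap_apply]
  have hirr : Irreducible (X ^ p - C (⟨z ^ p, hz⟩ : F) : F[X]) := by
    apply X_pow_sub_C_irreducible_of_prime hp
    intro b hb
    exact hnot b b.2 (congrArg Subtype.val hb)
  have hmin : (X ^ p - C (⟨z ^ p, hz⟩ : F) : F[X]) = minpoly F z :=
    minpoly.eq_of_irreducible_of_monic hirr hroot hmonic
  set P : F[X] := ∑ i ∈ Finset.range p, C (⟨f i, hf i⟩ : F) * X ^ i with hP
  have hPz : aeval z P = 0 := by
    rw [hP, map_sum, ← h]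
    refine Finset.sum_congr rfl fun i _ => ?_
    simp [IntermediateField.algebraMap_apply]
  have hdeg : P.degree < p := by
    rw [hP]
    refine lt_of_le_of_lt (degree_sum_le _ _) ?_
    rw [Finset.sup_lt_iff (by exact_mod_cast WithBot.bot_lt_coe p)]
    intro i hi
    exact lt_of_le_of_lt (degree_C_mul_X_pow_le i _) (by exact_mod_cast Finset.mem_range.mp hi)
  have hP0 : P = 0 := by
    by_contra hne
    have h1 := minpoly.degree_le_of_ne_zero F z hne hPz
    rw [← hmin, degree_X_pow_sub_C hp.pos] at h1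
    exact absurd hdeg (not_lt.mpr h1)
  intro i hi
  have h2 : P.coeff i = 0 := by rw [hP0, coeff_zero]
  rw [hP, finsetSum_coeff] at h2
  simp only [coeff_C_mul_X_pow] at h2
  rw [Finset.sum_ite_eq, if_pos (Finset.mem_range.mpr hi)] at h2
  exact congrArg Subtype.val h2

/-- `F(z1) = ∑_{i<p} F z1 ^ i`.  (`⊇` clear.  `⊆`: the right hand side `S` is a subring containing `F`
and `z1` (`z1 ^ p ∈ F`), it is a finite dimensional `F`-vector space and a domain, hence a field; or:
`z1` is algebraic over `F`, `IntermediateField.adjoin_simple_toSubalgebra_of_integral` /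
`Algebra.adjoin_singleton_eq_range_aeval` + division with remainder by `X ^ p - C (z1 ^ p)`.) -/
theorem mem_F1Q_iff (hp : 0 < p) (hz : z1 ^ p ∈ FF Qbar N) {x : LaurentSeries Qbar} :
    x ∈ F1Q N z1 ↔ ∃ f : ℕ → LaurentSeries Qbar, (∀ i, f i ∈ FF Qbar N) ∧
      x = ∑ i ∈ Finset.range p, f i * z1 ^ i := by
  exact F1Q_gen_mem (FF Qbar N) hp hz

/-- `X ^ p - C (z1 ^ p)` is irreducible over `F` (`X_pow_sub_C_irreducible_of_prime`), so it is the
minimal polynomial of `z1`. -/
theorem F1Q_indep (hp : p.Prime) (hz : z1 ^ p ∈ FF Qbar N)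
    (hnot : ∀ b ∈ FF Qbar N, b ^ p ≠ z1 ^ p) (f : ℕ → LaurentSeries Qbar)
    (hf : ∀ i, f i ∈ FF Qbar N) (h : ∑ i ∈ Finset.range p, f i * z1 ^ i = 0) :
    ∀ i, i < p → f i = 0 := by
  exact F1Q_gen_indep (FF Qbar N) hp hz hnot f hf h

end Fermat.Agent.LP.PL
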