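import Fermat.Agent.LP.PL.Form.F1Q

/-!
# LP-PL-FORM, file `F1Q2`: induction principle, Galois action on `F(z1)`
-/

set_option autoImplicit false
set_option synthInstance.maxHeartbeats 400000

noncomputable section

namespace Fermat.Agent.LP.PL

open Fermat.Agent.GR ModularCurve IntermediateField

variable {p N : ℕ} {ζ : Qbar} {L : IntermediateField ℚ Qbar} {u1 z1 : LaurentSeries Qbar}

/-- induction principle: a subfield-like predicate which holds on `F` and at `z1` holds on `F(z1)`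
(`IntermediateField.adjoin_induction` after `F1Q = adjoin Q̄ (F ∪ {z1})`, or `sup` of subfields). -/
theorem F1Q_induction {P : LaurentSeries Qbar → Prop} (hF : ∀ x ∈ FF Qbar N, P x) (hz : P z1)
    (hadd : ∀ x y, P x → P y → P (x + y)) (hmul : ∀ x y, P x → P y → P (x * y))
    (hinv : ∀ x, P x → P x⁻¹) {x : LaurentSeries Qbar} (hx : x ∈ F1Q N z1) : P x := by
  let K' : IntermediateField Qbar (LaurentSeries Qbar) :=
    { carrier := {x | P x}
      mul_mem' := fun {a b} ha hb => hmul a b ha hb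
      one_mem' := hF 1 (one_mem _)
      add_mem' := fun {a b} ha hb => hadd a b ha hb
      zero_mem' := hF 0 (zero_mem _)
      algebraMap_mem' := fun r => hF _ ((FF Qbar N).algebraMap_mem r)
      inv_mem' := fun a ha => hinv a ha }
  have h1 : FF Qbar N ≤ K' := fun y hy => hF y hy
  have h2 : Qbar⟮z1⟯ ≤ K' := by
    rw [IntermediateField.adjoin_simple_le_iff]
    exact hz
  exact (sup_le h1 h2 : F1Q N z1 ≤ K') hx

/-- `Gal(Q̄/L)` preserves `F(z1)` (`F1Q_induction`, `GR.C.coeffMap_mem_FF`, `IsCoverRoot.act`). -/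
theorem gal_mem_F1Q (hζ : IsPrimitiveRoot ζ p) (hp : 0 < p) (hz : IsCoverRoot p N ζ L u1 z1)
    {σ : Qbar ≃ₐ[ℚ] Qbar} (hσ : σ ∈ L.fixingSubgroup) {x : LaurentSeries Qbar}
    (hx : x ∈ F1Q N z1) : gal σ x ∈ F1Q N z1 := by
  refine F1Q_induction (N := N) (z1 := z1) (P := fun x => gal σ x ∈ F1Q N z1)
    (fun y hy => FF_le_F1Q N z1 (GR.C.coeffMap_mem_FF N _ hy)) ?_
    (fun a b ha hb => by rw [map_add]; exact add_mem ha hb)
    (fun a b ha hb => by rw [map_mul]; exact mul_mem ha hb)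
    (fun a ha => by rw [map_inv₀]; exact inv_mem ha) hx
  obtain ⟨c, hc⟩ := exists_pow_of_root hζ hp σ
  obtain ⟨y, hy, -, he⟩ := hz.act σ hσ c hc
  show gal σ z1 ∈ F1Q N z1
  rw [he]
  exact mul_mem (pow_mem (z1_mem_F1Q N z1) c) (FF_le_F1Q N z1 hy)

/-- the action of `σ ∈ Gal(Q̄/L)` on `F(z1)`. -/
def galF1 (hζ : IsPrimitiveRoot ζ p) (hp : 0 < p) (hz : IsCoverRoot p N ζ L u1 z1)
    (σ : Qbar ≃ₐ[ℚ] Qbar) (hσ : σ ∈ L.fixingSubgroup) : F1Q N z1 →+* F1Q N z1 :=
  ((gal σ).comp (F1Q N z1).toSubfield.subtype).codRestrict (F1Q N z1).toSubfield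
    (fun x => gal_mem_F1Q hζ hp hz hσ x.2)

@[simp] theorem coe_galF1 (hζ : IsPrimitiveRoot ζ p) (hp : 0 < p)
    (hz : IsCoverRoot p N ζ L u1 z1) (σ : Qbar ≃ₐ[ℚ] Qbar) (hσ : σ ∈ L.fixingSubgroup)
    (x : F1Q N z1) : ((galF1 hζ hp hz σ hσ x : F1Q N z1) : LaurentSeries Qbar) =
      gal σ (x : LaurentSeries Qbar) := rfl

end Fermat.Agent.LP.PL
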