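import Fermat.Agent.LP.PL.Form.Root2
import Fermat.Agent.GT.Base

/-!
# LP-PL-FORM, file `Field`: from the inertia group to `Gal(Q̄/L)`, `L` a number field inside the
inertia field
-/

set_option autoImplicit false
set_option synthInstance.maxHeartbeats 400000

noncomputable section

namespace Fermat.Agent.LP.PL

open Fermat.Agent.GR ModularCurve IntermediateField

/-- Galois theory of the finite normal extension `M / ℚ`: the image `I'` of the inertia group in
`Gal(M/ℚ)` (`AlgEquiv.restrictNormalHom M`) is a subgroup, its fixed field is `M ⊓ inertField A`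
(viewed in `M`), so `Gal(M / M ⊓ inertField A) = I'` (`IntermediateField.fixingSubgroup_fixedField`). -/
theorem exists_inertia_eq (A : ValuationSubring Qbar) (M : IntermediateField ℚ Qbar)
    [FiniteDimensional ℚ M] [Normal ℚ M] (σ : Qbar ≃ₐ[ℚ] Qbar)
    (hσ : σ ∈ (M ⊓ GT.inertField A).fixingSubgroup) :
    ∃ τ ∈ A.inertiaSubgroupIn ℚ, ∀ x ∈ M, σ x = τ x := by
  classical
  have : IsGalois ℚ M := ⟨⟩
  set I' : Subgroup (M ≃ₐ[ℚ] M) :=
    (A.inertiaSubgroupIn ℚ).map (AlgEquiv.restrictNormalHom M) with hI'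
  have h1 : AlgEquiv.restrictNormalHom M σ ∈ (IntermediateField.fixedField I').fixingSubgroup := by
    rw [IntermediateField.mem_fixingSubgroup_iff]
    intro x hx
    have hx' : (x : Qbar) ∈ M ⊓ GT.inertField A := by
      refine IntermediateField.mem_inf.2 ⟨x.2, GT.mem_inertField.2 fun τ hτ => ?_⟩
      have h2 : τ.restrictNormal M x = x :=
        (IntermediateField.mem_fixedField_iff I' x).1 hx _ (Subgroup.mem_map_of_mem _ hτ)
      have h3 := AlgEquiv.restrictNormal_commutes τ M x
      rw [h2] at h3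
      exact h3.symm
    have h4 : σ (x : Qbar) = x := (IntermediateField.mem_fixingSubgroup_iff _ σ).1 hσ _ hx'
    apply Subtype.ext
    have h3 := AlgEquiv.restrictNormal_commutes σ M x
    exact h3.trans h4
  rw [IntermediateField.fixingSubgroup_fixedField] at h1
  obtain ⟨τ, hτ, hτσ⟩ := h1
  refine ⟨τ, hτ, fun x hx => ?_⟩
  have h5 := AlgEquiv.restrictNormal_commutes σ M ⟨x, hx⟩
  have h6 := AlgEquiv.restrictNormal_commutes τ M ⟨x, hx⟩
  have h7 : τ.restrictNormal M = σ.restrictNormal M := hτσ
  rw [h7] at h6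
  exact h5.symm.trans h6

end Fermat.Agent.LP.PL
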