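import Fermat.Agent.LP.PL.Form.Field

/-!
# LP-PL-FORM, file `Field2`: the base field `L₀`
-/

set_option autoImplicit false
set_option synthInstance.maxHeartbeats 400000

noncomputable section

namespace Fermat.Agent.LP.PL

open Fermat.Agent.GR ModularCurve IntermediateField

theorem Field2_exists_field {N : ℕ} (S : Finset (LaurentSeries Qbar))
    (hS : ∀ u ∈ S, u ∈ FF Qbar N) (T : Finset Qbar) :
    ∃ L : IntermediateField ℚ Qbar, FiniteDimensional ℚ L ∧
      (∀ u ∈ S, ∀ k : ℤ, u.coeff k ∈ L) ∧ ∀ a ∈ T, a ∈ L := by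
  classical
  induction S using Finset.induction_on with
  | empty =>
    refine ⟨IntermediateField.adjoin ℚ (T : Set Qbar), ?_, by simp, fun a ha => ?_⟩
    · have halg : Algebra.IsAlgebraic ℚ Qbar := AlgebraicClosure.isAlgebraic ℚ
      exact IntermediateField.finiteDimensional_adjoin
        (fun x _ => (halg.isAlgebraic x).isIntegral)
    · exact IntermediateField.subset_adjoin ℚ _ ha
  | insert u S _ ih =>
    obtain ⟨L, hL, h1, h2⟩ := ih (fun v hv => hS v (Finset.mem_insert_of_mem hv))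
    obtain ⟨L₀, hL₀, h3, -⟩ := GR.C.exists_coeffField (hS u (Finset.mem_insert_self _ _))
    refine ⟨L ⊔ L₀, IntermediateField.finiteDimensional_sup L L₀, ?_, fun a ha => ?_⟩
    · intro v hv k
      rcases Finset.mem_insert.1 hv with rfl | hv
      · exact (le_sup_right : L₀ ≤ L ⊔ L₀) (h3 k)
      · exact (le_sup_left : L ≤ L ⊔ L₀) (h1 v hv k)
    · exact (le_sup_left : L ≤ L ⊔ L₀) (h2 a ha)

/-- a finite normal extension containing the coefficients of finitely many functions and a finite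
set of constants (`GR.C.exists_coeffField`, `IntermediateField.normalClosure`,
`normalClosure.is_finiteDimensional`, compare `GT.finiteDimensional_hull`). -/
theorem exists_normal_field {N : ℕ} (S : Finset (LaurentSeries Qbar))
    (hS : ∀ u ∈ S, u ∈ FF Qbar N) (T : Finset Qbar) :
    ∃ M : IntermediateField ℚ Qbar, FiniteDimensional ℚ M ∧ Normal ℚ M ∧
      (∀ u ∈ S, ∀ k : ℤ, u.coeff k ∈ M) ∧ ∀ a ∈ T, a ∈ M := by
  obtain ⟨L, hL, h1, h2⟩ := Field2_exists_field S hS T
  have hQ : Normal ℚ Qbar := GT.base_normal_Qb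
  have hle : L ≤ IntermediateField.normalClosure ℚ L Qbar := IntermediateField.le_normalClosure L
  exact ⟨IntermediateField.normalClosure ℚ L Qbar, normalClosure.is_finiteDimensional ℚ L Qbar,
    normalClosure.normal ℚ L Qbar, fun u hu k => hle (h1 u hu k), fun a ha => hle (h2 a ha)⟩

/-- THE BASE FIELD.  `M` from `exists_normal_field` for `{u1, u2}`, `{ζ}`; `L₀ := M ⊓ inertField A`;
`σ ∈ L.fixingSubgroup ≤ L₀.fixingSubgroup` agrees on `M` with some `τ` in the inertia group, so
`gal σ u_i = gal τ u_i` (`gal_eq_of_coeff_mem`) and `σ ζ = τ ζ`. -/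
theorem exists_field {p N : ℕ} (A : ValuationSubring Qbar) {ζ : Qbar}
    {u1 u2 : LaurentSeries Qbar} (hp : p.Prime) (hζ : IsPrimitiveRoot ζ p)
    (h1 : IsKummer (N := N) p u1) (h1' : ¬ KummerEquiv N p 1 u1) (h2 : IsKummer (N := N) p u2)
    (hI1 : ∀ σ ∈ A.inertiaSubgroupIn ℚ, ∀ c : ℕ, σ ζ = ζ ^ c →
      KummerEquiv N p (u1 ^ c) (gal σ u1))
    (hI2 : ∀ σ ∈ A.inertiaSubgroupIn ℚ, ∃ b : ℕ, KummerEquiv N p (u2 * u1 ^ b) (gal σ u2)) :
    ∃ L₀ : IntermediateField ℚ Qbar, FiniteDimensional ℚ L₀ ∧ GT.InertFixed A L₀ ∧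
      ∀ L : IntermediateField ℚ Qbar, L₀ ≤ L → PairData p N ζ L u1 u2 := by
  classical
  obtain ⟨M, hM, hMn, hc, hT⟩ := exists_normal_field (N := N) {u1, u2} (by
    intro u hu
    rcases Finset.mem_insert.1 hu with rfl | hu
    · exact h1.2.1
    · rw [Finset.mem_singleton] at hu
      rw [hu]
      exact h2.2.1) {ζ}
  have hu1 : ∀ k, u1.coeff k ∈ M := hc u1 (by simp)
  have hu2 : ∀ k, u2.coeff k ∈ M := hc u2 (by simp)
  have hζM : ζ ∈ M := hT ζ (by simp)
  refine ⟨M ⊓ GT.inertField A, ?_, GT.inertFixed_iff.2 inf_le_right, fun L hL => ?_⟩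
  · have hle : M ⊓ GT.inertField A ≤ M := inf_le_left
    exact FiniteDimensional.of_injective (IntermediateField.inclusion hle).toLinearMap
      (IntermediateField.inclusion hle).injective
  · have key : ∀ σ ∈ L.fixingSubgroup, ∃ τ ∈ A.inertiaSubgroupIn ℚ, ∀ x ∈ M, σ x = τ x := by
      intro σ hσ
      refine exists_inertia_eq A M σ ?_
      rw [IntermediateField.mem_fixingSubgroup_iff] at hσ ⊢
      exact fun x hx => hσ x (hL hx)
    refine { prime := hp, root := hζ, kummer := h1, nontriv := h1', act := ?_, kummer2 := h2,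
             act2 := ?_ }
    · intro σ hσ c hc'
      obtain ⟨τ, hτ, he⟩ := key σ hσ
      rw [gal_eq_of_coeff_mem hu1 he]
      exact hI1 τ hτ c (by rw [← he ζ hζM, hc'])
    · intro σ hσ
      obtain ⟨τ, hτ, he⟩ := key σ hσ
      rw [gal_eq_of_coeff_mem hu2 he]
      exact hI2 τ hτ

end Fermat.Agent.LP.PL
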