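import Fermat.Agent.LP.PL.Form.OverL
import Fermat.Agent.LP.PL.Form.Deck2

/-!
# LP-PL-FORM, file `OverL2`: the deck transformation over `L`
-/

set_option autoImplicit false
set_option synthInstance.maxHeartbeats 400000

noncomputable section

namespace Fermat.Agent.LP.PL

open Fermat.Agent.GR ModularCurve IntermediateField

variable {p N : ℕ} {ζ : Qbar} {L : IntermediateField ℚ Qbar} {u1 z1 : LaurentSeries Qbar}
  {g : F1Q N z1 ≃ₐ[Qbar] F1Q N z1}

theorem OverL2_galF1_toQ (h : LineData p N ζ L u1) (hz : IsCoverRoot p N ζ L u1 z1)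
    (σ : Qbar ≃ₐ[ℚ] Qbar) (hσ : σ ∈ L.fixingSubgroup) (x : F1 L N z1) :
    galF1 h.root h.prime.pos hz σ hσ (toQ L N z1 x) = toQ L N z1 x := by
  apply Subtype.ext
  rw [coe_galF1, coe_toQ]
  exact gal_coeffMap _ hσ

theorem OverL2_fixed (h : LineData p N ζ L u1) (hz : IsCoverRoot p N ζ L u1 z1)
    (hg : IsDeck N ζ z1 g) (x : F1 L N z1) (σ : Qbar ≃ₐ[ℚ] Qbar) (hσ : σ ∈ L.fixingSubgroup) :
    gal σ ((g (toQ L N z1 x) : F1Q N z1) : LaurentSeries Qbar) =
      ((g (toQ L N z1 x) : F1Q N z1) : LaurentSeries Qbar) := by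
  have h1 := hg.gal_comm h hz σ hσ (toQ L N z1 x)
  rw [OverL2_galF1_toQ h hz σ hσ x] at h1
  have h2 := congrArg (fun y : F1Q N z1 => (y : LaurentSeries Qbar)) h1
  simp only [coe_galF1] at h2
  exact h2.symm

theorem OverL2_fixed_symm (h : LineData p N ζ L u1) (hz : IsCoverRoot p N ζ L u1 z1)
    (hg : IsDeck N ζ z1 g) (x : F1 L N z1) (σ : Qbar ≃ₐ[ℚ] Qbar) (hσ : σ ∈ L.fixingSubgroup) :
    gal σ ((g.symm (toQ L N z1 x) : F1Q N z1) : LaurentSeries Qbar) =
      ((g.symm (toQ L N z1 x) : F1Q N z1) : LaurentSeries Qbar) := by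
  have h1 := hg.gal_comm h hz σ hσ (g.symm (toQ L N z1 x))
  rw [AlgEquiv.apply_symm_apply, OverL2_galF1_toQ h hz σ hσ x] at h1
  have h3 : galF1 h.root h.prime.pos hz σ hσ (g.symm (toQ L N z1 x)) = g.symm (toQ L N z1 x) := by
    apply g.injective
    rw [h1, AlgEquiv.apply_symm_apply]
  have h2 := congrArg (fun y : F1Q N z1 => (y : LaurentSeries Qbar)) h3
  simp only [coe_galF1] at h2
  exact h2

/-- THE DECK TRANSFORMATION OVER `L`.  For `x : F1 L N z1`, `g (toQ x)` is fixed by `Gal(Q̄/L)`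
(`IsDeck.gal_comm`, `gal_coeffMap`), so it is `toQ` of a unique element (`exists_toQ_eq`,
`toQ_injective`); same for `g.symm` (`g.symm = g ^ (p-1)`, or: `g.symm` commutes with `Gal(Q̄/L)` too). -/
theorem exists_deckL (h : LineData p N ζ L u1) (hz : IsCoverRoot p N ζ L u1 z1)
    (hg : IsDeck N ζ z1 g) :
    ∃ gL : F1 L N z1 ≃ₐ[L] F1 L N z1, ∀ x, toQ L N z1 (gL x) = g (toQ L N z1 x) := by
  have hinj := toQ_injective L N z1
  have e1 : ∀ x : F1 L N z1, ∃ y : F1 L N z1, toQ L N z1 y = g (toQ L N z1 x) := fun x =>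
    exists_toQ_eq _ (fun σ hσ => OverL2_fixed h hz hg x σ hσ)
  have e2 : ∀ x : F1 L N z1, ∃ y : F1 L N z1, toQ L N z1 y = g.symm (toQ L N z1 x) := fun x =>
    exists_toQ_eq _ (fun σ hσ => OverL2_fixed_symm h hz hg x σ hσ)
  choose f hf using e1
  choose f' hf' using e2
  refine ⟨{ toFun := f, invFun := f', left_inv := ?_, right_inv := ?_, map_mul' := ?_,
            map_add' := ?_, commutes' := ?_ }, hf⟩
  · intro x
    apply hinj
    rw [hf', hf, AlgEquiv.symm_apply_apply]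
  · intro x
    apply hinj
    rw [hf, hf', AlgEquiv.apply_symm_apply]
  · intro x y
    apply hinj
    rw [hf, map_mul, map_mul, map_mul, hf, hf]
  · intro x y
    apply hinj
    rw [hf, map_add, map_add, map_add, hf, hf]
  · intro a
    apply hinj
    rw [hf, toQ_algebraMap, AlgEquiv.commutes]

theorem deckL_iterate (hζ : IsPrimitiveRoot ζ p) (hg : IsDeck N ζ z1 g)
    {gL : F1 L N z1 ≃ₐ[L] F1 L N z1} (hgL : ∀ x, toQ L N z1 (gL x) = g (toQ L N z1 x))
    (x : F1 L N z1) : (⇑gL)^[p] x = x := by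
  have key : ∀ k : ℕ, toQ L N z1 ((⇑gL)^[k] x) = (⇑g)^[k] (toQ L N z1 x) := by
    intro k
    induction k with
    | zero => rfl
    | succ k ih => rw [Function.iterate_succ_apply', Function.iterate_succ_apply', hgL, ih]
  apply toQ_injective L N z1
  rw [key, hg.iterate_p hζ]

/-- the fixed field of `gL` is `FF L N`. -/
theorem deckL_fixed_iff (h : LineData p N ζ L u1) (hz : IsCoverRoot p N ζ L u1 z1)
    (hg : IsDeck N ζ z1 g) {gL : F1 L N z1 ≃ₐ[L] F1 L N z1}
    (hgL : ∀ x, toQ L N z1 (gL x) = g (toQ L N z1 x)) (x : F1 L N z1) :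
    gL x = x ↔ (x : LaurentSeries L) ∈ FF L N := by
  rw [← toQ_mem_FF_iff, ← hg.fixed_iff h hz, ← hgL]
  exact ((toQ_injective L N z1).eq_iff).symm

end Fermat.Agent.LP.PL
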