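import Fermat.Agent.LP.PL.Form.Main

/-!
# LP-PL-FORM, file `MainRoot`: (P0) + (P1) for a given root `z1`; the order of the choices

`z1` is chosen over the field `L₀` of `exists_field` and stays a cover root over every `L ≥ L₀`.
-/

set_option autoImplicit false
set_option synthInstance.maxHeartbeats 400000

noncomputable section

namespace Fermat.Agent.LP.PL

open Fermat.Agent.GR ModularCurve IntermediateField

/-- (P0) + (P1) with a given normalised root `z1`. -/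
theorem form_main_of_root {p N : ℕ} [NeZero N] {ζ : Qbar} {L : IntermediateField ℚ Qbar}
    {u1 u2 z1 : LaurentSeries Qbar} (h : PairData p N ζ L u1 u2)
    (hz : IsCoverRoot p N ζ L u1 z1) :
    ∃ (g : F1Q N z1 ≃ₐ[Qbar] F1Q N z1)
      (gL : F1 L N z1 ≃ₐ[L] F1 L N z1) (Y : F1Q N z1) (U H : F1 L N z1) (η : L) (θ : Qbar),
      FormOut p N ζ L u1 u2 z1 g gL Y U H η θ := by
  have hp := h.prime.pos
  obtain ⟨g, hg⟩ := exists_deck h.toLineData hz
  obtain ⟨gL, hgL⟩ := exists_deckL h.toLineData hz hg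
  obtain ⟨y, r, hy, hy0, hr1, hr, hpow, hyσ⟩ := exists_descent h hz
  set Y : F1Q N z1 := ⟨y, hy⟩ with hYdef
  have hY0 : Y ≠ 0 := fun h0 => hy0 (congrArg Subtype.val h0)
  obtain ⟨θ, hh, hθ0, hh1, hgY, hhσ, hθσ, hθfix⟩ := exists_eta h hz hg Y hY0 hr hpow hyσ
  have hu2F : u2 ∈ F1Q N z1 := FF_le_F1Q N z1 h.kummer2.mem
  -- `u2'` over `Q̄`
  set UQ : F1Q N z1 := ⟨u2, hu2F⟩ * Y ^ p with hUQ
  have hUQr : (UQ : LaurentSeries Qbar) = r ^ p := hpow.symm
  obtain ⟨U, hU⟩ := exists_toQ_eq (L := L) UQ (by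
    intro σ hσ
    rw [hUQr, map_pow, hr σ hσ])
  obtain ⟨H, hH⟩ := exists_toQ_eq (L := L) hh hhσ
  obtain ⟨η, hη⟩ := exists_algebraMap_eq_of_fixed (L := L) hθσ
  have hinj := toQ_injective L N z1
  have hUQ0 : UQ ≠ 0 := by
    refine mul_ne_zero (fun h0 => h.kummer2.ne_zero (congrArg Subtype.val h0)) (pow_ne_zero p hY0)
  have hh0 : hh ≠ 0 := by
    intro h0
    rw [h0] at hh1
    simp at hh1
  refine ⟨g, gL, Y, U, H, η, θ, ?_⟩
  refine
    { root := hz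
      deck := hg
      deckL := hgL
      iterate := deckL_iterate h.root hg hgL
      fixed := deckL_fixed_iff h.toLineData hz hg hgL
      Y_ne := hY0
      U_ne := ?_
      H_ne := ?_
      η_ne := ?_
      U_eq := ?_
      deck_U := ?_
      θ_pow := hη.symm
      θ_fix := hθfix }
  · rintro rfl
    rw [map_zero] at hU
    exact hUQ0 hU.symm
  · rintro rfl
    rw [map_zero] at hH
    exact hh0 hH.symm
  · rintro rfl
    rw [map_zero] at hη
    exact pow_ne_zero p hθ0 hη.symm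
  · rw [hU]
    rfl
  · apply hinj
    rw [hgL, map_mul, map_mul, map_pow, hU, hH, toQ_algebraMap, hη, hUQ, map_mul, map_pow, hgY,
      hg.fixF ⟨u2, hu2F⟩ h.kummer2.mem, map_pow]
    ring

/-- The order of the choices: first `L₀` and `z1`, then any `L ≥ L₀`. -/
theorem form_main_inertia_root {p N : ℕ} [NeZero N] (A : ValuationSubring Qbar) {ζ : Qbar}
    {u1 u2 : LaurentSeries Qbar} (hp : p.Prime) (hζ : IsPrimitiveRoot ζ p)
    (h1 : IsKummer (N := N) p u1) (h1' : ¬ KummerEquiv N p 1 u1) (h2 : IsKummer (N := N) p u2)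
    (hI1 : ∀ σ ∈ A.inertiaSubgroupIn ℚ, ∀ c : ℕ, σ ζ = ζ ^ c →
      KummerEquiv N p (u1 ^ c) (gal σ u1))
    (hI2 : ∀ σ ∈ A.inertiaSubgroupIn ℚ, ∃ b : ℕ, KummerEquiv N p (u2 * u1 ^ b) (gal σ u2)) :
    ∃ (L₀ : IntermediateField ℚ Qbar) (z1 : LaurentSeries Qbar), FiniteDimensional ℚ L₀ ∧
      GT.InertFixed A L₀ ∧ IsCoverRoot p N ζ L₀ u1 z1 ∧
      ∀ L : IntermediateField ℚ Qbar, L₀ ≤ L → PairData p N ζ L u1 u2 ∧
        IsCoverRoot p N ζ L u1 z1 ∧
        ∃ (g : F1Q N z1 ≃ₐ[Qbar] F1Q N z1)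
          (gL : F1 L N z1 ≃ₐ[L] F1 L N z1) (Y : F1Q N z1) (U H : F1 L N z1) (η : L) (θ : Qbar),
          FormOut p N ζ L u1 u2 z1 g gL Y U H η θ := by
  obtain ⟨L₀, hfin, hin, hL₀⟩ := exists_field A hp hζ h1 h1' h2 hI1 hI2
  obtain ⟨z1, hz⟩ := exists_coverRoot (hL₀ L₀ le_rfl).toLineData
  exact ⟨L₀, z1, hfin, hin, hz, fun L hL =>
    ⟨hL₀ L hL, hz.mono hL, form_main_of_root (hL₀ L hL) (hz.mono hL)⟩⟩

end Fermat.Agent.LP.PL
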