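import Fermat.Agent.LP.PL.Form.F1Q2

/-!
# LP-PL-FORM, file `OverL`: (P0) the form `F1 L N z1 = F(z1) ∩ L((q))` of the cover over `L`
-/

set_option autoImplicit false
set_option synthInstance.maxHeartbeats 400000

noncomputable section

namespace Fermat.Agent.LP.PL

open Fermat.Agent.GR ModularCurve IntermediateField

variable {p N : ℕ} {ζ : Qbar} {L : IntermediateField ℚ Qbar} {u1 z1 : LaurentSeries Qbar}
  {g : F1Q N z1 ≃ₐ[Qbar] F1Q N z1}

/-- `GR.C.coeffMap_mem_FF`. -/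
theorem FF_le_F1 (L : IntermediateField ℚ Qbar) (N : ℕ) (z1 : LaurentSeries Qbar) :
    FF L N ≤ F1 L N z1 := by
  intro x hx
  rw [mem_F1_iff]
  exact FF_le_F1Q N z1 (C.coeffMap_mem_FF N _ hx)

theorem toQ_injective (L : IntermediateField ℚ Qbar) (N : ℕ) (z1 : LaurentSeries Qbar) :
    Function.Injective (toQ L N z1) := by
  exact (toQ L N z1).injective

/-- `toQ x ∈ F ↔ x ∈ FF L N`  (`GR.C.mem_FF_of_coeffMap_mem`, `GR.C.coeffMap_mem_FF`). -/
theorem toQ_mem_FF_iff (x : F1 L N z1) :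
    ((toQ L N z1 x : F1Q N z1) : LaurentSeries Qbar) ∈ FF Qbar N ↔
      (x : LaurentSeries L) ∈ FF L N := by
  rw [coe_toQ]
  exact ⟨C.mem_FF_of_coeffMap_mem, C.coeffMap_mem_FF N _⟩

theorem toQ_algebraMap (a : L) :
    toQ L N z1 (algebraMap L (F1 L N z1) a) = algebraMap Qbar (F1Q N z1) (algebraMap L Qbar a) := by
  apply Subtype.ext
  rw [coe_toQ]
  show coeffMap (algebraMap L Qbar) (algebraMap L (LaurentSeries L) a) =
    algebraMap Qbar (LaurentSeries Qbar) (algebraMap L Qbar a)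
  rw [algebraMap_laurentSeries_eq_single, coeffMap_single, ← algebraMap_laurentSeries_eq_single]

/-- series coming from `L` are fixed by `Gal(Q̄/L)`. -/
theorem gal_coeffMap (x : LaurentSeries L) {σ : Qbar ≃ₐ[ℚ] Qbar} (hσ : σ ∈ L.fixingSubgroup) :
    gal σ (coeffMap (algebraMap L Qbar) x) = coeffMap (algebraMap L Qbar) x := by
  ext n
  rw [gal_coeff, coeffMap_coeff]
  exact (IntermediateField.mem_fixingSubgroup_iff L σ).1 hσ _ (x.coeff n).2

/-- a series fixed by `Gal(Q̄/L)` comes from `L`  (`GT.Brg.exists_coeffMap_of_fixed`; an element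
`σ : Q̄ ≃ₐ[L] Q̄` gives `σ.restrictScalars ℚ ∈ L.fixingSubgroup`). -/
theorem exists_coeffMap_eq_of_fixed {x : LaurentSeries Qbar}
    (hx : ∀ σ ∈ L.fixingSubgroup, gal σ x = x) :
    ∃ x₀ : LaurentSeries L, coeffMap (algebraMap L Qbar) x₀ = x := by
  apply GT.Brg.exists_coeffMap_of_fixed L x
  intro σ
  have h1 : σ.restrictScalars ℚ ∈ L.fixingSubgroup := by
    rw [IntermediateField.mem_fixingSubgroup_iff]
    intro y hy
    exact σ.commutes ⟨y, hy⟩
  exact hx _ h1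

theorem exists_toQ_eq (x : F1Q N z1)
    (hx : ∀ σ ∈ L.fixingSubgroup, gal σ (x : LaurentSeries Qbar) = x) :
    ∃ x₀ : F1 L N z1, toQ L N z1 x₀ = x := by
  obtain ⟨x₀, h⟩ := exists_coeffMap_eq_of_fixed hx
  exact ⟨⟨x₀, mem_F1_iff.2 (h ▸ x.2)⟩, Subtype.ext h⟩

/-- a constant fixed by `Gal(Q̄/L)` lies in `L`  (`InfiniteGalois.fixedField_fixingSubgroup`). -/
theorem exists_algebraMap_eq_of_fixed {a : Qbar} (ha : ∀ σ ∈ L.fixingSubgroup, σ a = a) :
    ∃ a₀ : L, algebraMap L Qbar a₀ = a := by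
  have := GT.Brg.Descent_isGalois L
  have h1 : a ∈ Set.range (algebraMap L Qbar) := by
    rw [InfiniteGalois.mem_range_algebraMap_iff_fixed]
    intro σ
    have h2 : σ.restrictScalars ℚ ∈ L.fixingSubgroup := by
      rw [IntermediateField.mem_fixingSubgroup_iff]
      intro y hy
      exact σ.commutes ⟨y, hy⟩
    exact ha _ h2
  exact h1

end Fermat.Agent.LP.PL
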