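import Fermat.Agent.LP.PL.Form.Defs

/-!
# LP-PL-FORM, file `Root`: normalised `n`-th roots in `Q̄((q))`

Tools: `GR.C.exists_pow_eq_laurent`, `GT.Brg.Descent_eq_C_mul`, `HahnSeries.leadingCoeff`,
`HahnSeries.order_mul`, `GR.C.qp_order_mul`, `coeffMap_coeff`, `GR.gal_C`, `GR.gal_coeff`.
-/

set_option autoImplicit false
set_option synthInstance.maxHeartbeats 400000

noncomputable section

namespace Fermat.Agent.LP.PL

open Fermat.Agent.GR ModularCurve IntermediateField

theorem order_gal (σ : Qbar ≃ₐ[ℚ] Qbar) (x : LaurentSeries Qbar) : (gal σ x).order = x.order := by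
  have hc : ∀ n, (gal σ x).coeff n = σ (x.coeff n) := fun n => rfl
  rcases eq_or_ne x 0 with rfl | hx
  · rw [map_zero]
  · have hgx : gal σ x ≠ 0 := (map_ne_zero (gal σ)).mpr hx
    apply le_antisymm
    · apply HahnSeries.order_le_of_coeff_ne_zero
      rw [hc]
      exact (map_ne_zero σ).mpr (fun h0 => hx (HahnSeries.coeff_order_eq_zero.mp h0))
    · apply HahnSeries.order_le_of_coeff_ne_zero
      have h1 : (gal σ x).coeff (gal σ x).order ≠ 0 :=
        fun h0 => hgx (HahnSeries.coeff_order_eq_zero.mp h0)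
      rw [hc] at h1
      exact (map_ne_zero σ).mp h1

theorem leadingCoeff_gal (σ : Qbar ≃ₐ[ℚ] Qbar) (x : LaurentSeries Qbar) :
    (gal σ x).leadingCoeff = σ x.leadingCoeff := by
  rw [HahnSeries.leadingCoeff_eq, HahnSeries.leadingCoeff_eq, order_gal]
  rfl

theorem leadingCoeff_mul (x y : LaurentSeries Qbar) :
    (x * y).leadingCoeff = x.leadingCoeff * y.leadingCoeff := by
  exact HahnSeries.leadingCoeff_mul x y

theorem leadingCoeff_pow (x : LaurentSeries Qbar) (n : ℕ) :
    (x ^ n).leadingCoeff = x.leadingCoeff ^ n := by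
  induction n with
  | zero => rw [pow_zero, pow_zero, HahnSeries.leadingCoeff_one]
  | succ n ih => rw [pow_succ, pow_succ, leadingCoeff_mul, ih]

theorem leadingCoeff_inv (x : LaurentSeries Qbar) : (x⁻¹).leadingCoeff = x.leadingCoeff⁻¹ := by
  rcases eq_or_ne x 0 with rfl | hx
  · rw [inv_zero, HahnSeries.leadingCoeff_zero, inv_zero]
  · have h1 := leadingCoeff_mul x x⁻¹
    rw [mul_inv_cancel₀ hx, HahnSeries.leadingCoeff_one] at h1
    exact eq_inv_of_mul_eq_one_right h1.symm

theorem leadingCoeff_C (a : Qbar) : (HahnSeries.C a : LaurentSeries Qbar).leadingCoeff = a := by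
  rw [HahnSeries.C_apply, HahnSeries.leadingCoeff_of_single]

theorem ne_zero_of_leadingCoeff {x : LaurentSeries Qbar} (h : x.leadingCoeff = 1) : x ≠ 0 := by
  rintro rfl
  rw [HahnSeries.leadingCoeff_zero] at h
  exact zero_ne_one h

/-- normalisation: `x = C (lc x) * x'` with `lc x' = 1`. -/
theorem exists_normalize {x : LaurentSeries Qbar} (hx : x ≠ 0) :
    ∃ (a : Qbar) (x' : LaurentSeries Qbar), a ≠ 0 ∧ x'.leadingCoeff = 1 ∧
      x = HahnSeries.C a * x' := by
  have ha : x.leadingCoeff ≠ 0 := HahnSeries.leadingCoeff_ne_zero.mpr hx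
  refine ⟨x.leadingCoeff, HahnSeries.C x.leadingCoeff⁻¹ * x, ha, ?_, ?_⟩
  · rw [leadingCoeff_mul, leadingCoeff_C, inv_mul_cancel₀ ha]
  · rw [← mul_assoc, ← map_mul, mul_inv_cancel₀ ha, map_one, one_mul]

end Fermat.Agent.LP.PL
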