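import Fermat.Agent.LP.PL.Form.Root
import Fermat.Agent.GR.C.LaurentRoot

/-!
# LP-PL-FORM, file `Root2`: normalised roots: existence, uniqueness, equivariance
-/

set_option autoImplicit false
set_option synthInstance.maxHeartbeats 400000

noncomputable section

namespace Fermat.Agent.LP.PL

open Fermat.Agent.GR ModularCurve IntermediateField

/-- two `n`-th roots of the same series differ by a constant `n`-th root of unity. -/
theorem eq_C_mul_of_pow_eq {n : ℕ} (hn : 0 < n) {x y : LaurentSeries Qbar} (hy : y ≠ 0)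
    (h : x ^ n = y ^ n) : ∃ ε : Qbar, ε ^ n = 1 ∧ x = HahnSeries.C ε * y := by
  obtain ⟨ε, hε⟩ := GT.Brg.Descent_eq_C_mul hn hy h
  refine ⟨ε, ?_, hε⟩
  have hyn : y ^ n ≠ 0 := pow_ne_zero n hy
  have h1 : (HahnSeries.C (ε ^ n) : LaurentSeries Qbar) * y ^ n = HahnSeries.C 1 * y ^ n := by
    rw [map_pow, ← mul_pow, ← hε, h, map_one, one_mul]
  exact HahnSeries.C_injective (mul_right_cancel₀ hyn h1)

theorem root_unique {n : ℕ} (hn : 0 < n) {z z' : LaurentSeries Qbar} (h : z ^ n = z' ^ n)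
    (hz : z.leadingCoeff = 1) (hz' : z'.leadingCoeff = 1) : z = z' := by
  obtain ⟨ε, -, hε⟩ := eq_C_mul_of_pow_eq hn (ne_zero_of_leadingCoeff hz') h
  have h1 := congrArg HahnSeries.leadingCoeff hε
  rw [leadingCoeff_mul, leadingCoeff_C, hz, hz', mul_one] at h1
  rw [hε, ← h1, map_one, one_mul]

theorem exists_root {n : ℕ} (hn : 0 < n) {u : LaurentSeries Qbar} (hu : u.leadingCoeff = 1)
    (hord : (n : ℤ) ∣ u.order) : ∃ z : LaurentSeries Qbar, z ^ n = u ∧ z.leadingCoeff = 1 := by
  obtain ⟨v, hv⟩ := GR.C.exists_pow_eq_laurent n hn.ne' u hord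
  have h1 : v.leadingCoeff ^ n = 1 := by rw [← leadingCoeff_pow, hv, hu]
  have h0 : v.leadingCoeff ≠ 0 := by
    intro h0
    rw [h0, zero_pow hn.ne'] at h1
    exact zero_ne_one h1
  refine ⟨HahnSeries.C v.leadingCoeff⁻¹ * v, ?_, ?_⟩
  · rw [mul_pow, hv, ← map_pow, inv_pow, h1, inv_one, map_one, one_mul]
  · rw [leadingCoeff_mul, leadingCoeff_C, inv_mul_cancel₀ h0]

/-- the normalised root of a fixed series is fixed. -/
theorem gal_eq_of_pow {n : ℕ} (hn : 0 < n) {z : LaurentSeries Qbar} (hz : z.leadingCoeff = 1)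
    {σ : Qbar ≃ₐ[ℚ] Qbar} (h : gal σ (z ^ n) = z ^ n) : gal σ z = z := by
  apply root_unique hn
  · rw [← map_pow, h]
  · rw [leadingCoeff_gal, hz, map_one]
  · exact hz

/-- `σ` fixes `x` as soon as it fixes a field containing the coefficients of `x`. -/
theorem gal_eq_of_coeff_mem {M : IntermediateField ℚ Qbar} {x : LaurentSeries Qbar}
    (hx : ∀ n, x.coeff n ∈ M) {σ τ : Qbar ≃ₐ[ℚ] Qbar} (h : ∀ a ∈ M, σ a = τ a) :
    gal σ x = gal τ x := by
  ext k
  rw [gal_coeff, gal_coeff]
  exact h _ (hx k)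

/-- the coefficients of the normalised root lie in every field containing those of the series:
`M.fixingSubgroup` fixes `z` (`gal_eq_of_pow`), `InfiniteGalois.fixedField_fixingSubgroup`
(compare `GR.C.exists_coeffField`). -/
theorem coeff_root_mem {n : ℕ} (hn : 0 < n) {M : IntermediateField ℚ Qbar}
    {z : LaurentSeries Qbar} (hz : z.leadingCoeff = 1) (h : ∀ k, (z ^ n).coeff k ∈ M) (k : ℤ) :
    z.coeff k ∈ M := by
  have halg : Algebra.IsAlgebraic ℚ Qbar := AlgebraicClosure.isAlgebraic ℚ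
  have hcl : IsAlgClosure ℚ Qbar := ⟨inferInstance, halg⟩
  have hnor : Normal ℚ Qbar := IsAlgClosure.normal ℚ Qbar
  have hgal : IsGalois ℚ Qbar := ⟨⟩
  have h1 : z.coeff k ∈ IntermediateField.fixedField M.fixingSubgroup := by
    rw [IntermediateField.mem_fixedField_iff]
    intro σ hσ
    have h2 : gal σ (z ^ n) = z ^ n := by
      ext j
      rw [gal_coeff]
      exact (IntermediateField.mem_fixingSubgroup_iff M σ).1 hσ _ (h j)
    have h3 := congrArg (fun f => HahnSeries.coeff f k) (gal_eq_of_pow hn hz h2)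
    simpa only [gal_coeff] using h3
  rwa [InfiniteGalois.fixedField_fixingSubgroup] at h1

end Fermat.Agent.LP.PL
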