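import Fermat.Agent.LP.PL.Form.AbsDefs

/-!
# LP-PL-FORM, file `Split` (Mathlib only): density of the fixed field, `e = f = 1`

`x_n := trG g p (x * e_n)`, `e_n = sepSeq e n`.  Then
`x_n / x - 1 = (e_n - 1) + ∑_{0 < k < p} (g^k x / x) * g^k e_n`, and `e_n - 1`, `g^k e_n` are divisible by
`c ^ (2 ^ n)` in `W`.
-/

set_option autoImplicit false

noncomputable section

namespace Fermat.Agent.LP.PL

variable {K' : Type*} [Field K'] {g : K' ≃+* K'} {p : ℕ} {W : ValuationSubring K'} {c e : K'}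

/-- `g^[k]` is a ring homomorphism. -/
theorem Split_iter (g : K' ≃+* K') (k : ℕ) : ∃ φ : K' →+* K', ∀ x, (⇑g)^[k] x = φ x :=
  ⟨(g : K' →+* K') ^ k, fun x => by rw [RingHom.coe_pow]; rfl⟩

/-- `g (∑_{k<p} g^k x) = ∑_{k<p} g^(k+1) x`; `Finset.sum_range_succ`, `Finset.sum_range_succ'`,
`Function.iterate_succ_apply'`. -/
theorem trG_fixed (hg : ∀ x, (⇑g)^[p] x = x) (x : K') : g (trG g p x) = trG g p x := by
  unfold trG
  rw [map_sum]
  have h1 := Finset.sum_range_succ (fun k => (⇑g)^[k] x) p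
  have h2 := Finset.sum_range_succ' (fun k => (⇑g)^[k] x) p
  simp only [Function.iterate_zero, id_eq, hg x] at h1 h2
  have h3 : ∑ k ∈ Finset.range p, g ((⇑g)^[k] x) = ∑ k ∈ Finset.range p, (⇑g)^[k + 1] x :=
    Finset.sum_congr rfl fun k _ => (Function.iterate_succ_apply' _ _ _).symm
  rw [h3]
  exact add_right_cancel (h2.symm.trans h1)

/-- `e = 1 - c * ((1 - e) / c)`, `g^k e = c * (g^k e / c)`. -/
theorem SepAt.mem (hc0 : c ≠ 0) (hc : c ∈ W) (h : SepAt g p W c e) :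
    e ∈ W ∧ ∀ k : ℕ, 0 < k → k < p → (⇑g)^[k] e ∈ W := by
  refine ⟨?_, fun k hk hkp => ?_⟩
  · have e1 : e = 1 - c * ((1 - e) / c) := by
      rw [mul_div_cancel₀ _ hc0]
      ring
    rw [e1]
    exact W.sub_mem W.one_mem (W.mul_mem _ _ hc h.1)
  · have e1 : (⇑g)^[k] e = c * ((⇑g)^[k] e / c) := (mul_div_cancel₀ _ hc0).symm
    rw [e1]
    exact W.mul_mem _ _ hc (h.2 k hk hkp)

/-- `1 - (3 e² - 2 e³) = (1 - e)² (1 + 2 e)`, `3 x² - 2 x³ = x² (3 - 2 x)` with `x = g^k e`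
(`g^k` is a ring homomorphism: `Function.iterate_map_mul` ... or induction on `k`). -/
theorem SepAt.next (hc0 : c ≠ 0) (hc : c ∈ W) (h : SepAt g p W c e) :
    SepAt g p W (c ^ 2) (3 * e ^ 2 - 2 * e ^ 3) := by
  obtain ⟨he, hk⟩ := h.mem hc0 hc
  have h2 : (2 : K') ∈ W := ofNat_mem W 2
  have h3 : (3 : K') ∈ W := ofNat_mem W 3
  refine ⟨?_, fun k hk0 hkp => ?_⟩
  · have e1 : (1 - (3 * e ^ 2 - 2 * e ^ 3)) / c ^ 2 = ((1 - e) / c) ^ 2 * (1 + 2 * e) := by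
      field_simp
      ring
    rw [e1]
    exact W.mul_mem _ _ (pow_mem h.1 2) (W.add_mem _ _ W.one_mem (W.mul_mem _ _ h2 he))
  · obtain ⟨φ, hφ⟩ := Split_iter g k
    have e1 : (⇑g)^[k] (3 * e ^ 2 - 2 * e ^ 3) / c ^ 2 =
        ((⇑g)^[k] e / c) ^ 2 * (3 - 2 * (⇑g)^[k] e) := by
      rw [hφ, hφ, map_sub, map_mul, map_mul, map_pow, map_pow, map_ofNat, map_ofNat]
      field_simp
    rw [e1]
    exact W.mul_mem _ _ (pow_mem (h.2 k hk0 hkp) 2)
      (W.sub_mem h3 (W.mul_mem _ _ h2 (hk k hk0 hkp)))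

theorem SepAt.seq (hc0 : c ≠ 0) (hc : c ∈ W) (h : SepAt g p W c e) (n : ℕ) :
    SepAt g p W (c ^ 2 ^ n) (sepSeq e n) := by
  induction n with
  | zero => simpa [sepSeq] using h
  | succ n ih =>
    have := ih.next (pow_ne_zero _ hc0) (pow_mem hc _)
    rw [← pow_mul, ← pow_succ] at this
    exact this

/-- THE DENSITY LEMMA.  Choose `n₁` with `c ^ n₁ * (g^k x / x) ∈ W` for all `k < p` (`hA`, maximum over
`Finset.range p`) and `n₀` with `n₁ + 1 ≤ 2 ^ n₀`. -/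
theorem dense (hp : 0 < p) (hc0 : c ≠ 0) (hc : c ∈ W) (hA : Arch W c) (h : SepAt g p W c e)
    {x : K'} (hx : x ≠ 0) :
    ∃ n₀ : ℕ, ∀ n : ℕ, n₀ ≤ n → (trG g p (x * sepSeq e n) / x - 1) / c ∈ W := by
  choose N hN using fun k : ℕ => hA ((⇑g)^[k] x / x)
  set n₁ : ℕ := ∑ k ∈ Finset.range p, N k with hn₁
  have hmono : ∀ k < p, c ^ n₁ * ((⇑g)^[k] x / x) ∈ W := by
    intro k hk
    have hle : N k ≤ n₁ := Finset.single_le_sum (f := N) (fun _ _ => Nat.zero_le _)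
      (Finset.mem_range.2 hk)
    obtain ⟨r, hr⟩ := Nat.exists_eq_add_of_le hle
    rw [hr, add_comm, pow_add, mul_assoc]
    exact W.mul_mem _ _ (pow_mem hc r) (hN k)
  refine ⟨n₁ + 1, fun n hn => ?_⟩
  have hm : n₁ + 1 ≤ 2 ^ n := hn.trans Nat.lt_two_pow_self.le
  obtain ⟨r, hr⟩ := Nat.exists_eq_add_of_le hm
  have hS := h.seq hc0 hc n
  rw [hr] at hS
  set E : K' := sepSeq e n with hE
  obtain ⟨p', rfl⟩ : ∃ p', p = p' + 1 := ⟨p - 1, by omega⟩
  have key : (trG g (p' + 1) (x * E) / x - 1) / c =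
      -((1 - E) / c ^ (n₁ + 1 + r)) * c ^ (n₁ + r) +
        ∑ k ∈ Finset.range p', (c ^ n₁ * ((⇑g)^[k + 1] x / x)) *
          ((⇑g)^[k + 1] E / c ^ (n₁ + 1 + r)) * c ^ r := by
    unfold trG
    rw [Finset.sum_range_succ']
    simp only [Function.iterate_zero, id_eq]
    have e1 : ((∑ k ∈ Finset.range p', (⇑g)^[k + 1] (x * E) + x * E) / x - 1) / c =
        (E - 1) / c + (∑ k ∈ Finset.range p', (⇑g)^[k + 1] (x * E)) / x / c := by
      field_simp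
      ring
    rw [e1, Finset.sum_div, Finset.sum_div]
    congr 1
    · rw [pow_add, pow_add, pow_add, pow_one]
      field_simp
      ring
    · refine Finset.sum_congr rfl fun k _ => ?_
      rw [iterate_map_mul, pow_add, pow_add, pow_one]
      field_simp
  rw [key]
  refine W.add_mem _ _ (W.mul_mem _ _ (W.neg_mem _ hS.1) (pow_mem hc _)) (sum_mem fun k hk => ?_)
  have hk' : k + 1 < p' + 1 := Nat.succ_lt_succ (Finset.mem_range.1 hk)
  exact W.mul_mem _ _ (W.mul_mem _ _ (hmono _ hk') (hS.2 _ (Nat.succ_pos k) hk')) (pow_mem hc r)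

end Fermat.Agent.LP.PL
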