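import Fermat.Agent.LP.PL.Form.AbsDefs

/-!
# LP-PL-FORM, file `SplitAS` (Mathlib only): an Artin-Schreier generator separates the conjugates

`t_k := g^k t`.  `∏_{i<p} (T - i) ≡ T ^ p - T` modulo `p` in `ℤ[T]`, so `∏_{i<p} (t_k - i) ∈ p W`; the
differences `i - i'` are units of `W`, so exactly one factor is a nonunit and it lies in `p W`:
`t_k ≡ i_k` modulo `p W`.  `t_k - t - k ∈ 𝔪_W` (telescoping `shift`), so `i_k ≡ i_0 + k` modulo `p`.
`(t_k - i_0) ^ (p-1) ≡ (i_k - i_0) ^ (p-1) ≡ 1` modulo `p W` for `0 < k < p` (Fermat).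
-/

set_option autoImplicit false

noncomputable section

namespace Fermat.Agent.LP.PL

variable {K' : Type*} [Field K'] [CharZero K'] {g : K' ≃+* K'} {p : ℕ}
  {W : ValuationSubring K'} {t : K'}

/-- an integer prime to `p` is a unit of `W`. -/
theorem intCast_unit (hp : p.Prime) (hpW : (p : K') ∈ W.nonunits) {m : ℤ} (hm : ¬ (p : ℤ) ∣ m) :
    ((m : K'))⁻¹ ∈ W := by
  have hcop : IsCoprime (p : ℤ) m :=
    ((Nat.prime_iff_prime_int.1 hp).coprime_iff_not_dvd).2 hm
  obtain ⟨u, v, huv⟩ := hcop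
  have h1 : (v : K') * m = 1 - u * p := by
    have : ((u * p + v * m : ℤ) : K') = 1 := by rw [huv, Int.cast_one]
    push_cast at this
    linear_combination this
  have hup : W.valuation ((u : K') * p) < 1 := by
    rw [map_mul]
    calc W.valuation (u : K') * W.valuation (p : K') ≤ 1 * W.valuation (p : K') :=
          mul_le_mul_left ((W.valuation_le_one_iff _).2 (intCast_mem W u)) _
      _ = W.valuation (p : K') := one_mul _
      _ < 1 := (W.mem_nonunits_iff).1 hpW
  have h2 : W.valuation ((v : K') * m) = 1 := by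
    rw [h1]
    exact Valuation.map_one_sub_of_lt _ hup
  have hm0 : (m : K') ≠ 0 := by
    intro h0
    rw [h0, mul_zero, map_zero] at h2
    exact zero_ne_one h2
  have h3 : ((m : K'))⁻¹ = v * ((v : K') * m)⁻¹ := by
    have hv0 : (v : K') ≠ 0 := by
      intro h0
      rw [h0, zero_mul, map_zero] at h2
      exact zero_ne_one h2
    field_simp
  rw [h3]
  refine W.mul_mem _ _ (intCast_mem W v) ?_
  rw [← W.valuation_le_one_iff, map_inv₀, h2, inv_one]

/-- an integer which is a nonunit of `W` is divisible by `p`. -/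
theorem dvd_of_intCast_mem_nonunits (hp : p.Prime) (hpW : (p : K') ∈ W.nonunits) {m : ℤ}
    (hm : (m : K') ∈ W.nonunits) : (p : ℤ) ∣ m := by
  by_contra hcon
  have h1 := intCast_unit hp hpW hcon
  have hm0 : (m : K') ≠ 0 := by
    intro h0
    apply hcon
    have : m = 0 := by exact_mod_cast h0
    rw [this]
    exact dvd_zero _
  have h2 : W.valuation (m : K') < 1 := (W.mem_nonunits_iff).1 hm
  have h3 : W.valuation ((m : K'))⁻¹ ≤ 1 := (W.valuation_le_one_iff _).2 h1
  have h4 : W.valuation (m : K') * W.valuation ((m : K'))⁻¹ = 1 := by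
    rw [← map_mul, mul_inv_cancel₀ hm0, map_one]
  have h5 : W.valuation (m : K') * W.valuation ((m : K'))⁻¹ < 1 :=
    mul_lt_one_of_lt_of_le h2 h3
  rw [h4] at h5
  exact lt_irrefl _ h5

theorem SplitAS_prod_zmod (hp : p.Prime) :
    ∏ i ∈ Finset.range p, (Polynomial.X - Polynomial.C ((i : ℕ) : ZMod p)) =
      (Polynomial.X ^ p - Polynomial.X : Polynomial (ZMod p)) := by
  have : Fact p.Prime := ⟨hp⟩
  have hdeg : (Polynomial.X ^ p - Polynomial.X : Polynomial (ZMod p)).natDegree = p :=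
    FiniteField.X_pow_card_sub_X_natDegree_eq (ZMod p) hp.one_lt
  have hmonic : (Polynomial.X ^ p - Polynomial.X : Polynomial (ZMod p)).Monic := by
    apply Polynomial.monic_X_pow_sub
    rw [Polynomial.degree_X]
    exact_mod_cast hp.one_lt
  have hroots : (Polynomial.X ^ p - Polynomial.X : Polynomial (ZMod p)).roots =
      (Finset.univ : Finset (ZMod p)).val := by
    have := FiniteField.roots_X_pow_card_sub_X (ZMod p)
    rwa [ZMod.card] at this
  have h1 := Polynomial.prod_multiset_X_sub_C_of_monic_of_roots_card_eq hmonic (by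
    rw [hroots, hdeg, ← Finset.card_def, Finset.card_univ, ZMod.card])
  rw [hroots] at h1
  rw [← h1]
  show _ = ∏ a : ZMod p, (Polynomial.X - Polynomial.C a)
  refine Finset.prod_bij (fun i _ => ((i : ℕ) : ZMod p)) (fun _ _ => Finset.mem_univ _) ?_ ?_
    (fun _ _ => rfl)
  · intro i hi j hj hij
    rw [ZMod.natCast_eq_natCast_iff'] at hij
    rwa [Nat.mod_eq_of_lt (Finset.mem_range.1 hi), Nat.mod_eq_of_lt (Finset.mem_range.1 hj)] at hij
  · intro a _
    exact ⟨a.val, Finset.mem_range.2 (ZMod.val_lt a), ZMod.natCast_zmod_val a⟩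

theorem SplitAS_exists_poly (hp : p.Prime) :
    ∃ R : Polynomial ℤ, ∏ i ∈ Finset.range p, (Polynomial.X - Polynomial.C ((i : ℕ) : ℤ)) -
      (Polynomial.X ^ p - Polynomial.X) = Polynomial.C (p : ℤ) * R := by
  rw [← dvd_def, Polynomial.C_dvd_iff_dvd_coeff]
  intro n
  rw [← ZMod.intCast_zmod_eq_zero_iff_dvd]
  have h : (∏ i ∈ Finset.range p, (Polynomial.X - Polynomial.C ((i : ℕ) : ℤ)) -
      (Polynomial.X ^ p - Polynomial.X)).map (Int.castRingHom (ZMod p)) = 0 := by
    rw [Polynomial.map_sub, Polynomial.map_prod, Polynomial.map_sub, Polynomial.map_pow,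
      Polynomial.map_X]
    have h1 : ∀ i ∈ Finset.range p,
        (Polynomial.X - Polynomial.C ((i : ℕ) : ℤ)).map (Int.castRingHom (ZMod p)) =
          Polynomial.X - Polynomial.C ((i : ℕ) : ZMod p) := by
      intro i _
      rw [Polynomial.map_sub, Polynomial.map_X, Polynomial.map_C, eq_intCast, Int.cast_natCast]
    rw [Finset.prod_congr rfl h1, SplitAS_prod_zmod hp, sub_self]
  rw [← eq_intCast (Int.castRingHom (ZMod p)), ← Polynomial.coeff_map, h, Polynomial.coeff_zero]

theorem SplitAS_aeval_mem {x : K'} (hx : x ∈ W) (R : Polynomial ℤ) :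
    Polynomial.aeval x R ∈ W := by
  rw [Polynomial.aeval_eq_sum_range]
  refine W.toSubring.sum_mem fun i _ => ?_
  rw [zsmul_eq_mul]
  exact W.mul_mem _ _ (intCast_mem W _) (W.pow_mem hx i)

/-- `∏_{i<p} (x - i) = x ^ p - x + p * r` with `r ∈ W`, for `x ∈ W`
(`ZMod.expand_card`/`FiniteField.X_pow_card_sub_X_eq_prod`... : the polynomial
`∏_{i<p} (X - i) - (X ^ p - X) ∈ ℤ[X]` maps to `0` in `(ZMod p)[X]`, so all its coefficients are
divisible by `p`). -/
theorem prod_sub_natCast (hp : p.Prime) {x : K'} (hx : x ∈ W) :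
    (∏ i ∈ Finset.range p, (x - (i : K')) - (x ^ p - x)) / (p : K') ∈ W := by
  obtain ⟨R, hR⟩ := SplitAS_exists_poly hp
  have hp0 : (p : K') ≠ 0 := by exact_mod_cast hp.ne_zero
  have h := congrArg (Polynomial.aeval x) hR
  rw [map_sub, map_prod, map_mul, map_sub, map_pow, Polynomial.aeval_X, Polynomial.aeval_C] at h
  have h1 : ∀ i ∈ Finset.range p,
      Polynomial.aeval x (Polynomial.X - Polynomial.C ((i : ℕ) : ℤ)) = x - (i : K') := by
    intro i _
    rw [map_sub, Polynomial.aeval_X, Polynomial.aeval_C, eq_intCast, Int.cast_natCast]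
  rw [Finset.prod_congr rfl h1, eq_intCast (algebraMap ℤ K'), Int.cast_natCast] at h
  rw [h, mul_div_assoc, mul_comm, div_mul_cancel₀ _ hp0]
  exact SplitAS_aeval_mem hx R

/-- the residue of `x`. -/
theorem exists_residue_of_as (hp : p.Prime) (hpW : (p : K') ∈ W.nonunits) {x : K'} (hx : x ∈ W)
    (has : (x ^ p - x) / (p : K') ∈ W) : ∃ i : ℕ, i < p ∧ (x - (i : K')) / (p : K') ∈ W := by
  classical
  have hp0 : (p : K') ≠ 0 := by exact_mod_cast hp.ne_zero
  have hvp0 : W.valuation (p : K') ≠ 0 := (W.valuation.ne_zero_iff).2 hp0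
  have hvp : W.valuation (p : K') < 1 := (W.mem_nonunits_iff).1 hpW
  have hprod : (∏ i ∈ Finset.range p, (x - (i : K'))) / (p : K') ∈ W := by
    have := W.add_mem _ _ (prod_sub_natCast hp hx) has
    rwa [← add_div, sub_add_cancel] at this
  have hle : ∏ i ∈ Finset.range p, W.valuation (x - (i : K')) ≤ W.valuation (p : K') := by
    rw [← W.valuation_le_one_iff, map_div₀, map_prod] at hprod
    have := (div_le_iff₀ (zero_lt_iff.2 hvp0)).1 hprod
    rwa [one_mul] at this
  have hfac : ∀ i : ℕ, W.valuation (x - (i : K')) ≤ 1 := fun i =>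
    (W.valuation_le_one_iff _).2 (W.sub_mem hx (natCast_mem W i))
  obtain ⟨i₀, hi₀, hlt⟩ : ∃ i₀ ∈ Finset.range p, W.valuation (x - (i₀ : K')) < 1 := by
    by_contra hcon
    push Not at hcon
    have : ∏ i ∈ Finset.range p, W.valuation (x - (i : K')) = 1 :=
      Finset.prod_eq_one fun i hi => le_antisymm (hfac i) (hcon i hi)
    rw [this] at hle
    exact absurd hvp (not_lt.2 hle)
  have hother : ∀ i ∈ Finset.range p, i ≠ i₀ → W.valuation (x - (i : K')) = 1 := by
    intro i hi hne
    have hnd : ¬ (p : ℤ) ∣ ((i₀ : ℤ) - i) := by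
      intro hd
      have h1 := Finset.mem_range.1 hi
      have h2 := Finset.mem_range.1 hi₀
      have h3 : (i₀ : ℤ) - i = 0 := by
        apply Int.eq_zero_of_abs_lt_dvd hd
        rw [abs_lt]
        constructor <;> omega
      apply hne
      omega
    have hu : W.valuation (((i₀ : ℤ) - i : ℤ) : K') = 1 := by
      apply le_antisymm ((W.valuation_le_one_iff _).2 (intCast_mem W _))
      by_contra hcon
      rw [not_le] at hcon
      exact hnd (dvd_of_intCast_mem_nonunits hp hpW ((W.mem_nonunits_iff).2 hcon))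
    have hsplit : x - (i : K') = (x - (i₀ : K')) + (((i₀ : ℤ) - i : ℤ) : K') := by
      push_cast
      ring
    rw [hsplit, Valuation.map_add_eq_of_lt_right _ (by rw [hu]; exact hlt), hu]
  refine ⟨i₀, Finset.mem_range.1 hi₀, ?_⟩
  rw [← W.valuation_le_one_iff, map_div₀, div_le_iff₀ (zero_lt_iff.2 hvp0), one_mul]
  rw [Finset.prod_eq_single_of_mem i₀ hi₀ hother] at hle
  exact hle

theorem ASAt.exists_residue (hp : p.Prime) (hpW : (p : K') ∈ W.nonunits) (h : ASAt g p W t) :
    ∃ i : ℕ, i < p ∧ (t - (i : K')) / (p : K') ∈ W := by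
  exact exists_residue_of_as hp hpW (h.mem 0) (h.as 0)

end Fermat.Agent.LP.PL
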