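import Fermat.Agent.LP.PL.Form.OverL2

/-!
# LP-PL-FORM, file `Tower`: the extension of constants `L1 = L(ζ)` of the form `F1 L N z1`

* `upF1 : F1 L N z1 →+* F1 L' N z1` for `L ≤ L'` (coefficient inclusion);
* `L1 L ζ = L ⊔ ℚ⟮ζ⟯`; `z1` has coefficients in `L1`;
* the action of `σ ∈ Gal(Q̄/L)` on `F1 (L1 L ζ) N z1`.
-/

set_option autoImplicit false
set_option synthInstance.maxHeartbeats 400000

noncomputable section

namespace Fermat.Agent.LP.PL

open Fermat.Agent.GR ModularCurve IntermediateField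

variable {p N : ℕ} {ζ : Qbar} {L L' : IntermediateField ℚ Qbar} {u1 z1 : LaurentSeries Qbar}
  {g : F1Q N z1 ≃ₐ[Qbar] F1Q N z1}

theorem fixingSubgroup_mono (hL : L ≤ L') {σ : Qbar ≃ₐ[ℚ] Qbar} (hσ : σ ∈ L'.fixingSubgroup) :
    σ ∈ L.fixingSubgroup := by
  exact (IntermediateField.mem_fixingSubgroup_iff L σ).2
    (fun x hx => (IntermediateField.mem_fixingSubgroup_iff L' σ).1 hσ x (hL hx))

/-- `coeffMap_coeffMap`. -/
theorem coeffMap_inclusion (hL : L ≤ L') (x : LaurentSeries L) :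
    coeffMap (algebraMap L' Qbar) (coeffMap (IntermediateField.inclusion hL : L →+* L') x) =
      coeffMap (algebraMap L Qbar) x := by
  ext k
  rfl

/-- coefficient inclusion `F1 L → F1 L'`. -/
def upF1 (hL : L ≤ L') (N : ℕ) (z1 : LaurentSeries Qbar) : F1 L N z1 →+* F1 L' N z1 :=
  ((coeffMap (IntermediateField.inclusion hL : L →+* L')).comp
    (F1 L N z1).toSubfield.subtype).codRestrict (F1 L' N z1).toSubfield (fun x => by
      show coeffMap (algebraMap L' Qbar) (coeffMap (IntermediateField.inclusion hL : L →+* L')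
        (x : LaurentSeries L)) ∈ F1Q N z1
      rw [coeffMap_inclusion]
      exact x.2)

@[simp] theorem toQ_upF1 (hL : L ≤ L') (x : F1 L N z1) :
    toQ L' N z1 (upF1 hL N z1 x) = toQ L N z1 x := by
  apply Subtype.ext
  exact coeffMap_inclusion hL (x : LaurentSeries L)

/-- an element of `F1 L'` whose image over `Q̄` is fixed by `Gal(Q̄/L)` comes from `F1 L`
(`exists_toQ_eq`, `toQ_injective`, `toQ_upF1`). -/
theorem exists_upF1_eq (hL : L ≤ L') (x : F1 L' N z1)
    (hx : ∀ σ ∈ L.fixingSubgroup, gal σ ((toQ L' N z1 x : F1Q N z1) : LaurentSeries Qbar) =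
      (toQ L' N z1 x : F1Q N z1)) : ∃ e : F1 L N z1, upF1 hL N z1 e = x := by
  obtain ⟨e, he⟩ := exists_toQ_eq (L := L) (toQ L' N z1 x) hx
  refine ⟨e, toQ_injective L' N z1 ?_⟩
  rw [toQ_upF1, he]

/-- `upF1` maps `FF L N` to `FF L' N`. -/
theorem upF1_mem_FF (hL : L ≤ L') (x : F1 L N z1) (hx : (x : LaurentSeries L) ∈ FF L N) :
    ((upF1 hL N z1 x : F1 L' N z1) : LaurentSeries L') ∈ FF L' N := by
  exact C.coeffMap_mem_FF N (IntermediateField.inclusion hL : L →+* L') hx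

theorem upF1_algebraMap (hL : L ≤ L') (a : L) :
    upF1 hL N z1 (algebraMap L (F1 L N z1) a) =
      algebraMap L' (F1 L' N z1) (IntermediateField.inclusion hL a) := by
  apply toQ_injective L' N z1
  rw [toQ_upF1, toQ_algebraMap, toQ_algebraMap]
  rfl

/-- the deck transformations over `L` and `L'` are compatible. -/
theorem upF1_deck (hL : L ≤ L') {gL : F1 L N z1 ≃ₐ[L] F1 L N z1}
    (hgL : ∀ x, toQ L N z1 (gL x) = g (toQ L N z1 x)) {gL' : F1 L' N z1 ≃ₐ[L'] F1 L' N z1}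
    (hgL' : ∀ x, toQ L' N z1 (gL' x) = g (toQ L' N z1 x)) (e : F1 L N z1) :
    upF1 hL N z1 (gL e) = gL' (upF1 hL N z1 e) := by
  apply toQ_injective L' N z1
  rw [toQ_upF1, hgL, hgL', toQ_upF1]

end Fermat.Agent.LP.PL
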