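import Fermat.Agent.LP.PL.Form.TowerL1

/-!
# LP-PL-FORM, file `Tower2`: the inputs of `chart_asGen`, `chart_formula`, `chart_unif` (PL-ABS)
-/

set_option autoImplicit false
set_option synthInstance.maxHeartbeats 400000

noncomputable section

namespace Fermat.Agent.LP.PL

open Fermat.Agent.GR ModularCurve IntermediateField

variable {p N : ℕ} {ζ : Qbar} {L : IntermediateField ℚ Qbar} {u1 z1 : LaurentSeries Qbar}
  {g : F1Q N z1 ≃ₐ[Qbar] F1Q N z1}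

/-- the exponents `c` of the elements of `Gal(Q̄/L)` on `ζ`. -/
def TowIdx (p : ℕ) (ζ : Qbar) (L : IntermediateField ℚ Qbar) : Type :=
  {c : Fin p // ∃ σ ∈ L.fixingSubgroup, σ ζ = ζ ^ (c : ℕ)}

instance (p : ℕ) (ζ : Qbar) (L : IntermediateField ℚ Qbar) : Fintype (TowIdx p ζ L) := by
  classical
  unfold TowIdx
  infer_instance

theorem Tower2_zero_not (hζ : IsPrimitiveRoot ζ p) (hp : p.Prime) :
    ¬ ∃ σ ∈ L.fixingSubgroup, σ ζ = ζ ^ (((⟨0, hp.pos⟩ : Fin p)) : ℕ) := by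
  rintro ⟨σ, -, hσ⟩
  rw [pow_zero] at hσ
  exact hζ.ne_one hp.one_lt (σ.injective (hσ.trans (map_one σ).symm))

/-- `1 ≤ card ≤ p - 1` : `c = 0` does not occur, `c = 1` does. -/
theorem TowIdx_card (hζ : IsPrimitiveRoot ζ p) (hp : p.Prime) :
    ¬ p ∣ Fintype.card (TowIdx p ζ L) := by
  classical
  have hpos : 0 < Fintype.card (TowIdx p ζ L) :=
    Fintype.card_pos_iff.mpr ⟨⟨⟨1, hp.one_lt⟩, 1, one_mem _, by simp⟩⟩
  have hlt : Fintype.card (TowIdx p ζ L) < p := by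
    have h0 : ¬ ∃ σ ∈ L.fixingSubgroup, σ ζ = ζ ^ (((⟨0, hp.pos⟩ : Fin p)) : ℕ) :=
      Tower2_zero_not hζ hp
    have h1 := Fintype.card_subtype_lt
      (p := fun c : Fin p => ∃ σ ∈ L.fixingSubgroup, σ ζ = ζ ^ (c : ℕ)) h0
    rw [Fintype.card_fin] at h1
    have h2 : Fintype.card (TowIdx p ζ L) =
        Fintype.card {c : Fin p // ∃ σ ∈ L.fixingSubgroup, σ ζ = ζ ^ (c : ℕ)} :=
      Fintype.card_congr (Equiv.refl _)
    rw [h2]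
    exact h1
  exact Nat.not_dvd_of_pos_of_lt hpos hlt

/-- the inclusion `FF L N → F1 L N z1`. -/
def incL (L : IntermediateField ℚ Qbar) (N : ℕ) (z1 : LaurentSeries Qbar) :
    FF L N →ₐ[L] F1 L N z1 := IntermediateField.inclusion (FF_le_F1 L N z1)

/-- powers in `RingAut` are iterates. -/
theorem ringEquiv_pow_apply {E : Type*} [Ring E] (g : E ≃+* E) (k : ℕ) (e : E) :
    (g ^ k) e = (⇑g)^[k] e := by
  induction k with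
  | zero => rfl
  | succ k ih =>
    rw [pow_succ', RingAut.mul_apply, Function.iterate_succ_apply', ih]

/-- The inputs `hgφ`, `hfix`, `hgp` of `chart_formula`, `chart_unif`. -/
theorem deckL_inputs (h : LineData p N ζ L u1) (hz : IsCoverRoot p N ζ L u1 z1)
    (hg : IsDeck N ζ z1 g) {gL : F1 L N z1 ≃ₐ[L] F1 L N z1}
    (hgL : ∀ x, toQ L N z1 (gL x) = g (toQ L N z1 x)) :
    (∀ f : FF L N, gL.toRingEquiv (incL L N z1 f) = incL L N z1 f) ∧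
    (∀ e : F1 L N z1, gL.toRingEquiv e = e → ∃ f : FF L N, incL L N z1 f = e) ∧
    (∀ e : F1 L N z1, (gL.toRingEquiv ^ p) e = e) := by
  refine ⟨fun f => ?_, fun e he => ?_, fun e => ?_⟩
  · exact (deckL_fixed_iff h hz hg hgL (incL L N z1 f)).2 f.2
  · exact ⟨⟨e, (deckL_fixed_iff h hz hg hgL e).1 he⟩, rfl⟩
  · rw [ringEquiv_pow_apply]
    exact deckL_iterate h.root hg hgL e

/-- The tower `E = F1 L ⊆ E₁ = F1 L(ζ)`: all the field theoretic inputs of `chart_asGen`. -/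
structure AbsTower {E E₁ : Type*} [Field E] [Field E₁] (p : ℕ) (ψ : E →+* E₁) (g : E ≃+* E)
    (g₁ : E₁ ≃+* E₁) (ζ Z : E₁) {ι : Type*} [Fintype ι] (δ : ι → E₁ ≃+* E₁) : Prop where
  hp0 : (p : E₁) ≠ 0
  hg₁ : ∀ e : E, ψ (g e) = g₁ (ψ e)
  hζ : IsPrimitiveRoot ζ p
  hg₁ζ : g₁ ζ = ζ
  hcard : ¬ p ∣ Fintype.card ι
  hδψ : ∀ i (e : E), δ i (ψ e) = ψ e
  hδfix : ∀ x : E₁, (∀ i, δ i x = x) → ∃ e : E, ψ e = x
  hperm : ∀ i, ∃ π : Equiv.Perm ι, ∀ k e, δ i (δ k e) = δ (π k) e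
  hcomm : ∀ i e, g₁ (δ i e) = δ i (g₁ e)
  hgZ : g₁ Z = ζ * Z

/-- a family `δ` of actions of representatives. -/
theorem exists_delta (hζ : IsPrimitiveRoot ζ p) (hp : p.Prime) (hz : IsCoverRoot p N ζ L u1 z1) :
    ∃ δ : TowIdx p ζ L → F1 (L1 L ζ) N z1 ≃+* F1 (L1 L ζ) N z1,
      ∀ i, ∃ σ ∈ L.fixingSubgroup, σ ζ = ζ ^ ((i.1 : Fin p) : ℕ) ∧ ∀ x,
        ((toQ (L1 L ζ) N z1 (δ i x) : F1Q N z1) : LaurentSeries Qbar) =
          gal σ ((toQ (L1 L ζ) N z1 x : F1Q N z1) : LaurentSeries Qbar) := by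
  have H : ∀ i : TowIdx p ζ L, ∃ d : F1 (L1 L ζ) N z1 ≃+* F1 (L1 L ζ) N z1,
      ∃ σ ∈ L.fixingSubgroup, σ ζ = ζ ^ ((i.1 : Fin p) : ℕ) ∧ ∀ x,
        ((toQ (L1 L ζ) N z1 (d x) : F1Q N z1) : LaurentSeries Qbar) =
          gal σ ((toQ (L1 L ζ) N z1 x : F1Q N z1) : LaurentSeries Qbar) := by
    intro i
    obtain ⟨σ, hσ, hσζ⟩ := i.2
    obtain ⟨d, hd⟩ := exists_galL1 hζ hp hz hσ
    exact ⟨d, σ, hσ, hσζ, hd⟩
  choose δ hδ using H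
  exact ⟨δ, hδ⟩

/-- the index of an element of `Gal(Q̄/L)`. -/
theorem exists_idx (hζ : IsPrimitiveRoot ζ p) (hp : p.Prime) {σ : Qbar ≃ₐ[ℚ] Qbar}
    (hσ : σ ∈ L.fixingSubgroup) : ∃ i : TowIdx p ζ L, σ ζ = ζ ^ ((i.1 : Fin p) : ℕ) := by
  obtain ⟨c, -, hc, hσc⟩ := exists_pow_eq_gal hζ hp σ
  exact ⟨⟨⟨c, hc⟩, σ, hσ, hσc⟩, hσc⟩

theorem gal_mul_apply' (σ τ : Qbar ≃ₐ[ℚ] Qbar) (x : LaurentSeries Qbar) :
    gal (σ * τ) x = gal σ (gal τ x) := by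
  ext k
  rfl

/-- `hperm`: multiplication by `i` on the indices. -/
theorem exists_perm (hζ : IsPrimitiveRoot ζ p) (hp : p.Prime) (i : TowIdx p ζ L) :
    ∃ π : Equiv.Perm (TowIdx p ζ L), ∀ k : TowIdx p ζ L,
      ζ ^ (((π k).1 : Fin p) : ℕ) = ζ ^ (((i.1 : Fin p) : ℕ) * ((k.1 : Fin p) : ℕ)) := by
  have hmod : ∀ m : ℕ, ζ ^ (m % p) = ζ ^ m := fun m => (pow_eq_pow_mod m hζ.pow_eq_one).symm
  have hi0 : ((i.1 : Fin p) : ℕ) ≠ 0 := by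
    intro h0
    obtain ⟨σ, hσ, hσζ⟩ := i.2
    exact Tower2_zero_not (L := L) hζ hp ⟨σ, hσ, by rw [hσζ, h0]⟩
  have hcop : Nat.gcd p ((i.1 : Fin p) : ℕ) = 1 :=
    Nat.coprime_of_lt_prime hi0 i.1.2 hp
  have hmem : ∀ k : TowIdx p ζ L, ∃ σ ∈ L.fixingSubgroup, σ ζ =
      ζ ^ (((⟨(((i.1 : Fin p) : ℕ) * ((k.1 : Fin p) : ℕ)) % p, Nat.mod_lt _ hp.pos⟩ : Fin p)) : ℕ) := by
    intro k
    obtain ⟨σ, hσ, hσζ⟩ := i.2
    obtain ⟨τ, hτ, hτζ⟩ := k.2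
    refine ⟨σ * τ, mul_mem hσ hτ, ?_⟩
    rw [AlgEquiv.mul_apply, hτζ, map_pow, hσζ, ← pow_mul]
    exact (hmod _).symm
  let f : TowIdx p ζ L → TowIdx p ζ L := fun k => ⟨_, hmem k⟩
  have hf : Function.Injective f := by
    intro k k' hkk'
    have h1 : (((i.1 : Fin p) : ℕ) * ((k.1 : Fin p) : ℕ)) % p =
        (((i.1 : Fin p) : ℕ) * ((k'.1 : Fin p) : ℕ)) % p :=
      congrArg (fun x : TowIdx p ζ L => ((x.1 : Fin p) : ℕ)) hkk'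
    have h2 : ((k.1 : Fin p) : ℕ) ≡ ((k'.1 : Fin p) : ℕ) [MOD p] :=
      Nat.ModEq.cancel_left_of_coprime hcop h1
    exact Subtype.ext (Fin.ext (Nat.ModEq.eq_of_lt_of_lt h2 k.1.2 k'.1.2))
  refine ⟨Equiv.ofBijective f (Finite.injective_iff_bijective.mp hf), fun k => ?_⟩
  exact hmod _

/-- `ζ` as an element of `F1 L1`. -/
def zF1L (L : IntermediateField ℚ Qbar) (ζ : Qbar) (N : ℕ) (z1 : LaurentSeries Qbar) :
    F1 (L1 L ζ) N z1 := algebraMap (L1 L ζ) (F1 (L1 L ζ) N z1) (zL1 L ζ)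

theorem toQ_zF1L : toQ (L1 L ζ) N z1 (zF1L L ζ N z1) = algebraMap Qbar (F1Q N z1) ζ := by
  unfold zF1L
  rw [toQ_algebraMap]
  rfl

theorem zF1L_root (hζ : IsPrimitiveRoot ζ p) : IsPrimitiveRoot (zF1L L ζ N z1) p := by
  have h1 : IsPrimitiveRoot (zL1 L ζ) p :=
    IsPrimitiveRoot.of_map_of_injective (f := algebraMap (L1 L ζ) Qbar) hζ
      (algebraMap (L1 L ζ) Qbar).injective
  exact h1.map_of_injective (algebraMap (L1 L ζ) (F1 (L1 L ζ) N z1)).injective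

set_option maxHeartbeats 1000000 in
/-- THE TOWER. -/
theorem exists_tower (h : LineData p N ζ L u1) (hz : IsCoverRoot p N ζ L u1 z1)
    (hg : IsDeck N ζ z1 g) {gL : F1 L N z1 ≃ₐ[L] F1 L N z1}
    (hgL : ∀ x, toQ L N z1 (gL x) = g (toQ L N z1 x)) :
    ∃ (g₁ : F1 (L1 L ζ) N z1 ≃ₐ[L1 L ζ] F1 (L1 L ζ) N z1) (Z : F1 (L1 L ζ) N z1)
      (δ : TowIdx p ζ L → F1 (L1 L ζ) N z1 ≃+* F1 (L1 L ζ) N z1),
      (∀ x, toQ (L1 L ζ) N z1 (g₁ x) = g (toQ (L1 L ζ) N z1 x)) ∧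
      toQ (L1 L ζ) N z1 Z = zF1 N z1 ∧
      AbsTower p (upF1 (le_L1 L ζ) N z1) gL.toRingEquiv g₁.toRingEquiv (zF1L L ζ N z1) Z δ ∧
      ∀ i, ∃ σ ∈ L.fixingSubgroup, σ ζ = ζ ^ ((i.1 : Fin p) : ℕ) ∧ ∀ x,
        ((toQ (L1 L ζ) N z1 (δ i x) : F1Q N z1) : LaurentSeries Qbar) =
          gal σ ((toQ (L1 L ζ) N z1 x : F1Q N z1) : LaurentSeries Qbar) := by
  have hp := h.prime
  have hζ := h.root
  have hL := le_L1 L ζ
  obtain ⟨g₁, hg₁⟩ := exists_deckL (h.mono hL) (hz.mono hL) hg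
  obtain ⟨Z, hZ⟩ := exists_Z1 hz
  obtain ⟨δ, hδ⟩ := exists_delta hζ hp hz
  have hinj := toQ_injective (L1 L ζ) N z1
  have hinj' : ∀ x y : F1 (L1 L ζ) N z1,
      ((toQ (L1 L ζ) N z1 x : F1Q N z1) : LaurentSeries Qbar) =
        ((toQ (L1 L ζ) N z1 y : F1Q N z1) : LaurentSeries Qbar) → x = y :=
    fun x y hxy => hinj (Subtype.ext hxy)
  refine ⟨g₁, Z, δ, hg₁, hZ, ?_, hδ⟩
  refine
    { hp0 := ?_
      hg₁ := fun e => upF1_deck hL hgL hg₁ e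
      hζ := zF1L_root hζ
      hg₁ζ := g₁.commutes _
      hcard := TowIdx_card hζ hp
      hδψ := ?_
      hδfix := ?_
      hperm := ?_
      hcomm := ?_
      hgZ := ?_ }
  · exact_mod_cast hp.ne_zero
  · intro i e
    obtain ⟨σ, hσ, -, hσx⟩ := hδ i
    apply hinj'
    rw [hσx, toQ_upF1, coe_toQ, gal_coeffMap _ hσ]
  · intro x hx
    apply exists_upF1_eq hL
    intro σ hσ
    obtain ⟨i, hi⟩ := exists_idx hζ hp hσ
    obtain ⟨τ, hτ, hτζ, hτx⟩ := hδ i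
    rw [coe_toQ, gal_eq_of_zetaL1 hσ hτ (hi.trans hτζ.symm), ← coe_toQ, ← hτx, hx i]
  · intro i
    obtain ⟨π, hπ⟩ := exists_perm hζ hp i
    refine ⟨π, fun k e => ?_⟩
    obtain ⟨σ, hσ, hσζ, hσx⟩ := hδ i
    obtain ⟨τ, hτ, hτζ, hτx⟩ := hδ k
    obtain ⟨ρ, hρ, hρζ, hρx⟩ := hδ (π k)
    apply hinj'
    rw [hσx, hτx, hρx, coe_toQ, ← gal_mul_apply']
    refine gal_eq_of_zetaL1 (L.fixingSubgroup.mul_mem hσ hτ) hρ ?_ _
    rw [hρζ, hπ k, AlgEquiv.mul_apply, hτζ, map_pow, hσζ, pow_mul]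
  · intro i e
    obtain ⟨σ, hσ, -, hσx⟩ := hδ i
    apply hinj'
    have h1 := congrArg (Subtype.val) (hg.gal_comm h hz σ hσ (toQ (L1 L ζ) N z1 e))
    rw [coe_galF1] at h1
    have h2 : toQ (L1 L ζ) N z1 (δ i e) = galF1 h.root h.prime.pos hz σ hσ (toQ (L1 L ζ) N z1 e) :=
      Subtype.ext (hσx e)
    show ((toQ (L1 L ζ) N z1 (g₁ (δ i e)) : F1Q N z1) : LaurentSeries Qbar) =
      ((toQ (L1 L ζ) N z1 (δ i (g₁ e)) : F1Q N z1) : LaurentSeries Qbar)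
    rw [hσx, hg₁, hg₁, h2, h1]
  · apply hinj
    show toQ (L1 L ζ) N z1 (g₁ Z) = _
    rw [hg₁, map_mul, hZ, toQ_zF1L, hg.root]

end Fermat.Agent.LP.PL
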