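import Fermat.Agent.LP.PL.Form.Tower

/-!
# LP-PL-FORM, file `TowerL1`: the field `L1 = L(ζ)` and the action of `Gal(Q̄/L)` on `F1 L1 N z1`
-/

set_option autoImplicit false
set_option synthInstance.maxHeartbeats 400000

noncomputable section

namespace Fermat.Agent.LP.PL

open Fermat.Agent.GR ModularCurve IntermediateField

variable {p N : ℕ} {ζ : Qbar} {L L' : IntermediateField ℚ Qbar} {u1 z1 : LaurentSeries Qbar}
  {g : F1Q N z1 ≃ₐ[Qbar] F1Q N z1}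

/-! ### the field `L1 = L(ζ)` -/

/-- `L(ζ)`. -/
def L1 (L : IntermediateField ℚ Qbar) (ζ : Qbar) : IntermediateField ℚ Qbar := L ⊔ ℚ⟮ζ⟯

theorem le_L1 (L : IntermediateField ℚ Qbar) (ζ : Qbar) : L ≤ L1 L ζ := le_sup_left

theorem zeta_mem_L1 (L : IntermediateField ℚ Qbar) (ζ : Qbar) : ζ ∈ L1 L ζ :=
  (le_sup_right : ℚ⟮ζ⟯ ≤ L1 L ζ) (mem_adjoin_simple_self ℚ ζ)

/-- `ζ` as an element of `L1`. -/
def zL1 (L : IntermediateField ℚ Qbar) (ζ : Qbar) : L1 L ζ := ⟨ζ, zeta_mem_L1 L ζ⟩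

/-- (`IntermediateField.fixingSubgroup_sup`, or: the fixed field of `σ` contains `L` and `ζ`.) -/
theorem mem_fixingSubgroup_L1_iff {σ : Qbar ≃ₐ[ℚ] Qbar} :
    σ ∈ (L1 L ζ).fixingSubgroup ↔ σ ∈ L.fixingSubgroup ∧ σ ζ = ζ := by
  rw [L1, IntermediateField.fixingSubgroup_sup, Subgroup.mem_inf]
  refine and_congr_right fun _ => ?_
  rw [IntermediateField.mem_fixingSubgroup_iff]
  constructor
  · intro h
    exact h ζ (mem_adjoin_simple_self ℚ ζ)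
  · intro h x hx
    induction hx using IntermediateField.adjoin_induction with
    | mem x hx => rw [Set.mem_singleton_iff.1 hx, h]
    | algebraMap x => exact σ.commutes x
    | add x y _ _ hx hy => rw [map_add, hx, hy]
    | inv x _ hx => rw [map_inv₀, hx]
    | mul x y _ _ hx hy => rw [map_mul, hx, hy]

/-- every automorphism maps `ζ` to a power `ζ ^ c`, `0 < c < p`. -/
theorem exists_pow_eq_gal (hζ : IsPrimitiveRoot ζ p) (hp : p.Prime) (σ : Qbar ≃ₐ[ℚ] Qbar) :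
    ∃ c : ℕ, 0 < c ∧ c < p ∧ σ ζ = ζ ^ c := by
  haveI : NeZero p := ⟨hp.ne_zero⟩
  have h1 : (σ ζ) ^ p = 1 := by rw [← map_pow, hζ.pow_eq_one, map_one]
  obtain ⟨i, hi, hiζ⟩ := hζ.eq_pow_of_pow_eq_one h1
  refine ⟨i, Nat.pos_of_ne_zero ?_, hi, hiζ.symm⟩
  rintro rfl
  rw [pow_zero] at hiζ
  have h2 : σ ζ = σ 1 := by rw [map_one, hiζ]
  exact hζ.ne_one hp.one_lt (σ.injective h2)

/-- `L1 / L` is normal. -/
theorem conj_mem_fixingSubgroup_L1 (hζ : IsPrimitiveRoot ζ p) (hp : p.Prime)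
    {σ τ : Qbar ≃ₐ[ℚ] Qbar} (hσ : σ ∈ L.fixingSubgroup) (hτ : τ ∈ (L1 L ζ).fixingSubgroup) :
    σ⁻¹ * τ * σ ∈ (L1 L ζ).fixingSubgroup := by
  rw [mem_fixingSubgroup_L1_iff] at hτ ⊢
  refine ⟨mul_mem (mul_mem (inv_mem hσ) hτ.1) hσ, ?_⟩
  obtain ⟨c, -, -, hc⟩ := exists_pow_eq_gal hζ hp σ
  rw [AlgEquiv.mul_apply, AlgEquiv.mul_apply, hc, map_pow, hτ.2, ← hc]
  exact σ.symm_apply_apply ζ

/-- `z1` has coefficients in `L1`  (`IsCoverRoot.fix`, `exists_toQ_eq`). -/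
theorem exists_Z1 (hz : IsCoverRoot p N ζ L u1 z1) :
    ∃ Z : F1 (L1 L ζ) N z1, toQ (L1 L ζ) N z1 Z = zF1 N z1 :=
  exists_toQ_eq (L := L1 L ζ) (zF1 N z1) fun σ hσ =>
    hz.fix σ (mem_fixingSubgroup_L1_iff.1 hσ).1 (mem_fixingSubgroup_L1_iff.1 hσ).2

/-- two elements of `Gal(Q̄/L)` with the same value at `ζ` act in the same way on series with
coefficients in `L1`. -/
theorem gal_eq_of_zetaL1 {σ τ : Qbar ≃ₐ[ℚ] Qbar} (hσ : σ ∈ L.fixingSubgroup)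
    (hτ : τ ∈ L.fixingSubgroup) (h : σ ζ = τ ζ) (x : LaurentSeries (L1 L ζ)) :
    gal σ (coeffMap (algebraMap (L1 L ζ) Qbar) x) = gal τ (coeffMap (algebraMap (L1 L ζ) Qbar) x) := by
  have hmem : τ⁻¹ * σ ∈ (L1 L ζ).fixingSubgroup := by
    rw [mem_fixingSubgroup_L1_iff]
    refine ⟨mul_mem (inv_mem hτ) hσ, ?_⟩
    rw [AlgEquiv.mul_apply, h]
    exact τ.symm_apply_apply ζ
  rw [IntermediateField.mem_fixingSubgroup_iff] at hmem
  ext n
  rw [gal_coeff, gal_coeff, coeffMap_coeff]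
  have h1 := hmem _ (x.coeff n).2
  rw [AlgEquiv.mul_apply] at h1
  have h2 := congrArg τ h1
  rw [show τ (τ⁻¹ (σ ((x.coeff n : L1 L ζ) : Qbar))) = σ ((x.coeff n : L1 L ζ) : Qbar) from
    τ.apply_symm_apply _] at h2
  exact h2

theorem TowerL1_gal_mul_apply (σ τ : Qbar ≃ₐ[ℚ] Qbar) (x : LaurentSeries Qbar) :
    gal (σ * τ) x = gal σ (gal τ x) := by
  ext n
  rw [gal_coeff, gal_coeff, gal_coeff, AlgEquiv.mul_apply]

theorem TowerL1_gal_one_apply (x : LaurentSeries Qbar) : gal (1 : Qbar ≃ₐ[ℚ] Qbar) x = x := by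
  ext n
  rw [gal_coeff, AlgEquiv.one_apply]

/-- `gal σ`, `σ ∈ Gal(Q̄/L)`, preserves the image of `F1 L1`. -/
theorem exists_toQ_eq_gal (hζ : IsPrimitiveRoot ζ p) (hp : p.Prime)
    (hz : IsCoverRoot p N ζ L u1 z1) {σ : Qbar ≃ₐ[ℚ] Qbar} (hσ : σ ∈ L.fixingSubgroup)
    (x : F1 (L1 L ζ) N z1) :
    ∃ y : F1 (L1 L ζ) N z1, ((toQ (L1 L ζ) N z1 y : F1Q N z1) : LaurentSeries Qbar) =
      gal σ ((toQ (L1 L ζ) N z1 x : F1Q N z1) : LaurentSeries Qbar) := by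
  obtain ⟨y, hy⟩ := exists_toQ_eq (L := L1 L ζ)
    (galF1 hζ hp.pos hz σ hσ (toQ (L1 L ζ) N z1 x)) (by
      intro τ hτ
      rw [coe_galF1, coe_toQ, ← TowerL1_gal_mul_apply]
      have e : τ * σ = σ * (σ⁻¹ * τ * σ) := by group
      rw [e, TowerL1_gal_mul_apply, gal_coeffMap _ (conj_mem_fixingSubgroup_L1 hζ hp hσ hτ)])
  exact ⟨y, by rw [hy, coe_galF1]⟩

/-- THE ACTION OF `σ ∈ Gal(Q̄/L)` ON `F1 L1`. -/
theorem exists_galL1 (hζ : IsPrimitiveRoot ζ p) (hp : p.Prime)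
    (hz : IsCoverRoot p N ζ L u1 z1) {σ : Qbar ≃ₐ[ℚ] Qbar} (hσ : σ ∈ L.fixingSubgroup) :
    ∃ d : F1 (L1 L ζ) N z1 ≃+* F1 (L1 L ζ) N z1, ∀ x,
      ((toQ (L1 L ζ) N z1 (d x) : F1Q N z1) : LaurentSeries Qbar) =
        gal σ ((toQ (L1 L ζ) N z1 x : F1Q N z1) : LaurentSeries Qbar) := by
  have hσ' : σ⁻¹ ∈ L.fixingSubgroup := inv_mem hσ
  choose d hd using exists_toQ_eq_gal hζ hp hz hσ
  choose d' hd' using exists_toQ_eq_gal hζ hp hz hσ'
  have inj : ∀ x y : F1 (L1 L ζ) N z1,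
      ((toQ (L1 L ζ) N z1 x : F1Q N z1) : LaurentSeries Qbar) =
        (toQ (L1 L ζ) N z1 y : F1Q N z1) → x = y :=
    fun x y h => toQ_injective _ _ _ (Subtype.ext h)
  refine ⟨{ toFun := d, invFun := d', left_inv := ?_, right_inv := ?_, map_mul' := ?_,
            map_add' := ?_ }, hd⟩
  · intro x
    apply inj
    rw [hd', hd, ← TowerL1_gal_mul_apply, inv_mul_cancel, TowerL1_gal_one_apply]
  · intro x
    apply inj
    rw [hd, hd', ← TowerL1_gal_mul_apply, mul_inv_cancel, TowerL1_gal_one_apply]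
  · intro x y
    apply inj
    rw [hd, map_mul, map_mul, IntermediateField.coe_mul, IntermediateField.coe_mul, map_mul, hd, hd]
  · intro x y
    apply inj
    rw [hd, map_add, map_add, IntermediateField.coe_add, IntermediateField.coe_add, map_add, hd, hd]

end Fermat.Agent.LP.PL
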